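import Mathlib

/-!
# Abstract counting theorem behind the Hasse norm theorem for unramified cyclic extensions

Abstract data: commutative groups `𝕄` ("`Mˣ`") and `𝕀` ("fractional ideals of `M`") with
endomorphisms `s`, `t` ("the generator `σ` of the Galois group"), "norm" endomorphisms `nM`, `nI`
and an equivariant homomorphism `d : 𝕄 →* 𝕀` ("principal ideal of").

Under Hilbert 90 for `𝕄`, its analogue for `𝕀`, finiteness of the class group `𝕀 / d 𝕄` and
a Herbrand quotient hypothesis for the units `ker d`, we prove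
`[𝕀^σ : d(𝕄^σ) · N(𝕀)] = p · [A : N(𝕄)]`, where `A = {x ∈ 𝕄^σ | d x ∈ N(𝕀)}`.
-/

namespace Fermat.Agent.CFT.HNT

open Subgroup

section helpers

variable {G G' : Type*} [Group G] [Group G']

theorem relIndex_map_map_of_ker_le (f : G →* G') {H K : Subgroup G} (hker : f.ker ≤ H)
    (hHK : H ≤ K) : (H.map f).relIndex (K.map f) = H.relIndex K := by
  rw [relIndex_map_map, sup_of_le_left hker, sup_of_le_left (hker.trans hHK)]

/-- For an endomorphism `f` of a commutative group `G` preserving a finite-index subgroup `P`: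
`[G : P · f(G)] = [f⁻¹(P) : P]`. -/
theorem index_sup_range_eq_relIndex_comap {G : Type*} [CommGroup G] (f : G →* G)
    (P : Subgroup G) (hP : P.index ≠ 0) (hfP : P ≤ P.comap f) :
    (P ⊔ f.range).index = P.relIndex (P.comap f) := by
  classical
  let π := QuotientGroup.mk' P
  have hπ : Function.Surjective π := QuotientGroup.mk'_surjective P
  let fbar : (G ⧸ P) →* (G ⧸ P) := QuotientGroup.map P P f hfP
  have hcomm : fbar.comp π = π.comp f := by
    ext x; rfl
  have : Finite (G ⧸ P) := index_ne_zero_iff_finite.mp hP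
  have : fbar.ker.FiniteIndex := inferInstance
  have h1 : fbar.range.index = Nat.card fbar.ker := index_range
  have h2 : fbar.range = f.range.map π := by
    rw [MonoidHom.map_range, ← hcomm, MonoidHom.range_comp, MonoidHom.range_eq_top.mpr hπ,
      ← MonoidHom.range_eq_map]
  have h3 : (P ⊔ f.range).index = fbar.range.index := by
    rw [← index_comap_of_surjective fbar.range hπ, h2, comap_map_eq, QuotientGroup.ker_mk',
      sup_comm]
  have h4 : P.comap f = fbar.ker.comap π := by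
    ext x
    simp only [mem_comap, MonoidHom.mem_ker]
    rw [show fbar (π x) = π (f x) from rfl]
    exact (QuotientGroup.eq_one_iff _).symm
  have h5 : P.relIndex (P.comap f) = Nat.card fbar.ker := by
    have hPb : (⊥ : Subgroup (G ⧸ P)).comap π = P := by
      rw [MonoidHom.comap_bot]
      exact QuotientGroup.ker_mk' P
    have key : ((⊥ : Subgroup (G ⧸ P)).comap π).relIndex (fbar.ker.comap π) =
        Nat.card fbar.ker := by
      rw [relIndex_comap, relIndex_bot_left, map_comap_eq_self_of_surjective hπ]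
    rw [hPb, ← h4] at key
    exact key
  rw [h3, h1, h5]

end helpers

section abstract

/-- The "coboundary" endomorphism `x ↦ s x / x`. -/
def cobd {G : Type*} [CommGroup G] (s : G →* G) : G →* G := s / MonoidHom.id G

@[simp] theorem cobd_apply {G : Type*} [CommGroup G] (s : G →* G) (x : G) :
    cobd s x = s x / x := rfl

theorem mem_ker_cobd {G : Type*} [CommGroup G] (s : G →* G) (x : G) :
    x ∈ (cobd s).ker ↔ s x = x := by
  rw [MonoidHom.mem_ker, cobd_apply, div_eq_one]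

/-- **Abstract counting theorem, ratio form** (no hypothesis on the Herbrand quotient of
`ker d`).  With `E = 𝕄^σ`, `A = {x ∈ E | d x ∈ N(𝕀)}`, `c = [𝕀^σ : d(E) · N(𝕀)]`,
`h⁰ = [U^σ : N U]`, `h¹ = [U[N] : (σ-1) U]` for `U = ker d`:
`c · h⁰ = h¹ · [A : N(𝕄)]`; moreover `c ≠ 0` as soon as `h¹ ≠ 0`. -/
theorem relIndex_mul_relIndex_eq
    {𝕄 𝕀 : Type*} [CommGroup 𝕄] [CommGroup 𝕀]
    (s nM : 𝕄 →* 𝕄) (t nI : 𝕀 →* 𝕀) (d : 𝕄 →* 𝕀)
    (hd : ∀ x, d (s x) = t (d x)) (hdn : ∀ x, d (nM x) = nI (d x))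
    (hsn : ∀ x, s (nM x) = nM x) (hns : ∀ x, nM (s x) = nM x)
    (htn : ∀ a, t (nI a) = nI a) (hnt : ∀ a, nI (t a) = nI a)
    (h90 : ∀ x, nM x = 1 → ∃ y, x = s y / y)
    (hm1 : ∀ a, nI a = 1 → ∃ b, a = t b / b)
    (hfin : d.range.index ≠ 0) :
    ((cobd s).ker.map d ⊔ nI.range).relIndex (cobd t).ker *
        (d.ker.map nM).relIndex (d.ker ⊓ (cobd s).ker) =
      (d.ker.map (cobd s)).relIndex (d.ker ⊓ nM.ker) *
        nM.range.relIndex ((cobd s).ker ⊓ nI.range.comap d) ∧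
    ((d.ker.map (cobd s)).relIndex (d.ker ⊓ nM.ker) ≠ 0 →
      ((cobd s).ker.map d ⊔ nI.range).relIndex (cobd t).ker ≠ 0) := by
  -- notation
  set δM := cobd s with hδM
  set δI := cobd t with hδI
  set U := d.ker with hU
  set E := δM.ker with hE
  set Iσ := δI.ker with hIσ
  set P := d.range with hP
  set PE := E.map d with hPE
  set 𝒩 := nI.range with h𝒩
  set D := δI.range with hD
  set NM := nM.range with hNM
  set A := E ⊓ 𝒩.comap d with hA
  set W := U ⊓ nM.ker with hW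
  set B := U.map δM with hB
  set V := U ⊓ E with hV
  set NU := U.map nM with hNU
  -- basic compatibilities
  have c1 : d.comp δM = δI.comp d := by
    ext x; simp [hδM, hδI, hd]
  have c2 : d.comp nM = nI.comp d := by
    ext x; simp [hdn]
  have c3 : ∀ x, nM (δM x) = 1 := fun x => by simp [hδM, hns]
  have c4 : ∀ a, nI (δI a) = 1 := fun a => by simp [hδI, hnt]
  have c5 : ∀ x, δM (nM x) = 1 := fun x => by simp [hδM, hsn]
  have c6 : ∀ a, δI (nI a) = 1 := fun a => by simp [hδI, htn]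
  have kerM : nM.ker = δM.range := by
    ext x
    constructor
    · intro hx
      obtain ⟨y, hy⟩ := h90 x hx
      exact ⟨y, by simp [hδM, hy]⟩
    · rintro ⟨y, rfl⟩
      exact c3 y
  have kerI : nI.ker = D := by
    ext a
    constructor
    · intro ha
      obtain ⟨b, hb⟩ := hm1 a ha
      exact ⟨b, by simp [hδI, hb]⟩
    · rintro ⟨b, rfl⟩
      exact c4 b
  have NM_le_E : NM ≤ E := by
    rintro _ ⟨x, rfl⟩
    exact c5 x
  have N_le_Iσ : 𝒩 ≤ Iσ := by
    rintro _ ⟨a, rfl⟩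
    exact c6 a
  have PE_le_Iσ : PE ≤ Iσ := by
    rintro _ ⟨x, hx, rfl⟩
    have : δI (d x) = d (δM x) := (DFunLike.congr_fun c1 x).symm
    rw [hIσ, MonoidHom.mem_ker, this, show δM x = 1 from hx, map_one]
  have PE_le_P : PE ≤ P := by
    rintro _ ⟨x, _, rfl⟩
    exact ⟨x, rfl⟩
  have NM_le_A : NM ≤ A := by
    refine le_inf NM_le_E ?_
    rintro _ ⟨x, rfl⟩
    exact ⟨d x, (DFunLike.congr_fun c2 x).symm⟩
  have U_le_comap : U ≤ 𝒩.comap d := by
    intro u hu
    rw [mem_comap, show d u = 1 from hu]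
    exact one_mem _
  -- Step 1/2: `hE = J.index * c`
  set c := (PE ⊔ 𝒩).relIndex Iσ with hc
  set J := PE.comap nI with hJ
  have s1 : PE.relIndex Iσ = J.index * c := by
    rw [← relIndex_mul_relIndex PE (PE ⊔ 𝒩) Iσ le_sup_left (sup_le PE_le_Iσ N_le_Iσ),
      relIndex_sup_left, hJ, index_comap]
  -- Step 3
  set Q := P ⊔ D with hQ
  set S := P.comap δI with hS
  have P_le_S : P ≤ S := by
    rintro _ ⟨x, rfl⟩
    exact ⟨δM x, DFunLike.congr_fun c1 x⟩
  have Q_le_J : Q ≤ J := by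
    refine sup_le ?_ ?_
    · rintro _ ⟨x, rfl⟩
      refine ⟨nM x, c5 x, DFunLike.congr_fun c2 x⟩
    · rintro _ ⟨a, rfl⟩
      rw [hJ, mem_comap, c4]
      exact one_mem _
  have s3 : Q.index = P.relIndex S := index_sup_range_eq_relIndex_comap δI P hfin P_le_S
  have s3' : Q.relIndex J * J.index = P.relIndex S := by
    rw [relIndex_mul_index Q_le_J, s3]
  -- Step 4
  have UA : U ⊓ A = V := by
    rw [hA, hV, ← inf_assoc, inf_comm U E, inf_assoc, inf_of_le_left U_le_comap, inf_comm]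
  have s4 : Q.relIndex J = (NM ⊔ V).relIndex A := by
    have hkQ : nI.ker ≤ Q := kerI ▸ le_sup_right
    rw [← relIndex_map_map_of_ker_le nI hkQ Q_le_J]
    have hJm : J.map nI = A.map d := by
      rw [hJ, map_comap_eq]
      ext a
      constructor
      · rintro ⟨ha1, x, hx, rfl⟩
        exact ⟨x, ⟨hx, ha1⟩, rfl⟩
      · rintro ⟨x, ⟨hx1, hx2⟩, rfl⟩
        exact ⟨hx2, x, hx1, rfl⟩
    have hQm : Q.map nI = NM.map d := by
      rw [hQ, Subgroup.map_sup]
      have h1 : D.map nI = ⊥ := by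
        rw [eq_bot_iff]
        rintro _ ⟨_, ⟨a, rfl⟩, rfl⟩
        exact c4 a
      rw [h1, sup_bot_eq, hP, MonoidHom.map_range, hNM, MonoidHom.map_range, c2]
    rw [hJm, hQm, relIndex_map_map]
    have h2 : A ⊔ d.ker = (NM ⊔ d.ker) ⊔ A := by
      rw [sup_comm (NM ⊔ d.ker) A, ← sup_assoc, sup_of_le_left NM_le_A]
    rw [h2, relIndex_sup_left, ← inf_relIndex_right]
    have h3 : (NM ⊔ d.ker) ⊓ A = NM ⊔ V := by
      rw [sup_inf_assoc_of_le _ NM_le_A, ← hU, UA]
    rw [h3]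
  -- (*)
  have star : PE.relIndex Iσ * (NM ⊔ V).relIndex A = c * P.relIndex S := by
    rw [s1, ← s3', s4]; ring
  -- Step 6
  have Iσ_le_S : Iσ ≤ S := by
    intro a ha
    rw [hS, mem_comap, show δI a = 1 from ha]
    exact one_mem _
  have s6 : P.relIndex S = (P ⊔ Iσ).relIndex S * P.relIndex Iσ := by
    rw [← relIndex_mul_relIndex P (P ⊔ Iσ) S le_sup_left (sup_le P_le_S Iσ_le_S),
      relIndex_sup_left, mul_comm]
  have s6' : PE.relIndex Iσ = PE.relIndex (P ⊓ Iσ) * P.relIndex Iσ := by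
    rw [← relIndex_mul_relIndex PE (P ⊓ Iσ) Iσ (le_inf PE_le_P PE_le_Iσ) inf_le_right,
      inf_relIndex_right]
  -- (a)
  have U_stable : ∀ u ∈ U, δM u ∈ U := by
    intro u hu
    rw [hU, MonoidHom.mem_ker, show d (δM u) = δI (d u) from DFunLike.congr_fun c1 u,
      show d u = 1 from hu, map_one]
  have sa : PE.relIndex (P ⊓ Iσ) = B.relIndex W := by
    set T := U.comap δM with hT
    have hT' : T = Iσ.comap d := by
      ext x
      simp only [hT, hU, hIσ, mem_comap, MonoidHom.mem_ker]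
      rw [show d (δM x) = δI (d x) from DFunLike.congr_fun c1 x]
    have h1 : P ⊓ Iσ = T.map d := by
      rw [hT', map_comap_eq]
    have U_le_T : U ≤ T := fun u hu => U_stable u hu
    have E_le_T : E ≤ T := by
      intro x hx
      rw [hT, mem_comap, show δM x = 1 from hx]
      exact one_mem _
    rw [h1, hPE, relIndex_map_map, ← hU, sup_of_le_left U_le_T,
      ← relIndex_map_map_of_ker_le δM (le_sup_left : δM.ker ≤ E ⊔ U) (sup_le E_le_T U_le_T)]
    have h2 : (E ⊔ U).map δM = B := by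
      rw [Subgroup.map_sup, hE, (Subgroup.map_eq_bot_iff _).mpr le_rfl, bot_sup_eq]
    have h3 : T.map δM = W := by
      rw [hT, map_comap_eq, ← kerM, hW, inf_comm]
    rw [h2, h3]
  -- (b)
  set V' := V ⊓ NM with hV'
  have sb : (P ⊔ Iσ).relIndex S = NU.relIndex V' := by
    rw [← relIndex_map_map_of_ker_le δI (le_sup_right : δI.ker ≤ P ⊔ Iσ)
      (sup_le P_le_S Iσ_le_S)]
    set R := D.comap d with hR
    have h1 : (P ⊔ Iσ).map δI = δM.range.map d := by
      rw [Subgroup.map_sup, hIσ, (Subgroup.map_eq_bot_iff _).mpr le_rfl, sup_bot_eq, hP, MonoidHom.map_range,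
        MonoidHom.map_range, c1]
    have h2 : S.map δI = R.map d := by
      rw [hS, map_comap_eq, hR, map_comap_eq, inf_comm]
    have U_le_R : U ≤ R := by
      intro u hu
      rw [hR, mem_comap, show d u = 1 from hu]
      exact one_mem _
    have δ_le_R : δM.range ≤ R := by
      rintro _ ⟨y, rfl⟩
      exact ⟨d y, (DFunLike.congr_fun c1 y).symm⟩
    have hR' : R = U.comap nM := by
      ext x
      simp only [hR, ← kerI, hU, mem_comap, MonoidHom.mem_ker]
      rw [show d (nM x) = nI (d x) from DFunLike.congr_fun c2 x]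
    rw [h1, h2, relIndex_map_map, ← hU, sup_of_le_left U_le_R,
      ← relIndex_map_map_of_ker_le nM (kerM ▸ le_sup_left : nM.ker ≤ δM.range ⊔ U)
        (sup_le δ_le_R U_le_R)]
    have h3 : (δM.range ⊔ U).map nM = NU := by
      rw [Subgroup.map_sup, ← kerM, (Subgroup.map_eq_bot_iff _).mpr le_rfl, bot_sup_eq]
    have h4 : R.map nM = V' := by
      rw [hR', map_comap_eq, hV', hV, inf_comm, inf_assoc, inf_of_le_right NM_le_E]
    rw [h3, h4]
  -- finiteness
  have hPI : P.relIndex Iσ ≠ 0 := fun h =>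
    hfin (Nat.eq_zero_of_zero_dvd (h ▸ relIndex_dvd_index_of_normal P Iσ))
  have NU_le_V' : NU ≤ V' := by
    rintro _ ⟨u, hu, rfl⟩
    refine ⟨⟨?_, c5 u⟩, ⟨u, rfl⟩⟩
    change d (nM u) = 1
    rw [show d (nM u) = nI (d u) from DFunLike.congr_fun c2 u,
      show d u = 1 from hu, map_one]
  have hVV : NU.relIndex V' * V'.relIndex V = NU.relIndex V :=
    relIndex_mul_relIndex NU V' V NU_le_V' inf_le_left
  -- Step 7
  have e1 : B.relIndex W * (NM ⊔ V).relIndex A = c * NU.relIndex V' := by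
    have := star
    rw [s6', s6, sa, sb] at this
    have h' : (B.relIndex W * (NM ⊔ V).relIndex A) * P.relIndex Iσ =
        (c * NU.relIndex V') * P.relIndex Iσ := by
      calc (B.relIndex W * (NM ⊔ V).relIndex A) * P.relIndex Iσ
          = B.relIndex W * P.relIndex Iσ * (NM ⊔ V).relIndex A := by ring
        _ = c * (NU.relIndex V' * P.relIndex Iσ) := this
        _ = (c * NU.relIndex V') * P.relIndex Iσ := by ring
    exact Nat.eq_of_mul_eq_mul_right (Nat.pos_of_ne_zero hPI) h'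
  have e3 : NM.relIndex A = V'.relIndex V * (NM ⊔ V).relIndex A := by
    rw [← relIndex_mul_relIndex NM (NM ⊔ V) A le_sup_left
      (sup_le NM_le_A (UA ▸ inf_le_right)), relIndex_sup_left, hV', ← inf_relIndex_right,
      inf_comm]
  refine ⟨?_, ?_⟩
  · rw [← hVV, e3]
    calc c * (NU.relIndex V' * V'.relIndex V) = (c * NU.relIndex V') * V'.relIndex V := by ring
      _ = (B.relIndex W * (NM ⊔ V).relIndex A) * V'.relIndex V := by rw [← e1]
      _ = B.relIndex W * (V'.relIndex V * (NM ⊔ V).relIndex A) := by ring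
  · intro hB hc0
    have h1 : PE.relIndex Iσ = 0 := by rw [s1, hc0, mul_zero]
    rw [s6', sa] at h1
    rcases Nat.mul_eq_zero.mp h1 with h | h
    · exact hB h
    · exact hPI h

/-- **Abstract counting theorem.**  With `E = 𝕄^σ`, `A = {x ∈ E | d x ∈ N(𝕀)}`:
`[𝕀^σ : d(E) · N(𝕀)] = p · [A : N(𝕄)]`, and the left side is finite. -/
theorem relIndex_eq_mul_relIndex_norm
    {𝕄 𝕀 : Type*} [CommGroup 𝕄] [CommGroup 𝕀]
    (s nM : 𝕄 →* 𝕄) (t nI : 𝕀 →* 𝕀) (d : 𝕄 →* 𝕀) (p : ℕ) (hp : p ≠ 0)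
    (hd : ∀ x, d (s x) = t (d x)) (hdn : ∀ x, d (nM x) = nI (d x))
    (hsn : ∀ x, s (nM x) = nM x) (hns : ∀ x, nM (s x) = nM x)
    (htn : ∀ a, t (nI a) = nI a) (hnt : ∀ a, nI (t a) = nI a)
    (h90 : ∀ x, nM x = 1 → ∃ y, x = s y / y)
    (hm1 : ∀ a, nI a = 1 → ∃ b, a = t b / b)
    (hfin : d.range.index ≠ 0)
    (hHerb : (d.ker.map (cobd s)).relIndex (d.ker ⊓ nM.ker) =
        p * (d.ker.map nM).relIndex (d.ker ⊓ (cobd s).ker))
    (hHerb0 : (d.ker.map nM).relIndex (d.ker ⊓ (cobd s).ker) ≠ 0) :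
    ((cobd s).ker.map d ⊔ nI.range).relIndex (cobd t).ker =
      p * nM.range.relIndex ((cobd s).ker ⊓ nI.range.comap d) ∧
    ((cobd s).ker.map d ⊔ nI.range).relIndex (cobd t).ker ≠ 0 := by
  obtain ⟨h1, h2⟩ := relIndex_mul_relIndex_eq s nM t nI d hd hdn hsn hns htn hnt h90 hm1 hfin
  rw [hHerb] at h1 h2
  refine ⟨?_, h2 (Nat.mul_ne_zero hp hHerb0)⟩
  have h3 : (d.ker.map nM).relIndex (d.ker ⊓ (cobd s).ker) *
      ((cobd s).ker.map d ⊔ nI.range).relIndex (cobd t).ker =
      (d.ker.map nM).relIndex (d.ker ⊓ (cobd s).ker) *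
        (p * nM.range.relIndex ((cobd s).ker ⊓ nI.range.comap d)) := by
    rw [mul_comm, h1]; ring
  exact Nat.eq_of_mul_eq_mul_left (Nat.pos_of_ne_zero hHerb0) h3

/-- **Abstract Hasse norm theorem.**  If moreover `[𝕀^σ : d(E) · N(𝕀)] ≤ p` (the "second
inequality"), then every `x ∈ 𝕄^σ` with `d x ∈ N(𝕀)` is a norm. -/
theorem mem_range_norm_of_relIndex_le
    {𝕄 𝕀 : Type*} [CommGroup 𝕄] [CommGroup 𝕀]
    (s nM : 𝕄 →* 𝕄) (t nI : 𝕀 →* 𝕀) (d : 𝕄 →* 𝕀) (p : ℕ) (hp : p ≠ 0)
    (hd : ∀ x, d (s x) = t (d x)) (hdn : ∀ x, d (nM x) = nI (d x))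
    (hsn : ∀ x, s (nM x) = nM x) (hns : ∀ x, nM (s x) = nM x)
    (htn : ∀ a, t (nI a) = nI a) (hnt : ∀ a, nI (t a) = nI a)
    (h90 : ∀ x, nM x = 1 → ∃ y, x = s y / y)
    (hm1 : ∀ a, nI a = 1 → ∃ b, a = t b / b)
    (hfin : d.range.index ≠ 0)
    (hHerb : (d.ker.map (cobd s)).relIndex (d.ker ⊓ nM.ker) =
        p * (d.ker.map nM).relIndex (d.ker ⊓ (cobd s).ker))
    (hHerb0 : (d.ker.map nM).relIndex (d.ker ⊓ (cobd s).ker) ≠ 0)
    (hSI : ((cobd s).ker.map d ⊔ nI.range).relIndex (cobd t).ker ≤ p)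
    (x : 𝕄) (hx : s x = x) (hdx : d x ∈ nI.range) : ∃ z, nM z = x := by
  obtain ⟨h1, h2⟩ := relIndex_eq_mul_relIndex_norm s nM t nI d p hp hd hdn hsn hns htn hnt h90 hm1
    hfin hHerb hHerb0
  set r := nM.range.relIndex ((cobd s).ker ⊓ nI.range.comap d) with hr
  rw [h1] at hSI h2
  have hr0 : r ≠ 0 := fun h => h2 (by rw [h, mul_zero])
  have hr1 : r = 1 := by
    have h3 : p * r ≤ p * 1 := by rwa [mul_one]
    have := Nat.le_of_mul_le_mul_left h3 (Nat.pos_of_ne_zero hp)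
    omega
  have hle := relIndex_eq_one.mp hr1
  exact hle ⟨(mem_ker_cobd s x).mpr hx, hdx⟩

end abstract

end Fermat.Agent.CFT.HNT
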