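import Mathlib
import Fermat.Agent.CFT.HNT.Abstract

/-!
# Concrete data for the Hasse norm theorem (unramified cyclic case)

For an extension `M / E` of number fields we define the endomorphisms to which the abstract
counting theorem of `Abstract.lean` is applied:

* `galUnits σ`, `normUnits E M` on `Mˣ`;
* `galFrac σ`, `normFrac σ n` on the group `(FractionalIdeal (𝓞 M)⁰ M)ˣ` of fractional ideals
  (`normFrac σ n a = ∏_{j < n} σ^j a`).

The action on fractional ideals is compatible with Mathlib's pointwise action of `Gal(M/E)` on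
`Ideal (𝓞 M)`: `galFracHom_coeIdeal`.
-/

set_option autoImplicit false

namespace Fermat.Agent.CFT.HNT

open NumberField nonZeroDivisors Pointwise

set_option linter.unusedSectionVars false

variable {E M : Type*} [Field E] [Field M] [NumberField E] [NumberField M] [Algebra E M]

/-- The action of `σ` on `Mˣ`. -/
def galUnits (σ : M ≃ₐ[E] M) : Mˣ →* Mˣ := Units.map (σ : M →* M)

@[simp] theorem coe_galUnits (σ : M ≃ₐ[E] M) (x : Mˣ) : ((galUnits σ x : Mˣ) : M) = σ (x : M) := rfl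

variable (E M) in
/-- The norm `Mˣ → Mˣ`, `x ↦ N_{M/E}(x)` viewed in `M`. -/
noncomputable def normUnits : Mˣ →* Mˣ :=
  Units.map (((algebraMap E M : E →+* M) : E →* M).comp (Algebra.norm E))

@[simp] theorem coe_normUnits (x : Mˣ) :
    ((normUnits E M x : Mˣ) : M) = algebraMap E M (Algebra.norm E (x : M)) := rfl

/-- The ring endomorphism of `𝓞 M` induced by `σ` (Mathlib's action of `Gal(M/E)` on `𝓞 M`). -/
noncomputable def galInt (σ : M ≃ₐ[E] M) : 𝓞 M →+* 𝓞 M :=
  MulSemiringAction.toRingHom (M ≃ₐ[E] M) (𝓞 M) σ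

theorem galInt_apply (σ : M ≃ₐ[E] M) (x : 𝓞 M) : galInt σ x = σ • x := rfl

theorem coe_galInt (σ : M ≃ₐ[E] M) (x : 𝓞 M) : ((galInt σ x : 𝓞 M) : M) = σ (x : M) := rfl

theorem galInt_injective (σ : M ≃ₐ[E] M) : Function.Injective (galInt σ) := by
  intro x y h
  apply RingOfIntegers.ext
  have h1 : ((galInt σ x : 𝓞 M) : M) = ((galInt σ y : 𝓞 M) : M) := by rw [h]
  rw [coe_galInt, coe_galInt] at h1
  exact σ.injective h1

theorem le_comap_galInt (σ : M ≃ₐ[E] M) :
    (𝓞 M)⁰ ≤ Submonoid.comap (galInt σ) (𝓞 M)⁰ :=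
  nonZeroDivisors_le_comap_nonZeroDivisors_of_injective _ (galInt_injective σ)

/-- The action of `σ` on fractional ideals of `M` (as a ring homomorphism). -/
noncomputable def galFracHom (σ : M ≃ₐ[E] M) :
    FractionalIdeal (𝓞 M)⁰ M →+* FractionalIdeal (𝓞 M)⁰ M :=
  FractionalIdeal.extendedHom' (f := galInt σ) (K := M) M (le_comap_galInt σ)

/-- The action of `σ` on the group of (invertible) fractional ideals of `M`. -/
noncomputable def galFrac (σ : M ≃ₐ[E] M) :
    (FractionalIdeal (𝓞 M)⁰ M)ˣ →* (FractionalIdeal (𝓞 M)⁰ M)ˣ :=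
  Units.map (galFracHom σ : FractionalIdeal (𝓞 M)⁰ M →* FractionalIdeal (𝓞 M)⁰ M)

theorem coe_galFrac (σ : M ≃ₐ[E] M) (a : (FractionalIdeal (𝓞 M)⁰ M)ˣ) :
    ((galFrac σ a : (FractionalIdeal (𝓞 M)⁰ M)ˣ) : FractionalIdeal (𝓞 M)⁰ M) =
      galFracHom σ (a : FractionalIdeal (𝓞 M)⁰ M) := rfl

theorem localization_map_galInt (σ : M ≃ₐ[E] M) (x : M) :
    IsLocalization.map (S := M) M (galInt σ) (le_comap_galInt σ) x = σ x := by
  have h : (IsLocalization.map (S := M) M (galInt σ) (le_comap_galInt σ)) = (σ : M →+* M) := by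
    apply IsLocalization.ringHom_ext (𝓞 M)⁰
    ext y
    simp only [RingHom.comp_apply, IsLocalization.map_eq]
    exact coe_galInt σ y
  exact DFunLike.congr_fun h x

/-- `σ` maps the principal fractional ideal `(x)` to `(σ x)`. -/
theorem galFracHom_spanSingleton (σ : M ≃ₐ[E] M) (x : M) :
    galFracHom σ (FractionalIdeal.spanSingleton (𝓞 M)⁰ x) =
      FractionalIdeal.spanSingleton (𝓞 M)⁰ (σ x) := by
  rw [galFracHom, FractionalIdeal.extendedHom'_apply, FractionalIdeal.extended_spanSingleton,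
    localization_map_galInt]

/-- On integral ideals, the action is Mathlib's pointwise action `σ • I`. -/
theorem galFracHom_coeIdeal (σ : M ≃ₐ[E] M) (I : Ideal (𝓞 M)) :
    galFracHom σ (I : FractionalIdeal (𝓞 M)⁰ M) = ((σ • I : Ideal (𝓞 M)) :
      FractionalIdeal (𝓞 M)⁰ M) := by
  rw [galFracHom, FractionalIdeal.extendedHom'_apply, FractionalIdeal.extended_coeIdeal_eq_map,
    Ideal.pointwise_smul_def]
  rfl

/-- The principal-ideal map `Mˣ → I_M` is `σ`-equivariant. -/
theorem toPrincipalIdeal_galUnits (σ : M ≃ₐ[E] M) (x : Mˣ) :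
    toPrincipalIdeal (𝓞 M) M (galUnits σ x) = galFrac σ (toPrincipalIdeal (𝓞 M) M x) := by
  apply Units.ext
  rw [coe_toPrincipalIdeal, coe_galUnits, coe_galFrac, coe_toPrincipalIdeal,
    galFracHom_spanSingleton]

/-- Membership in `σ(I)`. -/
theorem mem_galFracHom_iff (σ : M ≃ₐ[E] M) (I : FractionalIdeal (𝓞 M)⁰ M) (x : M) :
    x ∈ galFracHom σ I ↔ σ.symm x ∈ I := by
  rw [galFracHom, FractionalIdeal.extendedHom'_apply, FractionalIdeal.mem_extended_iff]
  have himg : (IsLocalization.map (S := M) M (galInt σ) (le_comap_galInt σ)) '' (I : Set M) =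
      {y | σ.symm y ∈ I} := by
    ext y
    constructor
    · rintro ⟨z, hz, rfl⟩
      simpa [localization_map_galInt] using hz
    · intro hy
      exact ⟨σ.symm y, hy, by simp [localization_map_galInt]⟩
  rw [himg]
  constructor
  · intro hx
    refine Submodule.span_induction (p := fun y _ => σ.symm y ∈ I) (fun y hy => hy)
      (by rw [map_zero]; exact (I : Submodule (𝓞 M) M).zero_mem)
      (fun y z _ _ hy hz => by
        rw [map_add]; exact (I : Submodule (𝓞 M) M).add_mem hy hz) (fun c y _ hy => ?_) hx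
    have : σ.symm (c • y) = (galInt σ.symm c) • σ.symm y := by
      rw [Algebra.smul_def, Algebra.smul_def, map_mul]
      congr 1
    rw [this]
    exact (I : Submodule (𝓞 M) M).smul_mem _ hy
  · intro hx
    exact Submodule.subset_span hx

theorem galFracHom_one (I : FractionalIdeal (𝓞 M)⁰ M) :
    galFracHom (1 : M ≃ₐ[E] M) I = I := by
  ext x
  rw [mem_galFracHom_iff]
  rfl

theorem galFracHom_mul (σ τ : M ≃ₐ[E] M) (I : FractionalIdeal (𝓞 M)⁰ M) :
    galFracHom (σ * τ) I = galFracHom σ (galFracHom τ I) := by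
  ext x
  rw [mem_galFracHom_iff, mem_galFracHom_iff, mem_galFracHom_iff]
  rfl

theorem galFrac_one (a : (FractionalIdeal (𝓞 M)⁰ M)ˣ) : galFrac (1 : M ≃ₐ[E] M) a = a :=
  Units.ext (galFracHom_one _)

theorem galFrac_mul (σ τ : M ≃ₐ[E] M) (a : (FractionalIdeal (𝓞 M)⁰ M)ˣ) :
    galFrac (σ * τ) a = galFrac σ (galFrac τ a) :=
  Units.ext (galFracHom_mul σ τ _)

/-- The "norm" `a ↦ ∏_{j < n} σ^j a` on fractional ideals of `M`. -/
noncomputable def normFrac (σ : M ≃ₐ[E] M) (n : ℕ) :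
    (FractionalIdeal (𝓞 M)⁰ M)ˣ →* (FractionalIdeal (𝓞 M)⁰ M)ˣ :=
  ∏ j ∈ Finset.range n, galFrac (σ ^ j)

theorem normFrac_apply (σ : M ≃ₐ[E] M) (n : ℕ) (a : (FractionalIdeal (𝓞 M)⁰ M)ˣ) :
    normFrac σ n a = ∏ j ∈ Finset.range n, galFrac (σ ^ j) a := by
  rw [normFrac, MonoidHom.finsetProd_apply]

end Fermat.Agent.CFT.HNT
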