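import Mathlib

/-!
# Herbrand quotient for an automorphism of prime order (abstract part)

`A` is an additive commutative group, `f g : A →+ A` with `f ∘ g = 0 = g ∘ f`.
`index_calc`: the Herbrand quotient does not change on passing to a stable subgroup of
finite index.
-/

set_option autoImplicit false
set_option linter.style.haveILetI false
set_option linter.unusedSectionVars false

open Module Polynomial

namespace Fermat.Agent.CFT.HNT

section IndexCalc

variable {A : Type*} [AddCommGroup A]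

/-- `[A : B] = [ker φ : ker φ ∩ B] * [φ A : φ B]`. -/
theorem index_eq_relIndex_ker_mul (φ : A →+ A) (B : AddSubgroup A) :
    B.index = B.relIndex φ.ker * (B.map φ).relIndex φ.range := by
  have h1 : (B.map φ).relIndex φ.range = (B ⊔ φ.ker).index := by
    rw [← AddSubgroup.index_comap, AddSubgroup.comap_map_eq]
  have h2 : B.relIndex (B ⊔ φ.ker) * (B ⊔ φ.ker).index = B.index :=
    AddSubgroup.relIndex_mul_index le_sup_left
  have h3 : B.relIndex (B ⊔ φ.ker) = B.relIndex φ.ker := by
    rw [sup_comm]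
    exact AddSubgroup.relIndex_sup_right φ.ker B
  rw [h1, ← h3, h2]

/-- Invariance of the Herbrand quotient under passage to a stable subgroup of finite index,
in cross-multiplied form. -/
theorem index_calc (f g : A →+ A) (hfg : ∀ x, f (g x) = 0) (hgf : ∀ x, g (f x) = 0)
    (B : AddSubgroup A) (hfB : B.map f ≤ B) (hgB : B.map g ≤ B) (hB : B.index ≠ 0) :
    g.range.relIndex f.ker * (B.map f).relIndex (g.ker ⊓ B) =
      f.range.relIndex g.ker * (B.map g).relIndex (f.ker ⊓ B) := by
  -- notation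
  have hgr : g.range ≤ f.ker := by
    rintro _ ⟨x, rfl⟩; exact hfg x
  have hfr : f.range ≤ g.ker := by
    rintro _ ⟨x, rfl⟩; exact hgf x
  have hgBr : B.map g ≤ g.range := by
    rintro _ ⟨x, -, rfl⟩; exact ⟨x, rfl⟩
  have hfBr : B.map f ≤ f.range := by
    rintro _ ⟨x, -, rfl⟩; exact ⟨x, rfl⟩
  have hgBk : B.map g ≤ f.ker ⊓ B := le_inf (hgBr.trans hgr) hgB
  have hfBk : B.map f ≤ g.ker ⊓ B := le_inf (hfBr.trans hfr) hfB
  -- chains
  have c1 : (B.map g).relIndex g.range * g.range.relIndex f.ker = (B.map g).relIndex f.ker :=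
    AddSubgroup.relIndex_mul_relIndex _ _ _ hgBr hgr
  have c2 : (B.map g).relIndex (f.ker ⊓ B) * (f.ker ⊓ B).relIndex f.ker =
      (B.map g).relIndex f.ker :=
    AddSubgroup.relIndex_mul_relIndex _ _ _ hgBk inf_le_left
  have c3 : (B.map f).relIndex f.range * f.range.relIndex g.ker = (B.map f).relIndex g.ker :=
    AddSubgroup.relIndex_mul_relIndex _ _ _ hfBr hfr
  have c4 : (B.map f).relIndex (g.ker ⊓ B) * (g.ker ⊓ B).relIndex g.ker =
      (B.map f).relIndex g.ker :=
    AddSubgroup.relIndex_mul_relIndex _ _ _ hfBk inf_le_left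
  have k1 : (f.ker ⊓ B).relIndex f.ker = B.relIndex f.ker := by
    rw [inf_comm]; exact AddSubgroup.inf_relIndex_right B f.ker
  have k2 : (g.ker ⊓ B).relIndex g.ker = B.relIndex g.ker := by
    rw [inf_comm]; exact AddSubgroup.inf_relIndex_right B g.ker
  have n1 := index_eq_relIndex_ker_mul f B
  have n2 := index_eq_relIndex_ker_mul g B
  rw [k1] at c2
  rw [k2] at c4
  -- abbreviations
  set af := g.range.relIndex f.ker
  set ag := f.range.relIndex g.ker
  set bf := (B.map g).relIndex (f.ker ⊓ B)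
  set bg := (B.map f).relIndex (g.ker ⊓ B)
  set x := (B.map g).relIndex g.range
  set y := (B.map f).relIndex f.range
  set kf := B.relIndex f.ker
  set kg := B.relIndex g.ker
  set n := B.index
  -- x * af = bf * kf ; y * ag = bg * kg ; n = kf * y ; n = kg * x
  have e1 : x * af = bf * kf := c1.trans c2.symm
  have e2 : y * ag = bg * kg := c3.trans c4.symm
  have : n * (af * bg) = n * (ag * bf) := by
    calc n * (af * bg) = (kg * x) * (af * bg) := by rw [← n2]
      _ = (x * af) * (bg * kg) := by ring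
      _ = (bf * kf) * (y * ag) := by rw [e1, e2]
      _ = (kf * y) * (ag * bf) := by ring
      _ = n * (ag * bf) := by rw [← n1]
  exact Nat.eq_of_mul_eq_mul_left (Nat.pos_of_ne_zero hB) this

end IndexCalc


section Finiteness
variable {A : Type*} [AddCommGroup A] [Module.Finite ℤ A]

/-- a positive integer killing all torsion of a finitely generated abelian group -/
theorem exists_torsion_killer :
    ∃ m : ℕ, 0 < m ∧ ∀ x : A, ∀ n : ℕ, 0 < n → n • x = 0 → m • x = 0 := by
  haveI : IsNoetherian ℤ A := isNoetherian_of_isNoetherianRing_of_finite ℤ A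
  let T := Submodule.torsion ℤ A
  haveI : Module.Finite ℤ T := Module.IsNoetherian.finite ℤ T
  have hT : Module.IsTorsion ℤ T := Submodule.torsion_isTorsion
  haveI : Finite T := Module.finite_of_fg_torsion T hT
  refine ⟨Nat.card T, Nat.card_pos, fun x n hn hx => ?_⟩
  have hxT : x ∈ T := by
    rw [Submodule.mem_torsion_iff]
    refine ⟨⟨(n : ℤ), mem_nonZeroDivisors_of_ne_zero (by exact_mod_cast hn.ne')⟩, ?_⟩
    show (n : ℤ) • x = 0
    rw [natCast_zsmul]; exact hx
  have := card_nsmul_eq_zero' (G := T) (x := ⟨x, hxT⟩)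
  have h2 := congrArg (Subtype.val) this
  simpa using h2

theorem finrank_eq_of_smul_le {X Y : Submodule ℤ A} (hXY : X ≤ Y) (m : ℕ) (hm : m ≠ 0)
    (h : ∀ y ∈ Y, m • y ∈ X) : finrank ℤ X = finrank ℤ Y := by
  haveI : IsNoetherian ℤ A := isNoetherian_of_isNoetherianRing_of_finite ℤ A
  haveI : Module.Finite ℤ Y := Module.IsNoetherian.finite ℤ Y
  haveI : Module.Finite ℤ X := Module.IsNoetherian.finite ℤ X
  refine le_antisymm (Submodule.finrank_mono hXY) ?_
  -- the map y ↦ m • y from Y to X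
  let φ : Y →ₗ[ℤ] X := ((m : ℤ) • (LinearMap.id : A →ₗ[ℤ] A)).restrict (p := Y) (q := X)
    (fun y hy => by simpa using h y hy)
  have hφ : ∀ y : Y, ((φ y : X) : A) = m • (y : A) := fun y => by simp [φ]
  have hker : finrank ℤ (LinearMap.ker φ) = 0 := by
    rw [Module.finrank_eq_zero_iff_isTorsion]
    intro y
    refine ⟨⟨(m : ℤ), mem_nonZeroDivisors_of_ne_zero (by exact_mod_cast hm)⟩, ?_⟩
    have hy : φ y.1 = 0 := y.2
    have hy' : m • ((y.1 : Y) : A) = 0 := by rw [← hφ, hy]; rfl
    apply Subtype.ext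
    apply Subtype.ext
    show (m : ℤ) • ((y.1 : Y) : A) = 0
    rw [natCast_zsmul]
    exact hy'
  have h1 := (LinearMap.ker φ).finrank_quotient_add_finrank
  have h2 := φ.quotKerEquivRange.finrank_eq
  have h3 : finrank ℤ (LinearMap.range φ) ≤ finrank ℤ X := Submodule.finrank_le _
  omega

end Finiteness

section poly
variable (p : ℕ) [hp : Fact p.Prime]

theorem exists_cyclotomic_P1 : ∃ R : ℤ[X], (X - 1) ^ (p - 1) = cyclotomic p ℤ + C (p : ℤ) * R := by
  have hdvd : C (p : ℤ) ∣ (X - 1) ^ (p - 1) - cyclotomic p ℤ := by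
    rw [Polynomial.C_dvd_iff_dvd_coeff]
    intro i
    rw [← ZMod.intCast_zmod_eq_zero_iff_dvd]
    have hc : ((((X - 1) ^ (p - 1) - cyclotomic p ℤ : ℤ[X]).coeff i : ℤ) : ZMod p) =
        (Polynomial.map (Int.castRingHom (ZMod p)) ((X - 1) ^ (p - 1) - cyclotomic p ℤ)).coeff i := by
      rw [Polynomial.coeff_map]; rfl
    rw [hc]
    have hz : Polynomial.map (Int.castRingHom (ZMod p)) ((X - 1) ^ (p - 1) - cyclotomic p ℤ) = 0 := by
      have h1 : ((X - 1 : (ZMod p)[X]) ^ (p - 1) - cyclotomic p (ZMod p)) * (X - 1) = 0 := by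
        have e1 : (X - 1 : (ZMod p)[X]) ^ (p - 1) * (X - 1) = X ^ p - 1 := by
          rw [← pow_succ, Nat.sub_add_cancel hp.out.one_le, sub_pow_char, one_pow]
        rw [sub_mul, e1, cyclotomic_prime_mul_X_sub_one, sub_self]
      have h2 : (X - 1 : (ZMod p)[X]) ≠ 0 := X_sub_C_ne_zero 1
      have h3 := (mul_eq_zero.mp h1).resolve_right h2
      simpa [Polynomial.map_cyclotomic] using h3
    rw [hz, coeff_zero]
  obtain ⟨R, hR⟩ := hdvd
  exact ⟨R, by rw [← hR]; ring⟩

theorem exists_cyclotomic_P2 : ∃ W V : ℤ[X], (X - 1) ^ (p - 1) * W = C (p : ℤ) + cyclotomic p ℤ * V := by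
  -- ∏_{k < p-1} (1 - X^(k+1)) - p is divisible by the cyclotomic polynomial
  have hζ : IsPrimitiveRoot (Complex.exp (2 * Real.pi * Complex.I / p)) p :=
    Complex.isPrimitiveRoot_exp p hp.out.ne_zero
  set ζ := Complex.exp (2 * Real.pi * Complex.I / p)
  have hmin : cyclotomic p ℤ = minpoly ℤ ζ := cyclotomic_eq_minpoly hζ hp.out.pos
  have hprod : ∏ k ∈ Finset.range (p - 1), (1 - ζ ^ (k + 1)) = ((p - 1 : ℕ) : ℂ) + 1 := by
    have := hζ
    rw [← Nat.sub_add_cancel hp.out.one_le] at this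
    exact this.prod_one_sub_pow_eq_order
  have hdvd : cyclotomic p ℤ ∣ ∏ k ∈ Finset.range (p - 1), (1 - X ^ (k + 1)) - C (p : ℤ) := by
    rw [hmin]
    apply minpoly.isIntegrallyClosed_dvd (hζ.isIntegral hp.out.pos)
    simp only [map_sub, map_prod, map_one, map_pow, aeval_X, aeval_C]
    rw [hprod]
    simp [Nat.cast_sub hp.out.one_le]
  obtain ⟨V, hV⟩ := hdvd
  -- factor out (1 - X) from each term
  have hfac : ∀ k : ℕ, (1 - X ^ (k + 1) : ℤ[X]) = (1 - X) * ∑ j ∈ Finset.range (k + 1), X ^ j := by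
    intro k
    have := mul_neg_geom_sum (X : ℤ[X]) (k + 1)
    rw [this]
  refine ⟨(-1) ^ (p - 1) * ∏ k ∈ Finset.range (p - 1), ∑ j ∈ Finset.range (k + 1), X ^ j, V, ?_⟩
  have h1 : ∏ k ∈ Finset.range (p - 1), (1 - X ^ (k + 1) : ℤ[X]) =
      (1 - X) ^ (p - 1) * ∏ k ∈ Finset.range (p - 1), ∑ j ∈ Finset.range (k + 1), X ^ j := by
    rw [Finset.prod_congr rfl (fun k _ => hfac k), Finset.prod_mul_distrib, Finset.prod_const,
      Finset.card_range]
  have h2 : (X - 1 : ℤ[X]) ^ (p - 1) * (-1) ^ (p - 1) = (1 - X) ^ (p - 1) := by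
    rw [← mul_pow]; congr 1; ring
  rw [← mul_assoc, h2, ← h1, ← hV]; ring

end poly

section FreeDet
variable {L : Type*} [AddCommGroup L] [Module.Free ℤ L] [Module.Finite ℤ L]

/-- index of the image of an injective endomorphism of a free f.g. `ℤ`-module -/
theorem index_range_eq_natAbs_det (φ : L →ₗ[ℤ] L) (hφ : Function.Injective φ) :
    (LinearMap.range φ).toAddSubgroup.index = (LinearMap.det φ).natAbs := by
  let e : L ≃ₗ[ℤ] LinearMap.range φ := LinearEquiv.ofInjective φ hφ
  have h := Submodule.natAbs_det_equiv (LinearMap.range φ) e.toAddEquiv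
  have hcomp : (LinearMap.range φ).subtype ∘ₗ
      (AddMonoidHom.toIntLinearMap ((e.toAddEquiv : L ≃+ LinearMap.range φ) : L →+ LinearMap.range φ)) = φ := by
    ext x; rfl
  rw [hcomp] at h
  rw [h, ← Submodule.cardQuot_apply]
  rfl

theorem det_sub_one_pow (p : ℕ) [hp : Fact p.Prime] (s : Module.End ℤ L)
    (hs : ∑ i ∈ Finset.range p, s ^ i = 0) :
    Function.Injective ((s - 1 : Module.End ℤ L) : L → L) ∧
      (LinearMap.det (s - 1)).natAbs ^ (p - 1) = p ^ finrank ℤ L := by
  have hcyc : aeval s (cyclotomic p ℤ) = 0 := by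
    rw [cyclotomic_prime, map_sum]
    simpa using hs
  have hX1 : aeval s (X - 1 : ℤ[X]) = s - 1 := by simp
  obtain ⟨R, hR⟩ := exists_cyclotomic_P1 p
  obtain ⟨W, V, hW⟩ := exists_cyclotomic_P2 p
  have e1 : (s - 1) ^ (p - 1) = (p : ℤ) • aeval s R := by
    have := congrArg (aeval s) hR
    rw [map_pow, hX1, map_add, hcyc, zero_add, map_mul, aeval_C] at this
    rw [this, Algebra.algebraMap_eq_smul_one, smul_mul_assoc, one_mul]
  have e2 : (s - 1) ^ (p - 1) * aeval s W = (p : ℤ) • (1 : Module.End ℤ L) := by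
    have := congrArg (aeval s) hW
    rw [map_mul, map_pow, hX1, map_add, map_mul, hcyc, zero_mul, add_zero, aeval_C] at this
    rw [this, Algebra.algebraMap_eq_smul_one]
  have d1 : LinearMap.det (s - 1) ^ (p - 1) = (p : ℤ) ^ finrank ℤ L * LinearMap.det (aeval s R) := by
    rw [← map_pow, e1, LinearMap.det_smul]
  have d2 : LinearMap.det (s - 1) ^ (p - 1) * LinearMap.det (aeval s W) = (p : ℤ) ^ finrank ℤ L := by
    rw [← map_pow, ← map_mul, e2, LinearMap.det_smul, map_one, mul_one]
  constructor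
  · -- injectivity
    rw [injective_iff_map_eq_zero]
    intro x hx
    have hcomm : aeval s W * (s - 1) ^ (p - 1) = (s - 1) ^ (p - 1) * aeval s W := by
      rw [← hX1, ← map_pow, ← map_mul, ← map_mul, mul_comm]
    have h1 : ((s - 1) ^ (p - 1) * aeval s W) x = 0 := by
      rw [← hcomm, Module.End.mul_apply]
      have hp1 : (s - 1) ^ (p - 1) = (s - 1) ^ (p - 2) * (s - 1) := by
        rw [← pow_succ]
        congr 1
        have := hp.out.two_le
        omega
      rw [hp1, Module.End.mul_apply, hx, map_zero, map_zero]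
    rw [e2] at h1
    have h2 : (p : ℤ) • x = 0 := by simpa using h1
    have hp0 : (p : ℤ) ≠ 0 := by exact_mod_cast hp.out.ne_zero
    exact (smul_eq_zero.mp h2).resolve_left hp0
  · have h1 : (LinearMap.det (s - 1) ^ (p - 1)).natAbs = ((p : ℤ) ^ finrank ℤ L).natAbs := by
      apply Int.natAbs_eq_of_dvd_dvd
      · exact ⟨_, d2.symm⟩
      · exact ⟨_, d1⟩
    rw [Int.natAbs_pow, Int.natAbs_pow, Int.natAbs_natCast] at h1
    exact h1

end FreeDet

section
variable {A : Type*} [AddCommGroup A]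

theorem isTorsionFree_of (S : Submodule ℤ A)
    (h : ∀ x ∈ S, ∀ n : ℕ, 0 < n → n • x = 0 → x = 0) : Module.IsTorsionFree ℤ S := by
  apply Module.IsTorsionFree.of_smul_eq_zero
  intro r x hx
  by_cases hr : r = 0
  · exact Or.inl hr
  · right
    have h1 : r.natAbs • (x : A) = 0 := by
      have h2 : (r • x : S) = 0 := hx
      have h3 : r • (x : A) = 0 := by
        have := congrArg Subtype.val h2
        simpa using this
      rcases Int.natAbs_eq r with h4 | h4
      · rw [h4] at h3; rw [natCast_zsmul] at h3; exact h3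
      · rw [h4] at h3; rw [neg_smul, natCast_zsmul, neg_eq_zero] at h3; exact h3
    exact Subtype.ext (h x x.2 _ (Int.natAbs_pos.mpr hr) h1)

theorem relIndex_toAddSubgroup (S T : Submodule ℤ A) :
    S.toAddSubgroup.relIndex T.toAddSubgroup = (Submodule.comap T.subtype S).toAddSubgroup.index :=
  rfl

end

section main
variable {A : Type*} [AddCommGroup A] [Module.Finite ℤ A]

/-- the norm element of an endomorphism -/
def nrm (s : Module.End ℤ A) (p : ℕ) : Module.End ℤ A := ∑ i ∈ Finset.range p, s ^ i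

theorem sub_one_mul_nrm (s : Module.End ℤ A) (p : ℕ) (hs : s ^ p = 1) : (s - 1) * nrm s p = 0 := by
  rw [nrm, mul_geom_sum, hs, sub_self]

theorem nrm_mul_sub_one (s : Module.End ℤ A) (p : ℕ) (hs : s ^ p = 1) : nrm s p * (s - 1) = 0 := by
  rw [nrm, geom_sum_mul, hs, sub_self]

theorem nrm_apply_of_fixed (s : Module.End ℤ A) (p : ℕ) (x : A) (hx : s x = x) :
    nrm s p x = p • x := by
  have h : ∀ i : ℕ, (s ^ i) x = x := by
    intro i
    induction i with
    | zero => simp
    | succ i ih => rw [pow_succ, Module.End.mul_apply, hx, ih]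
  simp [nrm, LinearMap.sum_apply, h]

theorem herbrand_prime {p : ℕ} (hp : p.Prime) (s : Module.End ℤ A) (hs : s ^ p = 1) (a b : ℕ)
    (ha : finrank ℤ (LinearMap.ker (s - 1)) = a) (hb : finrank ℤ A = a + (p - 1) * b) :
    (LinearMap.range (s - 1)).toAddSubgroup.relIndex (LinearMap.ker (nrm s p)).toAddSubgroup * p ^ a =
    (LinearMap.range (nrm s p)).toAddSubgroup.relIndex (LinearMap.ker (s - 1)).toAddSubgroup * p ^ b := by
  haveI : Fact p.Prime := ⟨hp⟩
  haveI : IsNoetherian ℤ A := isNoetherian_of_isNoetherianRing_of_finite ℤ A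
  set D : Module.End ℤ A := s - 1 with hD
  set N : Module.End ℤ A := nrm s p with hN
  have hDN : D * N = 0 := sub_one_mul_nrm s p hs
  have hND : N * D = 0 := nrm_mul_sub_one s p hs
  have hDNx : ∀ x, D (N x) = 0 := fun x => by
    rw [← Module.End.mul_apply, hDN]; rfl
  have hNDx : ∀ x, N (D x) = 0 := fun x => by
    rw [← Module.End.mul_apply, hND]; rfl
  set K1 := LinearMap.ker D with hK1
  set K2 := LinearMap.ker N with hK2
  have hfix : ∀ x ∈ K1, s x = x := by
    intro x hx
    have : D x = 0 := hx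
    rw [hD, LinearMap.sub_apply, Module.End.one_apply, sub_eq_zero] at this
    exact this
  have hNfix : ∀ x ∈ K1, N x = p • x := fun x hx => nrm_apply_of_fixed s p x (hfix x hx)
  obtain ⟨m, hm, hmT⟩ := exists_torsion_killer (A := A)
  -- multiplication by m
  let μ : A →ₗ[ℤ] A := (m : ℤ) • LinearMap.id
  have hμ : ∀ x, μ x = m • x := fun x => by simp [μ]
  -- elements of m • A have no torsion
  have tfm : ∀ x ∈ LinearMap.range μ, ∀ n : ℕ, 0 < n → n • x = 0 → x = 0 := by
    rintro _ ⟨y, rfl⟩ n hn hx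
    rw [hμ] at hx ⊢
    rw [smul_smul] at hx
    exact hmT y (n * m) (Nat.mul_pos hn hm) hx
  set B1 := K1.map μ with hB1
  set B2 := K2.map μ with hB2
  have hB1K : B1 ≤ K1 := by
    rintro _ ⟨y, hy, rfl⟩
    rw [hμ]; exact K1.smul_of_tower_mem m hy
  have hB2K : B2 ≤ K2 := by
    rintro _ ⟨y, hy, rfl⟩
    rw [hμ]; exact K2.smul_of_tower_mem m hy
  have hB1μ : B1 ≤ LinearMap.range μ := by
    rintro _ ⟨y, -, rfl⟩; exact ⟨y, rfl⟩
  have hB2μ : B2 ≤ LinearMap.range μ := by
    rintro _ ⟨y, -, rfl⟩; exact ⟨y, rfl⟩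
  -- K1 ∩ K2 ∩ (m • A) = 0
  have hK12 : ∀ x, x ∈ K1 → x ∈ K2 → x ∈ LinearMap.range μ → x = 0 := by
    intro x h1 h2 h3
    have : N x = 0 := h2
    rw [hNfix x h1] at this
    exact tfm x h3 p hp.pos this
  set B := B1 ⊔ B2 with hBdef
  have hK1B : K1 ⊓ B = B1 := by
    apply le_antisymm
    · rintro x ⟨hx1, hxB⟩
      obtain ⟨b1, hb1, b2, hb2, rfl⟩ := Submodule.mem_sup.mp hxB
      have : b2 = 0 := by
        apply hK12 b2 _ (hB2K hb2) (hB2μ hb2)
        have := K1.sub_mem hx1 (hB1K hb1)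
        simpa using this
      rw [this, add_zero]; exact hb1
    · exact le_inf hB1K le_sup_left
  have hK2B : K2 ⊓ B = B2 := by
    apply le_antisymm
    · rintro x ⟨hx2, hxB⟩
      obtain ⟨b1, hb1, b2, hb2, rfl⟩ := Submodule.mem_sup.mp hxB
      have : b1 = 0 := by
        apply hK12 b1 (hB1K hb1) _ (hB1μ hb1)
        have := K2.sub_mem hx2 (hB2K hb2)
        simpa using this
      rw [this, zero_add]; exact hb2
    · exact le_inf hB2K le_sup_right
  have hBN : B.map N = B1.map ((p : ℤ) • LinearMap.id) := by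
    apply le_antisymm
    · rintro _ ⟨x, hxB, rfl⟩
      obtain ⟨b1, hb1, b2, hb2, rfl⟩ := Submodule.mem_sup.mp hxB
      refine ⟨b1, hb1, ?_⟩
      have h2 : N b2 = 0 := hB2K hb2
      simp [map_add, h2, hNfix b1 (hB1K hb1)]
    · rintro _ ⟨b1, hb1, rfl⟩
      refine ⟨b1, Submodule.mem_sup_left hb1, ?_⟩
      simp [hNfix b1 (hB1K hb1)]
  have hBD : B.map D = B2.map D := by
    apply le_antisymm
    · rintro _ ⟨x, hxB, rfl⟩
      obtain ⟨b1, hb1, b2, hb2, rfl⟩ := Submodule.mem_sup.mp hxB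
      refine ⟨b2, hb2, ?_⟩
      have h1 : D b1 = 0 := hB1K hb1
      simp [map_add, h1]
    · exact Submodule.map_mono le_sup_right
  have hDB2 : B2.map D ≤ B2 := by
    rintro _ ⟨_, ⟨y, hy, rfl⟩, rfl⟩
    refine ⟨D y, ?_, ?_⟩
    · show N (D y) = 0
      exact hNDx y
    · rw [hμ, hμ, map_nsmul]
  have hpB1 : B1.map ((p : ℤ) • LinearMap.id) ≤ B1 := by
    rintro _ ⟨b1, hb1, rfl⟩
    simpa using B1.smul_mem (p : ℤ) hb1
  -- finite index of B
  have hBfin : B.toAddSubgroup.index ≠ 0 := by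
    have hpm : ∀ x : A, (m * p) • x ∈ B := by
      intro x
      have h1 : N x ∈ K1 := hDNx x
      have h2 : p • x - N x ∈ K2 := by
        show N (p • x - N x) = 0
        rw [map_sub, map_nsmul, hNfix (N x) h1, sub_self]
      have e : (m * p) • x = μ (N x) + μ (p • x - N x) := by
        rw [hμ, hμ, ← smul_add, add_sub_cancel, mul_smul]
      rw [e]
      exact Submodule.add_mem _ (Submodule.mem_sup_left ⟨_, h1, rfl⟩)
        (Submodule.mem_sup_right ⟨_, h2, rfl⟩)
    have htor : Module.IsTorsion ℤ (A ⧸ B) := by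
      intro q
      obtain ⟨x, rfl⟩ := Submodule.Quotient.mk_surjective B q
      refine ⟨⟨((m * p : ℕ) : ℤ), mem_nonZeroDivisors_of_ne_zero
        (by exact_mod_cast (Nat.mul_pos hm hp.pos).ne')⟩, ?_⟩
      show ((m * p : ℕ) : ℤ) • (Submodule.Quotient.mk x : A ⧸ B) = 0
      rw [← Submodule.Quotient.mk_smul, Submodule.Quotient.mk_eq_zero, natCast_zsmul]
      exact hpm x
    haveI : Finite (A ⧸ B) := Module.finite_of_fg_torsion _ htor
    have : B.toAddSubgroup.index = Nat.card (A ⧸ B) := by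
      rw [← Submodule.cardQuot_apply]; rfl
    rw [this]
    exact Nat.card_pos.ne'
  -- the two indices for B
  have hr1 : finrank ℤ B1 = a := by
    rw [← ha]
    exact finrank_eq_of_smul_le hB1K m hm.ne' (fun y hy => ⟨y, hy, hμ y⟩)
  have hrN : finrank ℤ (LinearMap.range N) = a := by
    rw [← ha]
    refine finrank_eq_of_smul_le ?_ p hp.ne_zero (fun y hy => ⟨y, hNfix y hy⟩)
    rintro _ ⟨x, rfl⟩
    exact hDNx x
  have hrK2 : finrank ℤ K2 = (p - 1) * b := by
    have h1 := K2.finrank_quotient_add_finrank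
    have h2 := N.quotKerEquivRange.finrank_eq
    rw [← hK2] at h2
    omega
  have hr2 : finrank ℤ B2 = (p - 1) * b := by
    rw [← hrK2]
    exact finrank_eq_of_smul_le hB2K m hm.ne' (fun y hy => ⟨y, hy, hμ y⟩)
  haveI : Module.IsTorsionFree ℤ B1 := isTorsionFree_of B1 (fun x hx => tfm x (hB1μ hx))
  haveI : Module.IsTorsionFree ℤ B2 := isTorsionFree_of B2 (fun x hx => tfm x (hB2μ hx))
  haveI : Module.Finite ℤ B1 := Module.IsNoetherian.finite ℤ B1
  haveI : Module.Finite ℤ B2 := Module.IsNoetherian.finite ℤ B2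
  haveI : Module.Free ℤ B1 := Module.free_of_finite_type_torsion_free'
  haveI : Module.Free ℤ B2 := Module.free_of_finite_type_torsion_free'
  have hidx1 : (B1.map ((p : ℤ) • LinearMap.id)).toAddSubgroup.relIndex B1.toAddSubgroup = p ^ a := by
    haveI : Module.Free ℤ ↥(AddSubgroup.toIntSubmodule B1.toAddSubgroup) :=
      inferInstanceAs (Module.Free ℤ ↥B1)
    haveI : Module.Finite ℤ ↥(AddSubgroup.toIntSubmodule B1.toAddSubgroup) :=
      inferInstanceAs (Module.Finite ℤ ↥B1)
    have h := AddSubgroup.relIndex_map_nsmul p B1.toAddSubgroup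
    have e : (B1.map ((p : ℤ) • LinearMap.id)).toAddSubgroup =
        B1.toAddSubgroup.map (nsmulAddMonoidHom (α := A) p) := by
      ext x
      simp only [Submodule.mem_toAddSubgroup, Submodule.mem_map, AddSubgroup.mem_map,
        nsmulAddMonoidHom_apply, LinearMap.smul_apply, LinearMap.id_coe, id_eq, natCast_zsmul]
    rw [e, h]
    congr 1
  have hidx2 : (B2.map D).toAddSubgroup.relIndex B2.toAddSubgroup = p ^ b := by
    rw [relIndex_toAddSubgroup]
    -- restriction of s to B2
    have hsN : N * s = s * N := by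
      have h1 : N * s = N := by
        have := hND; rw [hD, mul_sub, mul_one, sub_eq_zero] at this; exact this
      have h2 : s * N = N := by
        have := hDN; rw [hD, sub_mul, one_mul, sub_eq_zero] at this; exact this
      rw [h1, h2]
    have hsB2 : ∀ x ∈ B2, s x ∈ B2 := by
      rintro _ ⟨y, hy, rfl⟩
      refine ⟨s y, ?_, ?_⟩
      · show N (s y) = 0
        rw [← Module.End.mul_apply, hsN, Module.End.mul_apply]
        have : N y = 0 := hy
        rw [this, map_zero]
      · rw [hμ, hμ, map_nsmul]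
    let s2 : Module.End ℤ B2 := s.restrict hsB2
    have hs2pow : ∀ (i : ℕ) (x : B2), (((s2 ^ i) x : B2) : A) = (s ^ i) (x : A) := by
      intro i
      induction i with
      | zero => intro x; simp
      | succ i ih =>
        intro x
        rw [pow_succ, Module.End.mul_apply, ih, pow_succ, Module.End.mul_apply]
        rfl
    have hs2 : ∑ i ∈ Finset.range p, s2 ^ i = 0 := by
      ext x
      have hx : N (x : A) = 0 := hB2K x.2
      simp only [LinearMap.sum_apply, LinearMap.zero_apply, Submodule.coe_sum,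
        ZeroMemClass.coe_zero, hs2pow]
      rw [hN, nrm, LinearMap.sum_apply] at hx
      exact hx
    obtain ⟨hinj, hdet⟩ := det_sub_one_pow p s2 hs2
    have hrange : Submodule.comap B2.subtype (B2.map D) = LinearMap.range (s2 - 1) := by
      ext x
      simp only [Submodule.mem_comap, Submodule.subtype_apply, Submodule.mem_map,
        LinearMap.mem_range]
      constructor
      · rintro ⟨y, hy, hyx⟩
        refine ⟨⟨y, hy⟩, Subtype.ext ?_⟩
        rw [← hyx]
        simp [s2, hD]
      · rintro ⟨y, rfl⟩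
        refine ⟨y, y.2, ?_⟩
        simp [s2, hD]
    rw [hrange, index_range_eq_natAbs_det _ hinj]
    rw [hr2] at hdet
    have hp1 : p - 1 ≠ 0 := by have := hp.two_le; omega
    apply Nat.pow_left_injective hp1
    show (LinearMap.det (s2 - 1)).natAbs ^ (p - 1) = (p ^ b) ^ (p - 1)
    rw [hdet, ← pow_mul, mul_comm]
  -- apply the index calculus
  have hcalc := index_calc (D : A →ₗ[ℤ] A).toAddMonoidHom (N : A →ₗ[ℤ] A).toAddMonoidHom
    hDNx hNDx B.toAddSubgroup
    (by
      rintro _ ⟨x, hx, rfl⟩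
      have : D x ∈ B.map D := ⟨x, hx, rfl⟩
      rw [hBD] at this
      exact Submodule.mem_sup_right (hDB2 this))
    (by
      rintro _ ⟨x, hx, rfl⟩
      have : N x ∈ B.map N := ⟨x, hx, rfl⟩
      rw [hBN] at this
      exact Submodule.mem_sup_left (hpB1 this))
    hBfin
  have t1 : (B.toAddSubgroup.map (D : A →ₗ[ℤ] A).toAddMonoidHom).relIndex
      ((N : A →ₗ[ℤ] A).toAddMonoidHom.ker ⊓ B.toAddSubgroup) = p ^ b := by
    have e1 : B.toAddSubgroup.map (D : A →ₗ[ℤ] A).toAddMonoidHom = (B2.map D).toAddSubgroup := by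
      rw [← hBD]; rfl
    have e2 : (N : A →ₗ[ℤ] A).toAddMonoidHom.ker ⊓ B.toAddSubgroup = B2.toAddSubgroup := by
      rw [← hK2B]; rfl
    rw [e1, e2, hidx2]
  have t2 : (B.toAddSubgroup.map (N : A →ₗ[ℤ] A).toAddMonoidHom).relIndex
      ((D : A →ₗ[ℤ] A).toAddMonoidHom.ker ⊓ B.toAddSubgroup) = p ^ a := by
    have e1 : B.toAddSubgroup.map (N : A →ₗ[ℤ] A).toAddMonoidHom =
        (B1.map ((p : ℤ) • LinearMap.id)).toAddSubgroup := by
      rw [← hBN]; rfl
    have e2 : (D : A →ₗ[ℤ] A).toAddMonoidHom.ker ⊓ B.toAddSubgroup = B1.toAddSubgroup := by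
      rw [← hK1B]; rfl
    rw [e1, e2, hidx1]
  rw [t1, t2] at hcalc
  exact hcalc.symm

end main

end Fermat.Agent.CFT.HNT
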