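import Fermat.Agent.CFT.HNT.HerbrandUnits
import Fermat.Agent.CFT.HNT.Abstract

/-!
# Bridge: unit Herbrand quotient in the shape needed by the abstract counting theorem

* `unitsNorm_range_index_ne_zero`: `[𝓞_Eˣ : N 𝓞_Mˣ]` is finite.
* `herbrand_bridge`, `herbrand_bridge'`: the hypotheses `hHerb`, `hHerb0` of
  `relIndex_eq_mul_relIndex_norm` for `𝕄 = Mˣ` and `U` = the image of `(𝓞 M)ˣ` in `Mˣ`.
-/
set_option autoImplicit false
set_option linter.style.haveILetI false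
set_option linter.unusedSectionVars false

open NumberField Module

namespace Fermat.Agent.CFT.HNT

section General

/-- in a finitely generated abelian group the subgroup of `n`-th multiples has finite index -/
theorem index_range_nsmul_ne_zero (A : Type*) [AddCommGroup A] [Module.Finite ℤ A] (n : ℕ)
    (hn : n ≠ 0) : (nsmulAddMonoidHom (α := A) n).range.index ≠ 0 := by
  let S : Submodule ℤ A := LinearMap.range ((n : ℤ) • (LinearMap.id : A →ₗ[ℤ] A))
  have htor : Module.IsTorsion ℤ (A ⧸ S) := by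
    intro q
    obtain ⟨x, rfl⟩ := Submodule.Quotient.mk_surjective S q
    refine ⟨⟨(n : ℤ), mem_nonZeroDivisors_of_ne_zero (by exact_mod_cast hn)⟩, ?_⟩
    show (n : ℤ) • (Submodule.Quotient.mk x : A ⧸ S) = 0
    rw [← Submodule.Quotient.mk_smul, Submodule.Quotient.mk_eq_zero]
    exact ⟨x, by simp⟩
  haveI : Finite (A ⧸ S) := Module.finite_of_fg_torsion _ htor
  have h1 : S.toAddSubgroup.index = Nat.card (A ⧸ S) := by
    rw [← Submodule.cardQuot_apply]; rfl
  have h2 : S.toAddSubgroup = (nsmulAddMonoidHom (α := A) n).range := by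
    ext x
    simp [S, LinearMap.mem_range]
  rw [← h2, h1]
  exact Nat.card_pos.ne'

end General

section Units

variable {E M : Type*} [Field E] [NumberField E] [Field M] [NumberField M] [Algebra E M]
  [IsGalois E M]

theorem unitsNorm_unitsMap (e : (𝓞 E)ˣ) : unitsNorm E M (unitsMap E M e) = e ^ finrank E M := by
  apply Units.ext
  apply RingOfIntegers.ext
  show algebraMap (𝓞 E) E (Algebra.intNorm (𝓞 E) (𝓞 M) (algebraMap (𝓞 E) (𝓞 M) (e : 𝓞 E))) = _
  rw [Algebra.algebraMap_intNorm (A := 𝓞 E) (K := E) (L := M) (B := 𝓞 M)]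
  have : algebraMap (𝓞 M) M (algebraMap (𝓞 E) (𝓞 M) (e : 𝓞 E)) = algebraMap E M ((e : 𝓞 E) : E) := rfl
  rw [this, Algebra.norm_algebraMap]
  simp

/-- `[𝓞_Eˣ : N 𝓞_Mˣ]` is finite -/
theorem unitsNorm_range_index_ne_zero : (unitsNorm E M).range.index ≠ 0 := by
  have hn : finrank E M ≠ 0 := Module.finrank_pos.ne'
  have h1 := index_range_nsmul_ne_zero (Additive (𝓞 E)ˣ) (finrank E M) hn
  have h2 : (powMonoidHom (finrank E M) : (𝓞 E)ˣ →* (𝓞 E)ˣ).range.index ≠ 0 := by
    have : (Subgroup.toAddSubgroup (powMonoidHom (finrank E M) : (𝓞 E)ˣ →* (𝓞 E)ˣ).range) =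
        (nsmulAddMonoidHom (α := Additive (𝓞 E)ˣ) (finrank E M)).range := by
      ext x
      constructor
      · rintro ⟨u, hu⟩
        exact ⟨Additive.ofMul u, hu⟩
      · rintro ⟨y, hy⟩
        exact ⟨y.toMul, hy⟩
    intro h0
    apply h1
    rw [← this]
    exact h0
  have hle : (powMonoidHom (finrank E M) : (𝓞 E)ˣ →* (𝓞 E)ˣ).range ≤ (unitsNorm E M).range := by
    rintro _ ⟨e, rfl⟩
    exact ⟨unitsMap E M e, unitsNorm_unitsMap e⟩
  intro h0
  have := Subgroup.index_dvd_of_le hle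
  rw [h0] at this
  exact h2 (Nat.eq_zero_of_zero_dvd this)

end Units

section Bridge

variable {E M : Type*} [Field E] [NumberField E] [Field M] [NumberField M] [Algebra E M]
  [IsGalois E M]

/-- the units of the ring of integers inside `Mˣ` -/
noncomputable def unitsIncl (M : Type*) [Field M] [NumberField M] : (𝓞 M)ˣ →* Mˣ :=
  Units.map (algebraMap (𝓞 M) M : 𝓞 M →* M)

theorem coe_unitsIncl (u : (𝓞 M)ˣ) : ((unitsIncl M u : Mˣ) : M) = ((u : 𝓞 M) : M) := rfl

theorem unitsIncl_injective : Function.Injective (unitsIncl M) := by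
  intro a b h
  have h1 : ((unitsIncl M a : Mˣ) : M) = ((unitsIncl M b : Mˣ) : M) := by rw [h]
  exact units_ext h1

variable {p : ℕ} (hp : p.Prime) (hdeg : finrank E M = p) (σ : M ≃ₐ[E] M) (hσ : σ ≠ 1)

include hp hdeg hσ in
/-- **Bridge** from `card_H1_units` to the Herbrand hypothesis of the abstract counting theorem
(`relIndex_eq_mul_relIndex_norm`) for `𝕄 = Mˣ`, `U = ` the image of `(𝓞 M)ˣ`. -/
theorem herbrand_bridge (hp2 : p ≠ 2) (s nM : Mˣ →* Mˣ)
    (hs : ∀ x : Mˣ, ((s x : Mˣ) : M) = σ (x : M))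
    (hn : ∀ x : Mˣ, ((nM x : Mˣ) : M) = ∏ i ∈ Finset.range p, (σ ^ i) (x : M))
    (U : Subgroup Mˣ) (hU : U = (unitsIncl M).range) :
    (U.map (cobd s)).relIndex (U ⊓ nM.ker) = p * (U.map nM).relIndex (U ⊓ (cobd s).ker) ∧
    (U.map nM).relIndex (U ⊓ (cobd s).ker) ≠ 0 := by
  set ι := unitsIncl M with hι
  have hinj : Function.Injective ι := unitsIncl_injective
  have hker : ι.ker = ⊥ := (MonoidHom.ker_eq_bot_iff ι).mpr hinj
  -- compatibilities
  have c1 : ∀ u : (𝓞 M)ˣ, s (ι u) = ι (unitsGal σ u) := by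
    intro u
    apply Units.ext
    rw [hs, coe_unitsIncl, coe_unitsIncl, coe_unitsGal]
  have c2 : ∀ u : (𝓞 M)ˣ, nM (ι u) = ι (unitsMap E M (unitsNorm E M u)) := by
    intro u
    apply Units.ext
    rw [hn, coe_unitsIncl, coe_unitsIncl, coe_unitsMap, coe_unitsNorm,
      prod_aut_eq_prod_range hp hdeg σ hσ]
  have c3 : ∀ u : (𝓞 M)ˣ, cobd s (ι u) = ι (unitsDiv σ u) := by
    intro u
    rw [cobd_apply, c1, unitsDiv_apply, map_div]
  -- the four subgroups
  have e1 : U.map (cobd s) = (unitsDiv σ).range.map ι := by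
    rw [hU]
    ext x
    constructor
    · rintro ⟨_, ⟨u, rfl⟩, rfl⟩
      exact ⟨unitsDiv σ u, ⟨u, rfl⟩, (c3 u).symm⟩
    · rintro ⟨_, ⟨u, rfl⟩, rfl⟩
      exact ⟨ι u, ⟨u, rfl⟩, c3 u⟩
  have e2 : U ⊓ nM.ker = (unitsNorm E M).ker.map ι := by
    rw [hU]
    ext x
    constructor
    · rintro ⟨⟨u, rfl⟩, hx⟩
      refine ⟨u, ?_, rfl⟩
      have h1 : nM (ι u) = 1 := hx
      rw [c2] at h1
      have h2 : unitsMap E M (unitsNorm E M u) = 1 := hinj (by rw [h1, map_one])
      exact unitsMap_injective (by rw [h2, map_one])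
    · rintro ⟨u, hu, rfl⟩
      refine ⟨⟨u, rfl⟩, ?_⟩
      have h1 : unitsNorm E M u = 1 := hu
      show nM (ι u) = 1
      rw [c2, h1, map_one, map_one]
  have e3 : U.map nM = ((unitsNorm E M).range.map (unitsMap E M)).map ι := by
    rw [hU]
    ext x
    constructor
    · rintro ⟨_, ⟨u, rfl⟩, rfl⟩
      exact ⟨_, ⟨_, ⟨u, rfl⟩, rfl⟩, (c2 u).symm⟩
    · rintro ⟨_, ⟨_, ⟨u, rfl⟩, rfl⟩, rfl⟩
      exact ⟨ι u, ⟨u, rfl⟩, c2 u⟩
  have e4 : U ⊓ (cobd s).ker = (unitsMap E M).range.map ι := by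
    rw [hU]
    ext x
    constructor
    · rintro ⟨⟨u, rfl⟩, hx⟩
      have h1 : s (ι u) = ι u := (mem_ker_cobd s _).mp hx
      rw [c1] at h1
      have h2 : unitsGal σ u = u := hinj h1
      exact ⟨u, mem_range_unitsMap_of_fixed hp hdeg σ hσ u h2, rfl⟩
    · rintro ⟨_, ⟨e, rfl⟩, rfl⟩
      refine ⟨⟨_, rfl⟩, ?_⟩
      show ι (unitsMap E M e) ∈ (cobd s).ker
      rw [mem_ker_cobd, c1, unitsGal_unitsMap]
  have r1 : (U.map (cobd s)).relIndex (U ⊓ nM.ker) =
      (unitsDiv σ).range.relIndex (unitsNorm E M).ker := by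
    rw [e1, e2, Subgroup.relIndex_map_map, hker, sup_bot_eq, sup_bot_eq]
  have r2 : (U.map nM).relIndex (U ⊓ (cobd s).ker) = (unitsNorm E M).range.index := by
    rw [e3, e4, Subgroup.relIndex_map_map, hker, sup_bot_eq, sup_bot_eq,
      ← Subgroup.index_comap, Subgroup.comap_map_eq_self_of_injective unitsMap_injective]
  rw [r1, r2]
  exact ⟨card_H1_units hp hdeg σ hσ hp2, unitsNorm_range_index_ne_zero⟩

include hp hdeg hσ in
/-- variant of `herbrand_bridge` with the norm given as a product over the Galois group -/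
theorem herbrand_bridge' (hp2 : p ≠ 2) (s nM : Mˣ →* Mˣ)
    (hs : ∀ x : Mˣ, ((s x : Mˣ) : M) = σ (x : M))
    (hn : ∀ x : Mˣ, ((nM x : Mˣ) : M) = algebraMap E M (Algebra.norm E (x : M)))
    (U : Subgroup Mˣ) (hU : U = (unitsIncl M).range) :
    (U.map (cobd s)).relIndex (U ⊓ nM.ker) = p * (U.map nM).relIndex (U ⊓ (cobd s).ker) ∧
    (U.map nM).relIndex (U ⊓ (cobd s).ker) ≠ 0 := by
  refine herbrand_bridge hp hdeg σ hσ hp2 s nM hs (fun x => ?_) U hU
  rw [hn, Algebra.norm_eq_prod_automorphisms, prod_aut_eq_prod_range hp hdeg σ hσ]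

end Bridge

end Fermat.Agent.CFT.HNT
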