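import Fermat.Agent.CFT.HNT.Herbrand

/-!
# Herbrand quotient of the unit group in a cyclic extension of odd prime degree

`M/E` Galois of odd prime degree `p`, `σ ≠ 1` in `Gal(M/E)`.  Then
`[ker N : {σ u / u}] = p * [𝓞_Eˣ : N 𝓞_Mˣ]` (`card_H1_units`).
-/

set_option autoImplicit false
set_option linter.style.haveILetI false
set_option linter.unusedSectionVars false

open NumberField Module

namespace Fermat.Agent.CFT.HNT

section Units

variable (E M : Type*) [Field E] [NumberField E] [Field M] [NumberField M] [Algebra E M]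
  [IsGalois E M]

/-- the units of the base field inside the units of the extension -/
noncomputable def unitsMap : (𝓞 E)ˣ →* (𝓞 M)ˣ :=
  Units.map (algebraMap (𝓞 E) (𝓞 M) : 𝓞 E →* 𝓞 M)

/-- the relative norm on units -/
noncomputable def unitsNorm : (𝓞 M)ˣ →* (𝓞 E)ˣ :=
  Units.map (Algebra.intNorm (𝓞 E) (𝓞 M))

variable {E M}

/-- the Galois action on units -/
noncomputable def unitsGal (σ : M ≃ₐ[E] M) : (𝓞 M)ˣ →* (𝓞 M)ˣ :=
  Units.map ((galRestrict (𝓞 E) E M (𝓞 M) σ : 𝓞 M ≃ₐ[𝓞 E] 𝓞 M) : 𝓞 M →* 𝓞 M)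

/-- `u ↦ σ u / u` -/
noncomputable def unitsDiv (σ : M ≃ₐ[E] M) : (𝓞 M)ˣ →* (𝓞 M)ˣ :=
  unitsGal σ / MonoidHom.id _

theorem unitsDiv_apply (σ : M ≃ₐ[E] M) (u : (𝓞 M)ˣ) : unitsDiv σ u = unitsGal σ u / u := rfl

theorem coe_unitsGal (σ : M ≃ₐ[E] M) (u : (𝓞 M)ˣ) :
    (((unitsGal σ u : (𝓞 M)ˣ) : 𝓞 M) : M) = σ ((u : 𝓞 M) : M) :=
  algebraMap_galRestrict_apply (𝓞 E) σ (u : 𝓞 M)

theorem coe_unitsMap (e : (𝓞 E)ˣ) :
    (((unitsMap E M e : (𝓞 M)ˣ) : 𝓞 M) : M) = algebraMap E M ((e : 𝓞 E) : E) := rfl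

theorem unitsMap_injective : Function.Injective (unitsMap E M) := by
  intro a b h
  have h1 := congrArg (fun u : (𝓞 M)ˣ => (((u : 𝓞 M)) : M)) h
  simp only [coe_unitsMap] at h1
  exact Units.ext (RingOfIntegers.ext ((algebraMap E M).injective h1))

theorem units_ext {u v : (𝓞 M)ˣ} (h : ((u : 𝓞 M) : M) = ((v : 𝓞 M) : M)) : u = v :=
  Units.ext (RingOfIntegers.ext h)

theorem unitsGal_one : unitsGal (1 : M ≃ₐ[E] M) = MonoidHom.id _ := by
  ext u
  simp [coe_unitsGal]

theorem unitsGal_mul (σ τ : M ≃ₐ[E] M) : unitsGal (σ * τ) = (unitsGal σ).comp (unitsGal τ) := by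
  ext u
  simp [coe_unitsGal]

theorem coe_unitsNorm (u : (𝓞 M)ˣ) :
    algebraMap E M (((unitsNorm E M u : (𝓞 E)ˣ) : 𝓞 E) : E) = ∏ τ : M ≃ₐ[E] M, τ ((u : 𝓞 M) : M) := by
  rw [← Algebra.norm_eq_prod_automorphisms]
  congr 1
  exact Algebra.algebraMap_intNorm (A := 𝓞 E) (K := E) (L := M) (B := 𝓞 M) (u : 𝓞 M)

end Units

section Cyclic

variable {E M : Type*} [Field E] [NumberField E] [Field M] [NumberField M] [Algebra E M]
  [IsGalois E M]
variable {p : ℕ} (hp : p.Prime) (hdeg : finrank E M = p) (σ : M ≃ₐ[E] M) (hσ : σ ≠ 1)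

include hp hdeg in
theorem sigma_pow_p : σ ^ p = 1 := by
  have h := IsGalois.card_aut_eq_finrank E M
  rw [hdeg] at h
  rw [← h]
  exact pow_card_eq_one'

include hp hdeg hσ in
theorem orderOf_sigma : orderOf σ = p := by
  haveI : Fact p.Prime := ⟨hp⟩
  exact orderOf_eq_prime (sigma_pow_p hp hdeg σ) hσ

include hp hdeg hσ in
theorem image_pow_eq_univ [DecidableEq (M ≃ₐ[E] M)] :
    (Finset.range p).image (fun i => σ ^ i) = Finset.univ := by
  apply Finset.eq_univ_of_card
  rw [Finset.card_image_of_injOn, Finset.card_range, ← Nat.card_eq_fintype_card,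
    IsGalois.card_aut_eq_finrank, hdeg]
  intro i hi j hj hij
  have ho := orderOf_sigma hp hdeg σ hσ
  apply pow_injOn_Iio_orderOf (x := σ)
  · simpa [ho] using hi
  · simpa [ho] using hj
  · exact hij

include hp hdeg hσ in
theorem forall_exists_pow (τ : M ≃ₐ[E] M) : ∃ i, τ = σ ^ i := by
  classical
  have h : τ ∈ (Finset.range p).image (fun i => σ ^ i) := by
    rw [image_pow_eq_univ hp hdeg σ hσ]; exact Finset.mem_univ _
  obtain ⟨i, -, hi⟩ := Finset.mem_image.mp h
  exact ⟨i, hi.symm⟩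

include hp hdeg hσ in
theorem prod_aut_eq_prod_range (x : M) :
    ∏ τ : M ≃ₐ[E] M, τ x = ∏ i ∈ Finset.range p, (σ ^ i) x := by
  classical
  rw [← image_pow_eq_univ hp hdeg σ hσ, Finset.prod_image]
  intro i hi j hj hij
  have ho := orderOf_sigma hp hdeg σ hσ
  apply pow_injOn_Iio_orderOf (x := σ)
  · simpa [ho] using hi
  · simpa [ho] using hj
  · exact hij

theorem unitsGal_pow (i : ℕ) (u : (𝓞 M)ˣ) : (unitsGal σ)^[i] u = unitsGal (σ ^ i) u := by
  induction i with
  | zero => simp [unitsGal_one]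
  | succ i ih =>
    rw [Function.iterate_succ_apply', ih, pow_succ', unitsGal_mul]
    rfl

include hp hdeg hσ in
/-- units fixed by `σ` come from the base field -/
theorem mem_range_unitsMap_of_fixed (u : (𝓞 M)ˣ) (hu : unitsGal σ u = u) :
    u ∈ (unitsMap E M).range := by
  have hfix : ∀ (v : (𝓞 M)ˣ), unitsGal σ v = v → ∀ τ : M ≃ₐ[E] M, τ ((v : 𝓞 M) : M) = ((v : 𝓞 M) : M) := by
    intro v hv τ
    obtain ⟨i, rfl⟩ := forall_exists_pow hp hdeg σ hσ τ
    rw [← coe_unitsGal, ← unitsGal_pow]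
    have : (unitsGal σ)^[i] v = v := Function.iterate_fixed hv i
    rw [this]
  have hbot : ∀ (v : (𝓞 M)ˣ), unitsGal σ v = v → ∃ e : E, algebraMap E M e = ((v : 𝓞 M) : M) := by
    intro v hv
    have h1 : (((v : 𝓞 M) : M)) ∈ (⊥ : IntermediateField E M) :=
      (IsGalois.mem_bot_iff_fixed _).mpr (hfix v hv)
    exact IntermediateField.mem_bot.mp h1
  have hu' : unitsGal σ u⁻¹ = u⁻¹ := by rw [map_inv, hu]
  obtain ⟨e, he⟩ := hbot u hu
  obtain ⟨e', he'⟩ := hbot u⁻¹ hu'
  have hint : IsIntegral ℤ e := by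
    rw [← isIntegral_algebraMap_iff (algebraMap E M).injective, he]
    exact RingOfIntegers.isIntegral_coe _
  have hint' : IsIntegral ℤ e' := by
    rw [← isIntegral_algebraMap_iff (algebraMap E M).injective, he']
    exact RingOfIntegers.isIntegral_coe _
  have hee' : e * e' = 1 := by
    apply (algebraMap E M).injective
    rw [map_mul, he, he', map_one, ← map_mul, ← Units.val_mul, mul_inv_cancel]
    simp
  let a : 𝓞 E := ⟨e, hint⟩
  let a' : 𝓞 E := ⟨e', hint'⟩
  have haa' : a * a' = 1 := by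
    apply RingOfIntegers.ext
    show algebraMap (𝓞 E) E (a * a') = algebraMap (𝓞 E) E 1
    rw [map_mul, map_one]
    exact hee'
  refine ⟨⟨a, a', haa', by rw [mul_comm]; exact haa'⟩, ?_⟩
  apply units_ext
  rw [coe_unitsMap]
  exact he

end Cyclic

section Main

variable {E M : Type*} [Field E] [NumberField E] [Field M] [NumberField M] [Algebra E M]
  [IsGalois E M]
variable {p : ℕ} (hp : p.Prime) (hdeg : finrank E M = p) (σ : M ≃ₐ[E] M) (hσ : σ ≠ 1)

/-- `σ` as an endomorphism of the additive group of units -/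
noncomputable def sEnd (σ : M ≃ₐ[E] M) : Module.End ℤ (Additive (𝓞 M)ˣ) :=
  (MonoidHom.toAdditive (unitsGal σ)).toIntLinearMap

theorem sEnd_apply (u : (𝓞 M)ˣ) :
    sEnd σ (Additive.ofMul u) = Additive.ofMul (unitsGal σ u) := rfl

theorem sEnd_pow_apply (i : ℕ) (u : (𝓞 M)ˣ) :
    (sEnd σ ^ i) (Additive.ofMul u) = Additive.ofMul (unitsGal (σ ^ i) u) := by
  induction i generalizing u with
  | zero => simp [unitsGal_one]
  | succ i ih =>
    rw [pow_succ, Module.End.mul_apply, sEnd_apply, ih, pow_succ, unitsGal_mul]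
    rfl

include hp hdeg in
theorem sEnd_pow_p : sEnd σ ^ p = 1 := by
  ext x
  obtain ⟨u, rfl⟩ := Additive.ofMul.surjective x
  rw [sEnd_pow_apply, sigma_pow_p hp hdeg σ, unitsGal_one]
  rfl

include hp hdeg hσ in
theorem nrm_sEnd_apply (u : (𝓞 M)ˣ) :
    nrm (sEnd σ) p (Additive.ofMul u) = Additive.ofMul (unitsMap E M (unitsNorm E M u)) := by
  have h1 : nrm (sEnd σ) p (Additive.ofMul u) =
      Additive.ofMul (∏ i ∈ Finset.range p, unitsGal (σ ^ i) u) := by
    rw [nrm, LinearMap.sum_apply, ofMul_prod]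
    exact Finset.sum_congr rfl (fun i _ => sEnd_pow_apply σ i u)
  rw [h1]
  congr 1
  apply units_ext
  rw [coe_unitsMap, coe_unitsNorm, prod_aut_eq_prod_range hp hdeg σ hσ]
  rw [Units.coe_prod]
  show (algebraMap (𝓞 M) M) (∏ i ∈ Finset.range p, ((unitsGal (σ ^ i) u : (𝓞 M)ˣ) : 𝓞 M)) = _
  rw [map_prod]
  exact Finset.prod_congr rfl (fun i _ => coe_unitsGal (σ ^ i) u)

theorem unitsGal_unitsMap (e : (𝓞 E)ˣ) : unitsGal σ (unitsMap E M e) = unitsMap E M e := by
  apply units_ext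
  rw [coe_unitsGal, coe_unitsMap, AlgEquiv.commutes]

include hp hdeg hσ in
theorem ker_sEnd_sub_one :
    (LinearMap.ker (sEnd σ - 1)).toAddSubgroup = Subgroup.toAddSubgroup (unitsMap E M).range := by
  ext x
  obtain ⟨u, rfl⟩ := Additive.ofMul.surjective x
  have h1 : Additive.ofMul u ∈ (LinearMap.ker (sEnd σ - 1)).toAddSubgroup ↔ unitsGal σ u = u := by
    rw [Submodule.mem_toAddSubgroup, LinearMap.mem_ker, LinearMap.sub_apply, Module.End.one_apply,
      sub_eq_zero, sEnd_apply]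
    exact Additive.ofMul.injective.eq_iff
  rw [h1]
  constructor
  · intro h
    exact mem_range_unitsMap_of_fixed hp hdeg σ hσ u h
  · rintro ⟨e, he⟩
    have he' : unitsMap E M e = u := he
    rw [← he']
    exact unitsGal_unitsMap σ e

theorem range_sEnd_sub_one :
    (LinearMap.range (sEnd σ - 1)).toAddSubgroup = Subgroup.toAddSubgroup (unitsDiv σ).range := by
  ext x
  constructor
  · rintro ⟨y, rfl⟩
    obtain ⟨u, rfl⟩ := Additive.ofMul.surjective y
    exact ⟨u, rfl⟩
  · rintro ⟨u, hu⟩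
    exact ⟨Additive.ofMul u, hu⟩

include hp hdeg hσ in
theorem ker_nrm_sEnd :
    (LinearMap.ker (nrm (sEnd σ) p)).toAddSubgroup = Subgroup.toAddSubgroup (unitsNorm E M).ker := by
  ext x
  obtain ⟨u, rfl⟩ := Additive.ofMul.surjective x
  rw [Submodule.mem_toAddSubgroup, LinearMap.mem_ker, nrm_sEnd_apply hp hdeg σ hσ]
  constructor
  · intro h
    have h1 : unitsMap E M (unitsNorm E M u) = 1 := h
    have h2 : unitsNorm E M u = 1 := unitsMap_injective (by rw [h1, map_one])
    exact h2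
  · intro h
    have h2 : unitsNorm E M u = 1 := h
    rw [h2, map_one]
    rfl

include hp hdeg hσ in
theorem range_nrm_sEnd :
    (LinearMap.range (nrm (sEnd σ) p)).toAddSubgroup =
      Subgroup.toAddSubgroup ((unitsNorm E M).range.map (unitsMap E M)) := by
  ext x
  constructor
  · rintro ⟨y, rfl⟩
    obtain ⟨u, rfl⟩ := Additive.ofMul.surjective y
    rw [nrm_sEnd_apply hp hdeg σ hσ]
    exact ⟨unitsNorm E M u, ⟨u, rfl⟩, rfl⟩
  · rintro ⟨_, ⟨u, rfl⟩, hu⟩
    refine ⟨Additive.ofMul u, ?_⟩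
    rw [nrm_sEnd_apply hp hdeg σ hσ]
    exact congrArg Additive.ofMul hu

include hp hdeg hσ in
theorem finrank_ker_sEnd_sub_one :
    finrank ℤ (LinearMap.ker (sEnd σ - 1)) = Units.rank E := by
  let ι : Additive (𝓞 E)ˣ →ₗ[ℤ] Additive (𝓞 M)ˣ :=
    (MonoidHom.toAdditive (unitsMap E M)).toIntLinearMap
  have hι : Function.Injective ι := fun a b h => by
    have : unitsMap E M a.toMul = unitsMap E M b.toMul := h
    exact Additive.toMul.injective (unitsMap_injective this)
  have hrange : LinearMap.range ι = LinearMap.ker (sEnd σ - 1) := by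
    apply Submodule.toAddSubgroup_injective
    rw [ker_sEnd_sub_one hp hdeg σ hσ]
    ext x
    constructor
    · rintro ⟨y, rfl⟩
      exact ⟨y.toMul, rfl⟩
    · rintro ⟨e, he⟩
      exact ⟨Additive.ofMul e, he⟩
  rw [← hrange, LinearMap.finrank_range_of_inj hι, Units.finrank_eq]

include hp hdeg hσ in
/-- **Herbrand quotient of units** for a cyclic extension of odd prime degree:
`[ker N : {σ u / u}] = p * [𝓞_Eˣ : N 𝓞_Mˣ]`. -/
theorem card_H1_units (hp2 : p ≠ 2) :
    (unitsDiv σ).range.relIndex (unitsNorm E M).ker = p * (unitsNorm E M).range.index := by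
  -- ranks
  have hodd : Odd (finrank E M) := by
    rw [hdeg]; exact hp.odd_of_ne_two hp2
  haveI : IsUnramifiedAtInfinitePlaces E M := IsUnramifiedAtInfinitePlaces_of_odd_finrank hodd
  have hcard := IsUnramifiedAtInfinitePlaces.card_infinitePlace E M
  rw [hdeg] at hcard
  set t := Fintype.card (InfinitePlace E) with ht
  have htpos : 0 < t := Fintype.card_pos
  have ha : finrank ℤ (LinearMap.ker (sEnd σ - 1)) = t - 1 := by
    rw [finrank_ker_sEnd_sub_one hp hdeg σ hσ, Units.rank]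
  have hb : finrank ℤ (Additive (𝓞 M)ˣ) = (t - 1) + (p - 1) * t := by
    rw [Units.finrank_eq, Units.rank, hcard]
    obtain ⟨k, hk⟩ : ∃ k, t = k + 1 := ⟨t - 1, by omega⟩
    obtain ⟨q, hq⟩ : ∃ q, p = q + 1 := ⟨p - 1, by have := hp.pos; omega⟩
    rw [hk, hq]
    have : (k + 1) * (q + 1) = k + q * (k + 1) + 1 := by ring
    rw [this]
    simp
  have hmain := herbrand_prime hp (sEnd σ) (sEnd_pow_p hp hdeg σ) (t - 1) t ha hb
  rw [range_sEnd_sub_one, ker_nrm_sEnd hp hdeg σ hσ, range_nrm_sEnd hp hdeg σ hσ,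
    ker_sEnd_sub_one hp hdeg σ hσ] at hmain
  have h1 : (Subgroup.toAddSubgroup (unitsDiv σ).range).relIndex
      (Subgroup.toAddSubgroup (unitsNorm E M).ker) =
      (unitsDiv σ).range.relIndex (unitsNorm E M).ker := rfl
  have h2 : (Subgroup.toAddSubgroup ((unitsNorm E M).range.map (unitsMap E M))).relIndex
      (Subgroup.toAddSubgroup (unitsMap E M).range) = (unitsNorm E M).range.index := by
    have h3 : (Subgroup.toAddSubgroup ((unitsNorm E M).range.map (unitsMap E M))).relIndex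
      (Subgroup.toAddSubgroup (unitsMap E M).range) =
        ((unitsNorm E M).range.map (unitsMap E M)).relIndex (unitsMap E M).range := rfl
    rw [h3, ← Subgroup.index_comap, Subgroup.comap_map_eq_self_of_injective unitsMap_injective]
  rw [h1, h2] at hmain
  have hpow : p ^ t = p ^ (t - 1) * p := by
    rw [← pow_succ]; congr 1; omega
  rw [hpow, ← mul_assoc] at hmain
  have hpp : 0 < p ^ (t - 1) := pow_pos hp.pos _
  have := Nat.eq_of_mul_eq_mul_right hpp (by
    calc (unitsDiv σ).range.relIndex (unitsNorm E M).ker * p ^ (t - 1) = _ := hmain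
      _ = (p * (unitsNorm E M).range.index) * p ^ (t - 1) := by ring)
  exact this

end Main

end Fermat.Agent.CFT.HNT
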