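import Mathlib
import Fermat.Agent.CFT.HNT.Herbrand
import Fermat.Agent.CFT.HNT.HerbrandUnits
import Fermat.Agent.CFT.HNT.HerbrandBridge
import Fermat.Agent.CFT.HNT.Defs

/-!
# Herbrand quotient of a finitely generated subgroup stable under an automorphism of prime order,
and of the `S`-units of a cyclic extension of odd prime degree

* `herbrand_subgroup` (model-free): `𝕄` a commutative group, `s nM : 𝕄 →* 𝕄`, `U ≤ 𝕄` a finitely
  generated subgroup with `s U ⊆ U`, `s ^ p = 1` on `U`, `nM = ∏_{i<p} s^i` on `U`; if the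
  fixed subgroup `U ⊓ ker (cobd s)` has rank `a` and `U` has rank `a + (p - 1) b`, then
  `[U ∩ ker nM : (s-1) U] * p ^ a = [U^s : nM U] * p ^ b`  (in the `hHerb`-shape of `Abstract.lean`).
* `herbrand_sUnits`: for `M / E` cyclic of odd prime degree `p` and a finite set `S` of primes of
  `E`: `#H¹(U_{M,S}) * p ^ s' = p * #Ĥ⁰(U_{M,S})`, `s'` the number of primes of `S` with exactly one
  prime of `M` above them (input: the ranks of the `S`-unit groups, i.e. the `S`-unit theorem).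
-/

set_option autoImplicit false

set_option linter.unusedSectionVars false

open NumberField Module

namespace Fermat.Agent.CFT.HNT

section Abstract

variable {𝕄 : Type*} [CommGroup 𝕄]

/-- The restriction of `s` to a stable subgroup. -/
def hsRes (s : 𝕄 →* 𝕄) (U : Subgroup 𝕄) (hsU : ∀ x ∈ U, s x ∈ U) : U →* U where
  toFun x := ⟨s (x : 𝕄), hsU x x.2⟩
  map_one' := Subtype.ext (map_one s)
  map_mul' x y := Subtype.ext (map_mul s (x : 𝕄) (y : 𝕄))

theorem coe_hsRes (s : 𝕄 →* 𝕄) (U : Subgroup 𝕄) (hsU : ∀ x ∈ U, s x ∈ U) (u : U) :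
    ((hsRes s U hsU u : U) : 𝕄) = s (u : 𝕄) := rfl

theorem coe_hsRes_iterate (s : 𝕄 →* 𝕄) (U : Subgroup 𝕄) (hsU : ∀ x ∈ U, s x ∈ U) (i : ℕ) (u : U) :
    ((((hsRes s U hsU)^[i]) u : U) : 𝕄) = (s^[i]) (u : 𝕄) := by
  induction i generalizing u with
  | zero => rfl
  | succ i ih => rw [Function.iterate_succ_apply, Function.iterate_succ_apply, ih, coe_hsRes]

/-- `s` as an endomorphism of the additive group of `U`. -/
def hsEnd (s : 𝕄 →* 𝕄) (U : Subgroup 𝕄) (hsU : ∀ x ∈ U, s x ∈ U) : Module.End ℤ (Additive U) :=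
  (MonoidHom.toAdditive (hsRes s U hsU)).toIntLinearMap

theorem hsEnd_apply (s : 𝕄 →* 𝕄) (U : Subgroup 𝕄) (hsU : ∀ x ∈ U, s x ∈ U) (u : U) :
    hsEnd s U hsU (Additive.ofMul u) = Additive.ofMul (hsRes s U hsU u) := rfl

theorem hsEnd_pow_apply (s : 𝕄 →* 𝕄) (U : Subgroup 𝕄) (hsU : ∀ x ∈ U, s x ∈ U) (i : ℕ) (u : U) :
    (hsEnd s U hsU ^ i) (Additive.ofMul u) = Additive.ofMul (((hsRes s U hsU)^[i]) u) := by
  induction i generalizing u with
  | zero => rfl
  | succ i ih =>
    rw [pow_succ, Module.End.mul_apply, hsEnd_apply, ih, Function.iterate_succ_apply]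

theorem hsEnd_pow_p (s : 𝕄 →* 𝕄) (U : Subgroup 𝕄) (hsU : ∀ x ∈ U, s x ∈ U) (p : ℕ)
    (hsp : ∀ x ∈ U, (s^[p]) x = x) : hsEnd s U hsU ^ p = 1 := by
  ext x
  obtain ⟨u, rfl⟩ := Additive.ofMul.surjective x
  rw [hsEnd_pow_apply]
  have : ((hsRes s U hsU)^[p]) u = u := by
    apply Subtype.ext
    rw [coe_hsRes_iterate]
    exact hsp u u.2
  rw [this]
  rfl

theorem nrm_hsEnd_apply (s nM : 𝕄 →* 𝕄) (U : Subgroup 𝕄) (hsU : ∀ x ∈ U, s x ∈ U) (p : ℕ)
    (hnM : ∀ x ∈ U, nM x = ∏ i ∈ Finset.range p, (s^[i]) x) (u : U) :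
    ((Additive.toMul (nrm (hsEnd s U hsU) p (Additive.ofMul u)) : U) : 𝕄) = nM (u : 𝕄) := by
  have h1 : nrm (hsEnd s U hsU) p (Additive.ofMul u) =
      Additive.ofMul (∏ i ∈ Finset.range p, ((hsRes s U hsU)^[i]) u) := by
    rw [nrm, LinearMap.sum_apply, ofMul_prod]
    exact Finset.sum_congr rfl (fun i _ => hsEnd_pow_apply s U hsU i u)
  rw [h1, toMul_ofMul, hnM u u.2, Subgroup.val_finsetProd]
  exact Finset.prod_congr rfl (fun i _ => coe_hsRes_iterate s U hsU i u)

theorem hs_range_sub_one (s : 𝕄 →* 𝕄) (U : Subgroup 𝕄) (hsU : ∀ x ∈ U, s x ∈ U) :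
    (LinearMap.range (hsEnd s U hsU - 1)).toAddSubgroup =
      Subgroup.toAddSubgroup ((U.map (cobd s)).subgroupOf U) := by
  ext x
  obtain ⟨u, rfl⟩ := Additive.ofMul.surjective x
  constructor
  · rintro ⟨y, hy⟩
    obtain ⟨v, rfl⟩ := Additive.ofMul.surjective y
    have h0 : (hsEnd s U hsU - 1) (Additive.ofMul v) =
        Additive.ofMul (hsRes s U hsU v / v) := rfl
    rw [h0] at hy
    have h1 : hsRes s U hsU v / v = u := Additive.ofMul.injective hy
    change u ∈ (U.map (cobd s)).subgroupOf U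
    rw [Subgroup.mem_subgroupOf]
    refine ⟨v, v.2, ?_⟩
    rw [cobd_apply, ← h1]
    rfl
  · intro hx
    have hx' : (u : 𝕄) ∈ U.map (cobd s) := Subgroup.mem_subgroupOf.mp hx
    obtain ⟨v, hv, hvu⟩ := hx'
    refine ⟨Additive.ofMul ⟨v, hv⟩, ?_⟩
    change Additive.ofMul (hsRes s U hsU ⟨v, hv⟩ / ⟨v, hv⟩) = Additive.ofMul u
    congr 1
    apply Subtype.ext
    exact hvu

theorem hs_ker_sub_one (s : 𝕄 →* 𝕄) (U : Subgroup 𝕄) (hsU : ∀ x ∈ U, s x ∈ U) :
    (LinearMap.ker (hsEnd s U hsU - 1)).toAddSubgroup =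
      Subgroup.toAddSubgroup ((U ⊓ (cobd s).ker).subgroupOf U) := by
  ext x
  obtain ⟨u, rfl⟩ := Additive.ofMul.surjective x
  have h1 : Additive.ofMul u ∈ (LinearMap.ker (hsEnd s U hsU - 1)).toAddSubgroup ↔
      hsRes s U hsU u = u := by
    rw [Submodule.mem_toAddSubgroup, LinearMap.mem_ker, LinearMap.sub_apply, Module.End.one_apply,
      sub_eq_zero, hsEnd_apply]
    exact Additive.ofMul.injective.eq_iff
  rw [h1]
  change _ ↔ u ∈ (U ⊓ (cobd s).ker).subgroupOf U
  rw [Subgroup.mem_subgroupOf, Subgroup.mem_inf, mem_ker_cobd]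
  constructor
  · intro h
    exact ⟨u.2, by rw [← coe_hsRes s U hsU u, h]⟩
  · rintro ⟨-, h⟩
    apply Subtype.ext
    rw [coe_hsRes]
    exact h

theorem hs_ker_nrm (s nM : 𝕄 →* 𝕄) (U : Subgroup 𝕄) (hsU : ∀ x ∈ U, s x ∈ U) (p : ℕ)
    (hnM : ∀ x ∈ U, nM x = ∏ i ∈ Finset.range p, (s^[i]) x) :
    (LinearMap.ker (nrm (hsEnd s U hsU) p)).toAddSubgroup =
      Subgroup.toAddSubgroup ((U ⊓ nM.ker).subgroupOf U) := by
  ext x
  obtain ⟨u, rfl⟩ := Additive.ofMul.surjective x
  change nrm (hsEnd s U hsU) p (Additive.ofMul u) = 0 ↔ u ∈ (U ⊓ nM.ker).subgroupOf U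
  rw [Subgroup.mem_subgroupOf, Subgroup.mem_inf, MonoidHom.mem_ker,
    ← nrm_hsEnd_apply s nM U hsU p hnM u]
  constructor
  · intro h
    refine ⟨u.2, ?_⟩
    rw [h]
    rfl
  · rintro ⟨-, h⟩
    have h2 : Additive.toMul (nrm (hsEnd s U hsU) p (Additive.ofMul u)) = (1 : U) :=
      Subtype.ext h
    exact Additive.toMul.injective h2

theorem hs_range_nrm (s nM : 𝕄 →* 𝕄) (U : Subgroup 𝕄) (hsU : ∀ x ∈ U, s x ∈ U) (p : ℕ)
    (hnM : ∀ x ∈ U, nM x = ∏ i ∈ Finset.range p, (s^[i]) x) :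
    (LinearMap.range (nrm (hsEnd s U hsU) p)).toAddSubgroup =
      Subgroup.toAddSubgroup ((U.map nM).subgroupOf U) := by
  ext x
  obtain ⟨u, rfl⟩ := Additive.ofMul.surjective x
  change (∃ y, nrm (hsEnd s U hsU) p y = Additive.ofMul u) ↔ u ∈ (U.map nM).subgroupOf U
  rw [Subgroup.mem_subgroupOf]
  constructor
  · rintro ⟨y, hy⟩
    obtain ⟨v, rfl⟩ := Additive.ofMul.surjective y
    refine ⟨v, v.2, ?_⟩
    rw [← nrm_hsEnd_apply s nM U hsU p hnM v, hy]
    rfl
  · rintro ⟨v, hv, hvu⟩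
    refine ⟨Additive.ofMul ⟨v, hv⟩, ?_⟩
    apply Additive.toMul.injective
    apply Subtype.ext
    rw [nrm_hsEnd_apply s nM U hsU p hnM ⟨v, hv⟩]
    exact hvu

/-- In a finitely generated abelian group, `N ≤ K` with `m • K ≤ N` has finite relative index. -/
theorem relIndex_ne_zero_of_smul_mem {A : Type*} [AddCommGroup A] [Module.Finite ℤ A]
    (N K : Submodule ℤ A) (m : ℕ) (hm : m ≠ 0) (h : ∀ x ∈ K, m • x ∈ N) :
    N.toAddSubgroup.relIndex K.toAddSubgroup ≠ 0 := by
  have : IsNoetherian ℤ A := isNoetherian_of_isNoetherianRing_of_finite ℤ A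
  have : Module.Finite ℤ K := Module.IsNoetherian.finite ℤ K
  let S : Submodule ℤ K := Submodule.comap K.subtype N
  have htor : Module.IsTorsion ℤ (K ⧸ S) := by
    intro q
    obtain ⟨x, rfl⟩ := Submodule.Quotient.mk_surjective S q
    refine ⟨⟨(m : ℤ), mem_nonZeroDivisors_of_ne_zero (by exact_mod_cast hm)⟩, ?_⟩
    show (m : ℤ) • (Submodule.Quotient.mk x : K ⧸ S) = 0
    rw [← Submodule.Quotient.mk_smul, Submodule.Quotient.mk_eq_zero]
    show K.subtype ((m : ℤ) • x) ∈ N
    simpa using h x x.2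
  have : Finite (K ⧸ S) := Module.finite_of_fg_torsion _ htor
  have h1 : S.toAddSubgroup.index = Nat.card (K ⧸ S) := by
    rw [← Submodule.cardQuot_apply]; rfl
  have h2 : N.toAddSubgroup.relIndex K.toAddSubgroup = S.toAddSubgroup.index := rfl
  rw [h2, h1]
  exact Nat.card_pos.ne'

/-- **Herbrand quotient of a finitely generated stable subgroup** (model-free form, in the
shape of the hypothesis `hHerb` of the abstract counting theorem). -/
theorem herbrand_subgroup {p : ℕ} (hp : p.Prime) (s nM : 𝕄 →* 𝕄) (U : Subgroup 𝕄)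
    (hsU : ∀ x ∈ U, s x ∈ U) (hsp : ∀ x ∈ U, (s^[p]) x = x)
    (hnM : ∀ x ∈ U, nM x = ∏ i ∈ Finset.range p, (s^[i]) x)
    [Module.Finite ℤ (Additive U)] {V : Type*} [CommGroup V] (ι : V →* 𝕄)
    (hι : Function.Injective ι) (hιr : ι.range = U ⊓ (cobd s).ker) (a b : ℕ)
    (ha : finrank ℤ (Additive V) = a) (hb : finrank ℤ (Additive U) = a + (p - 1) * b) :
    (U.map (cobd s)).relIndex (U ⊓ nM.ker) * p ^ a =
      (U.map nM).relIndex (U ⊓ (cobd s).ker) * p ^ b ∧
    (U.map nM).relIndex (U ⊓ (cobd s).ker) ≠ 0 := by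
  have hmem : ∀ v : V, ι v ∈ U ⊓ (cobd s).ker := fun v => by
    rw [← hιr]
    exact ⟨v, rfl⟩
  have hker : finrank ℤ (LinearMap.ker (hsEnd s U hsU - 1)) = a := by
    let j₀ : V →* U := ι.codRestrict U (fun v => (hmem v).1)
    let j : Additive V →ₗ[ℤ] Additive U := (MonoidHom.toAdditive j₀).toIntLinearMap
    have hj : Function.Injective j := fun x y h => by
      have h1 : j₀ (Additive.toMul x) = j₀ (Additive.toMul y) := h
      have h2 : ι (Additive.toMul x) = ι (Additive.toMul y) := congrArg Subtype.val h1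
      exact Additive.toMul.injective (hι h2)
    have hrange : LinearMap.range j = LinearMap.ker (hsEnd s U hsU - 1) := by
      apply Submodule.toAddSubgroup_injective
      rw [hs_ker_sub_one]
      ext x
      obtain ⟨u, rfl⟩ := Additive.ofMul.surjective x
      change (∃ y, j y = Additive.ofMul u) ↔ u ∈ (U ⊓ (cobd s).ker).subgroupOf U
      rw [Subgroup.mem_subgroupOf]
      constructor
      · rintro ⟨y, hy⟩
        have h1 : j₀ (Additive.toMul y) = u := hy
        rw [← h1]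
        exact hmem _
      · intro hu
        rw [← hιr] at hu
        obtain ⟨v, hv⟩ := hu
        refine ⟨Additive.ofMul v, ?_⟩
        change Additive.ofMul (j₀ v) = Additive.ofMul u
        congr 1
        exact Subtype.ext hv
    rw [← hrange, LinearMap.finrank_range_of_inj hj, ha]
  have hmain := herbrand_prime hp (hsEnd s U hsU) (hsEnd_pow_p s U hsU p hsp) a b hker hb
  have hne := relIndex_ne_zero_of_smul_mem (LinearMap.range (nrm (hsEnd s U hsU) p))
    (LinearMap.ker (hsEnd s U hsU - 1)) p hp.ne_zero (fun x hx => by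
      have hx' : hsEnd s U hsU x = x := by
        have : (hsEnd s U hsU - 1) x = 0 := hx
        rwa [LinearMap.sub_apply, Module.End.one_apply, sub_eq_zero] at this
      exact ⟨x, nrm_apply_of_fixed (hsEnd s U hsU) p x hx'⟩)
  rw [hs_range_sub_one, hs_ker_nrm s nM U hsU p hnM, hs_range_nrm s nM U hsU p hnM,
    hs_ker_sub_one] at hmain
  rw [hs_range_nrm s nM U hsU p hnM, hs_ker_sub_one] at hne
  have e1 : (Subgroup.toAddSubgroup ((U.map (cobd s)).subgroupOf U)).relIndex
      (Subgroup.toAddSubgroup ((U ⊓ nM.ker).subgroupOf U)) =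
      (U.map (cobd s)).relIndex (U ⊓ nM.ker) := by
    have h0 : (Subgroup.toAddSubgroup ((U.map (cobd s)).subgroupOf U)).relIndex
      (Subgroup.toAddSubgroup ((U ⊓ nM.ker).subgroupOf U)) =
      ((U.map (cobd s)).subgroupOf U).relIndex ((U ⊓ nM.ker).subgroupOf U) := rfl
    rw [h0, Subgroup.relIndex_subgroupOf inf_le_left]
  have e2 : (Subgroup.toAddSubgroup ((U.map nM).subgroupOf U)).relIndex
      (Subgroup.toAddSubgroup ((U ⊓ (cobd s).ker).subgroupOf U)) =
      (U.map nM).relIndex (U ⊓ (cobd s).ker) := by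
    have h0 : (Subgroup.toAddSubgroup ((U.map nM).subgroupOf U)).relIndex
      (Subgroup.toAddSubgroup ((U ⊓ (cobd s).ker).subgroupOf U)) =
      ((U.map nM).subgroupOf U).relIndex ((U ⊓ (cobd s).ker).subgroupOf U) := rfl
    rw [h0, Subgroup.relIndex_subgroupOf inf_le_left]
  rw [e1, e2] at hmain
  rw [e2] at hne
  exact ⟨hmain, hne⟩

end Abstract

section Valuation

open IsDedekindDomain

variable {R : Type*} [CommRing R] [IsDedekindDomain R] {F : Type*} [Field F] [Algebra R F]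
  [IsFractionRing R F]

/-- A ring automorphism of `R` mapping the prime `v` into the prime `v'` does not increase the
valuation (from `v` to `v'`). -/
theorem hs_intValuation_le (v v' : HeightOneSpectrum R) (e : R ≃+* R)
    (he : ∀ r, r ∈ v.asIdeal → e r ∈ v'.asIdeal) (r : R) :
    v'.intValuation (e r) ≤ v.intValuation r := by
  rcases eq_or_ne r 0 with rfl | hr
  · simp
  rw [v.intValuation_eq_exp_neg_multiplicity hr, v'.intValuation_le_pow_iff_mem]
  have hmem : r ∈ v.asIdeal ^ multiplicity v.asIdeal (Ideal.span {r}) := by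
    rw [← v.intValuation_le_pow_iff_mem, v.intValuation_eq_exp_neg_multiplicity hr]
  have hmap : Ideal.map (e : R →+* R) v.asIdeal ≤ v'.asIdeal := by
    rw [Ideal.map_le_iff_le_comap]
    intro x hx
    exact he x hx
  have h2 : Ideal.map (e : R →+* R) (v.asIdeal ^ multiplicity v.asIdeal (Ideal.span {r})) ≤
      v'.asIdeal ^ multiplicity v.asIdeal (Ideal.span {r}) := by
    rw [Ideal.map_pow]
    exact Ideal.pow_right_mono hmap _
  exact h2 (Ideal.mem_map_of_mem _ hmem)

theorem hs_intValuation_eq (v v' : HeightOneSpectrum R) (e : R ≃+* R)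
    (he : ∀ r, e r ∈ v'.asIdeal ↔ r ∈ v.asIdeal) (r : R) :
    v'.intValuation (e r) = v.intValuation r := by
  refine le_antisymm (hs_intValuation_le v v' e (fun x hx => (he x).mpr hx) r) ?_
  have := hs_intValuation_le v' v e.symm (fun x hx => by
    rw [← he]; simpa using hx) (e r)
  simpa using this

/-- A field automorphism inducing an automorphism of `R` which maps `v` onto `v'` transports the
`v`-adic valuation to the `v'`-adic one. -/
theorem hs_valuation_eq (v v' : HeightOneSpectrum R) (e : R ≃+* R) (E' : F ≃+* F)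
    (hE : ∀ r, E' (algebraMap R F r) = algebraMap R F (e r))
    (he : ∀ r, e r ∈ v'.asIdeal ↔ r ∈ v.asIdeal) (x : F) :
    v'.valuation F (E' x) = v.valuation F x := by
  obtain ⟨r, t, ht, rfl⟩ := IsFractionRing.div_surjective (A := R) x
  rw [map_div₀, hE, hE, map_div₀, map_div₀, v.valuation_of_algebraMap, v.valuation_of_algebraMap,
    v'.valuation_of_algebraMap, v'.valuation_of_algebraMap, hs_intValuation_eq v v' e he,
    hs_intValuation_eq v v' e he]

end Valuation

section SUnits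

open IsDedekindDomain

open scoped Pointwise

variable {E M : Type*} [Field E] [NumberField E] [Field M] [NumberField M] [Algebra E M]
  [IsGalois E M]

variable (M) in
/-- The primes of `M` above a set `S` of primes of `E`. -/
def sAbove (S : Set (HeightOneSpectrum (𝓞 E))) : Set (HeightOneSpectrum (𝓞 M)) :=
  {w | w.under (𝓞 E) ∈ S}

theorem mem_sAbove (S : Set (HeightOneSpectrum (𝓞 E))) (w : HeightOneSpectrum (𝓞 M)) :
    w ∈ sAbove M S ↔ w.under (𝓞 E) ∈ S := Iff.rfl

theorem mem_sUnit_iff {K : Type*} [Field K] [NumberField K] (T : Set (HeightOneSpectrum (𝓞 K)))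
    (x : Kˣ) : x ∈ T.unit K ↔ ∀ v, v ∉ T → v.valuation K (x : K) = 1 := Iff.rfl

/-- The prime `σ • w`. -/
noncomputable def hsPrime (σ : M ≃ₐ[E] M) (w : HeightOneSpectrum (𝓞 M)) :
    HeightOneSpectrum (𝓞 M) where
  asIdeal := σ • w.asIdeal
  isPrime := inferInstance
  ne_bot := by
    intro h
    apply w.ne_bot
    have h2 : σ⁻¹ • (σ • w.asIdeal) = σ⁻¹ • (⊥ : Ideal (𝓞 M)) := by rw [h]
    rw [inv_smul_smul] at h2
    rw [h2]
    exact Ideal.smul_bot _

theorem hsPrime_asIdeal (σ : M ≃ₐ[E] M) (w : HeightOneSpectrum (𝓞 M)) :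
    (hsPrime σ w).asIdeal = σ • w.asIdeal := rfl

theorem hsPrime_smul_inv (σ : M ≃ₐ[E] M) (w : HeightOneSpectrum (𝓞 M)) :
    hsPrime σ (hsPrime σ⁻¹ w) = w := by
  ext1
  rw [hsPrime_asIdeal, hsPrime_asIdeal, smul_inv_smul]

theorem hsPrime_under (σ : M ≃ₐ[E] M) (w : HeightOneSpectrum (𝓞 M)) :
    (hsPrime σ w).under (𝓞 E) = w.under (𝓞 E) := by
  ext1
  ext x
  change algebraMap (𝓞 E) (𝓞 M) x ∈ σ • w.asIdeal ↔ algebraMap (𝓞 E) (𝓞 M) x ∈ w.asIdeal
  rw [Ideal.mem_pointwise_smul_iff_inv_smul_mem]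
  have : σ⁻¹ • algebraMap (𝓞 E) (𝓞 M) x = algebraMap (𝓞 E) (𝓞 M) x := by
    apply RingOfIntegers.ext
    change σ⁻¹ (algebraMap E M (x : E)) = algebraMap E M (x : E)
    exact AlgEquiv.commutes _ _
  rw [this]

/-- The valuation at `σ • w` of `σ x` is the valuation at `w` of `x`. -/
theorem hs_valuation_smul (σ : M ≃ₐ[E] M) (w : HeightOneSpectrum (𝓞 M)) (x : M) :
    (hsPrime σ w).valuation M (σ x) = w.valuation M x :=
  hs_valuation_eq w (hsPrime σ w) (MulSemiringAction.toRingEquiv (M ≃ₐ[E] M) (𝓞 M) σ)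
    (σ : M ≃+* M) (fun _ => rfl) (fun _ => Ideal.smul_mem_pointwise_smul_iff) x

/-- `σ` preserves the `S`-units (for `S` a set of primes of `M` that is the full preimage of a set
of primes of `E`). -/
theorem galUnits_mem_sUnit (S : Set (HeightOneSpectrum (𝓞 E))) (σ : M ≃ₐ[E] M) (x : Mˣ)
    (hx : x ∈ (sAbove M S).unit M) : galUnits σ x ∈ (sAbove M S).unit M := by
  rw [mem_sUnit_iff] at hx ⊢
  intro w hw
  have hw' : hsPrime σ⁻¹ w ∉ sAbove M S := by
    rw [mem_sAbove, hsPrime_under]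
    exact hw
  have h1 := hs_valuation_smul σ (hsPrime σ⁻¹ w) (x : M)
  rw [hsPrime_smul_inv] at h1
  rw [coe_galUnits, h1]
  exact hx _ hw'

theorem galUnits_iterate (σ : M ≃ₐ[E] M) (i : ℕ) (x : Mˣ) :
    ((((galUnits σ)^[i]) x : Mˣ) : M) = (σ ^ i) (x : M) := by
  induction i with
  | zero => rfl
  | succ i ih =>
    rw [Function.iterate_succ_apply', coe_galUnits, ih, pow_succ', AlgEquiv.mul_apply]

variable (M) in
/-- The `S`-units of `E` inside `Mˣ`. -/
noncomputable def sUnitIncl (S : Set (HeightOneSpectrum (𝓞 E))) : S.unit E →* Mˣ :=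
  (Units.map (algebraMap E M : E →* M)).comp (S.unit E).subtype

theorem coe_sUnitIncl (S : Set (HeightOneSpectrum (𝓞 E))) (x : S.unit E) :
    ((sUnitIncl M S x : Mˣ) : M) = algebraMap E M ((x : Eˣ) : E) := rfl

theorem sUnitIncl_injective (S : Set (HeightOneSpectrum (𝓞 E))) :
    Function.Injective (sUnitIncl M S) := by
  intro a b h
  have h1 : ((sUnitIncl M S a : Mˣ) : M) = ((sUnitIncl M S b : Mˣ) : M) := by rw [h]
  rw [coe_sUnitIncl, coe_sUnitIncl] at h1
  exact Subtype.ext (Units.ext ((algebraMap E M).injective h1))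

/-- Valuation of an element of `E` at a prime of `M`. -/
theorem hs_valuation_algebraMap (w : HeightOneSpectrum (𝓞 M)) (x : E) :
    w.valuation M (algebraMap E M x) = 1 ↔ (w.under (𝓞 E)).valuation E x = 1 := by
  have : w.asIdeal.LiesOver (w.under (𝓞 E)).asIdeal := ⟨rfl⟩
  rw [← HeightOneSpectrum.valuation_liesOver M (w.under (𝓞 E)) w x]
  have he : (w.under (𝓞 E)).asIdeal.ramificationIdx' w.asIdeal ≠ 0 :=
    Ideal.IsDedekindDomain.ramificationIdx'_ne_zero_of_liesOver w.asIdeal (w.under (𝓞 E)).ne_bot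
  constructor
  · intro h
    exact (pow_eq_one_iff.mp h).resolve_right he
  · intro h
    rw [h, one_pow]

/-- Every prime of `E` lies under a prime of `M`. -/
theorem hs_exists_under (v : HeightOneSpectrum (𝓞 E)) :
    ∃ w : HeightOneSpectrum (𝓞 M), w.under (𝓞 E) = v := by
  have hvmax : v.asIdeal.IsMaximal := v.isMaximal
  obtain ⟨P, hPmax, hPover⟩ :=
    Ideal.exists_maximal_ideal_liesOver_of_isIntegral (S := 𝓞 M) v.asIdeal
  have hP0 : P ≠ ⊥ := Ideal.ne_bot_of_liesOver_of_ne_bot v.ne_bot P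
  refine ⟨⟨P, hPmax.isPrime, hP0⟩, ?_⟩
  ext1
  exact (Ideal.LiesOver.over (p := v.asIdeal) (P := P)).symm

section Cyclic

variable {p : ℕ} (hp : p.Prime) (hdeg : finrank E M = p) (σ : M ≃ₐ[E] M) (hσ : σ ≠ 1)

include hp hdeg hσ in
/-- The `σ`-fixed `S`-units of `M` are the `S`-units of `E`. -/
theorem range_sUnitIncl (S : Set (HeightOneSpectrum (𝓞 E))) :
    (sUnitIncl M S).range = (sAbove M S).unit M ⊓ (cobd (galUnits σ)).ker := by
  ext y
  rw [Subgroup.mem_inf]
  constructor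
  · rintro ⟨x, rfl⟩
    refine ⟨?_, ?_⟩
    · rw [mem_sUnit_iff]
      intro w hw
      rw [coe_sUnitIncl, hs_valuation_algebraMap]
      exact (mem_sUnit_iff S (x : Eˣ)).mp x.2 _ hw
    · rw [mem_ker_cobd]
      apply Units.ext
      rw [coe_galUnits, coe_sUnitIncl, AlgEquiv.commutes]
  · rintro ⟨hyU, hyfix⟩
    rw [mem_ker_cobd] at hyfix
    have hfix : ∀ τ : M ≃ₐ[E] M, τ (y : M) = (y : M) := by
      intro τ
      obtain ⟨i, rfl⟩ := forall_exists_pow hp hdeg σ hσ τ
      rw [← galUnits_iterate, Function.iterate_fixed hyfix i]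
    have h1 : (y : M) ∈ (⊥ : IntermediateField E M) := (IsGalois.mem_bot_iff_fixed _).mpr hfix
    obtain ⟨e, he⟩ := IntermediateField.mem_bot.mp h1
    have he0 : e ≠ 0 := by
      rintro rfl
      rw [map_zero] at he
      exact y.ne_zero he.symm
    have hmem : Units.mk0 e he0 ∈ S.unit E := by
      rw [mem_sUnit_iff]
      intro v hv
      obtain ⟨w, hw⟩ := hs_exists_under (M := M) v
      have hwS : w ∉ sAbove M S := by
        rw [mem_sAbove, hw]
        exact hv
      have h2 := (mem_sUnit_iff _ y).mp hyU w hwS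
      rw [← he, hs_valuation_algebraMap, hw] at h2
      exact h2
    refine ⟨⟨Units.mk0 e he0, hmem⟩, ?_⟩
    apply Units.ext
    rw [coe_sUnitIncl]
    exact he

/-- The primes of `M` above `v` correspond to `primesOver`. -/
theorem hs_image_fiber (v : HeightOneSpectrum (𝓞 E)) :
    HeightOneSpectrum.asIdeal '' {w : HeightOneSpectrum (𝓞 M) | w.under (𝓞 E) = v} =
      v.asIdeal.primesOver (𝓞 M) := by
  ext P
  constructor
  · rintro ⟨w, hw, rfl⟩
    refine ⟨w.isPrime, ⟨?_⟩⟩
    have := congrArg HeightOneSpectrum.asIdeal hw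
    exact this.symm
  · rintro ⟨hPp, hPo⟩
    have hP0 : P ≠ ⊥ := Ideal.ne_bot_of_liesOver_of_ne_bot v.ne_bot P
    refine ⟨⟨P, hPp, hP0⟩, ?_, rfl⟩
    ext1
    exact (Ideal.LiesOver.over (p := v.asIdeal) (P := P)).symm

theorem hs_fiber_finite (v : HeightOneSpectrum (𝓞 E)) :
    {w : HeightOneSpectrum (𝓞 M) | w.under (𝓞 E) = v}.Finite := by
  have h : (HeightOneSpectrum.asIdeal '' {w : HeightOneSpectrum (𝓞 M) | w.under (𝓞 E) = v}).Finite := by
    rw [hs_image_fiber]
    exact IsDedekindDomain.primesOver_finite v.asIdeal (𝓞 M)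
  exact Set.Finite.of_finite_image h (fun a _ b _ hab => HeightOneSpectrum.ext hab)

theorem hs_fiber_ncard (v : HeightOneSpectrum (𝓞 E)) :
    {w : HeightOneSpectrum (𝓞 M) | w.under (𝓞 E) = v}.ncard =
      (v.asIdeal.primesOver (𝓞 M)).ncard := by
  rw [← hs_image_fiber]
  exact (Set.ncard_image_of_injective _ (fun a b h => HeightOneSpectrum.ext h)).symm

include hp hdeg in
/-- In a Galois extension of prime degree a prime has one or `p` primes above it. -/
theorem hs_ncard_primesOver (v : HeightOneSpectrum (𝓞 E)) :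
    (v.asIdeal.primesOver (𝓞 M)).ncard = 1 ∨ (v.asIdeal.primesOver (𝓞 M)).ncard = p := by
  have h := Ideal.ncard_primesOver_mul_ramificationIdxIn_mul_inertiaDegIn v.asIdeal (𝓞 M)
    (M ≃ₐ[E] M)
  rw [IsGalois.card_aut_eq_finrank, hdeg] at h
  exact (Nat.dvd_prime hp).mp ⟨_, h.symm⟩

include hp hdeg hσ in
/-- A prime `w` of `M` is the only prime above `w ∩ E` iff it is fixed by `σ`. -/
theorem ncard_primesOver_eq_one_iff (w : HeightOneSpectrum (𝓞 M)) :
    ((w.under (𝓞 E)).asIdeal.primesOver (𝓞 M)).ncard = 1 ↔ σ • w.asIdeal = w.asIdeal := by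
  have hw : w.asIdeal ∈ (w.under (𝓞 E)).asIdeal.primesOver (𝓞 M) := ⟨w.isPrime, ⟨rfl⟩⟩
  constructor
  · intro h
    obtain ⟨a, ha⟩ := Set.ncard_eq_one.mp h
    have hσw : σ • w.asIdeal ∈ (w.under (𝓞 E)).asIdeal.primesOver (𝓞 M) := by
      refine ⟨(hsPrime σ w).isPrime, ⟨?_⟩⟩
      have := congrArg HeightOneSpectrum.asIdeal (hsPrime_under σ w)
      exact this.symm
    rw [ha, Set.mem_singleton_iff] at hw hσw
    rw [hσw, hw]
  · intro h
    have hpow : ∀ i : ℕ, (σ ^ i) • w.asIdeal = w.asIdeal := by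
      intro i
      induction i with
      | zero => rw [pow_zero, one_smul]
      | succ i ih => rw [pow_succ, mul_smul, h, ih]
    have hsing : (w.under (𝓞 E)).asIdeal.primesOver (𝓞 M) = {w.asIdeal} := by
      ext Q
      rw [Set.mem_singleton_iff]
      constructor
      · rintro ⟨hQp, hQo⟩
        have hwo : w.asIdeal.LiesOver (w.under (𝓞 E)).asIdeal := ⟨rfl⟩
        have hwp : w.asIdeal.IsPrime := w.isPrime
        obtain ⟨τ, hτ⟩ := Ideal.exists_smul_eq_of_isGaloisGroup (w.under (𝓞 E)).asIdeal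
          w.asIdeal Q (M ≃ₐ[E] M)
        obtain ⟨i, rfl⟩ := forall_exists_pow hp hdeg σ hσ τ
        rw [← hτ, hpow]
      · rintro rfl
        exact hw
    rw [hsing, Set.ncard_singleton]

variable (M) in
/-- The number of primes in `S` with exactly one prime of `M` above them. -/
noncomputable def nonSplitCard (S : Finset (HeightOneSpectrum (𝓞 E))) : ℕ :=
  {v : HeightOneSpectrum (𝓞 E) | v ∈ S ∧ (v.asIdeal.primesOver (𝓞 M)).ncard = 1}.ncard

theorem nonSplitCard_le (S : Finset (HeightOneSpectrum (𝓞 E))) : nonSplitCard M S ≤ S.card := by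
  rw [nonSplitCard, ← Set.ncard_coe_finset S]
  exact Set.ncard_le_ncard (fun v hv => hv.1) S.finite_toSet

include hp hdeg in
/-- Counting the primes of `M` above the finite set `S`. -/
theorem hs_ncard_sAbove (S : Finset (HeightOneSpectrum (𝓞 E))) :
    (sAbove M (S : Set (HeightOneSpectrum (𝓞 E)))).ncard + (p - 1) * nonSplitCard M S =
      p * S.card := by
  classical
  have hunion : sAbove M (S : Set (HeightOneSpectrum (𝓞 E))) =
      ↑(S.biUnion (fun v => (hs_fiber_finite (M := M) v).toFinset)) := by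
    ext w
    simp only [mem_sAbove, Finset.coe_biUnion, Finset.mem_coe, Set.Finite.coe_toFinset,
      Set.mem_iUnion, Set.mem_ofPred_eq, exists_prop, exists_eq_right']
  have hdisj : (↑S : Set (HeightOneSpectrum (𝓞 E))).PairwiseDisjoint
      (fun v => (hs_fiber_finite (M := M) v).toFinset) := by
    intro v _ v' _ hvv'
    rw [Function.onFun, Finset.disjoint_left]
    intro w hw hw'
    rw [Set.Finite.mem_toFinset] at hw hw'
    exact hvv' (hw.symm.trans hw')
  have hsum : (sAbove M (S : Set (HeightOneSpectrum (𝓞 E)))).ncard =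
      ∑ v ∈ S, (v.asIdeal.primesOver (𝓞 M)).ncard := by
    rw [hunion, Set.ncard_coe_finset, Finset.card_biUnion hdisj]
    refine Finset.sum_congr rfl fun v _ => ?_
    rw [← Set.ncard_eq_toFinset_card _ (hs_fiber_finite (M := M) v), hs_fiber_ncard]
  have hns : nonSplitCard M S =
      ∑ v ∈ S, if (v.asIdeal.primesOver (𝓞 M)).ncard = 1 then 1 else 0 := by
    rw [nonSplitCard, ← Finset.card_filter, ← Set.ncard_coe_finset]
    congr 1
    ext v
    simp
  have hconst : p * S.card = ∑ _v ∈ S, p := by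
    rw [Finset.sum_const, smul_eq_mul, mul_comm]
  rw [hsum, hns, Finset.mul_sum, ← Finset.sum_add_distrib, hconst]
  refine Finset.sum_congr rfl fun v _ => ?_
  rcases hs_ncard_primesOver hp hdeg v with h | h
  · rw [h, if_pos rfl, mul_one]
    have := hp.pos
    omega
  · rw [h]
    have hp1 : p ≠ 1 := hp.ne_one
    rw [if_neg hp1, mul_zero, add_zero]

include hp hdeg hσ in
/-- **Herbrand quotient of the `S`-units** of a cyclic extension `M / E` of odd prime degree `p`:
`#H¹(U_{M,S}) * p ^ s' = p * #Ĥ⁰(U_{M,S})`, where `s'` is the number of primes of `S` with exactly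
one prime of `M` above them; the input is the `S`-unit theorem (ranks of the `S`-unit groups). -/
theorem herbrand_sUnits (hp2 : p ≠ 2) (S : Finset (HeightOneSpectrum (𝓞 E)))
    (hfin : Module.Finite ℤ (Additive ((sAbove M (S : Set (HeightOneSpectrum (𝓞 E)))).unit M)))
    (hrkE : finrank ℤ (Additive ((S : Set (HeightOneSpectrum (𝓞 E))).unit E)) =
      Units.rank E + S.card)
    (hrkM : finrank ℤ (Additive ((sAbove M (S : Set (HeightOneSpectrum (𝓞 E)))).unit M)) =
      Units.rank M + (sAbove M (S : Set (HeightOneSpectrum (𝓞 E)))).ncard) :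
    (((sAbove M (S : Set (HeightOneSpectrum (𝓞 E)))).unit M).map (cobd (galUnits σ))).relIndex
        ((sAbove M (S : Set (HeightOneSpectrum (𝓞 E)))).unit M ⊓ (normUnits E M).ker) *
        p ^ nonSplitCard M S =
      p * (((sAbove M (S : Set (HeightOneSpectrum (𝓞 E)))).unit M).map (normUnits E M)).relIndex
        ((sAbove M (S : Set (HeightOneSpectrum (𝓞 E)))).unit M ⊓ (cobd (galUnits σ)).ker) ∧
    (((sAbove M (S : Set (HeightOneSpectrum (𝓞 E)))).unit M).map (normUnits E M)).relIndex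
        ((sAbove M (S : Set (HeightOneSpectrum (𝓞 E)))).unit M ⊓ (cobd (galUnits σ)).ker) ≠ 0 := by
  set U := (sAbove M (S : Set (HeightOneSpectrum (𝓞 E)))).unit M with hU
  -- ranks
  have hodd : Odd (finrank E M) := by
    rw [hdeg]; exact hp.odd_of_ne_two hp2
  have hunr : IsUnramifiedAtInfinitePlaces E M := IsUnramifiedAtInfinitePlaces_of_odd_finrank hodd
  have hcard := IsUnramifiedAtInfinitePlaces.card_infinitePlace E M
  rw [hdeg] at hcard
  set t := Fintype.card (InfinitePlace E) with ht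
  have htpos : 0 < t := Fintype.card_pos
  have hcount := hs_ncard_sAbove hp hdeg (M := M) S
  have hle := nonSplitCard_le (M := M) S
  set n := (sAbove M (S : Set (HeightOneSpectrum (𝓞 E)))).ncard with hn
  set c := S.card with hc
  set s' := nonSplitCard M S with hs'
  obtain ⟨k, hk⟩ : ∃ k, t = k + 1 := ⟨t - 1, by omega⟩
  obtain ⟨q, hq⟩ : ∃ q, p = q + 1 := ⟨p - 1, by have := hp.pos; omega⟩
  obtain ⟨d, hd⟩ : ∃ d, c = s' + d := ⟨c - s', by omega⟩
  have hn' : n = s' + (q + 1) * d := by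
    have h1 : n + q * s' = (q + 1) * (s' + d) := by
      have := hcount
      rw [hq, hd] at this
      simpa using this
    have h2 : (q + 1) * (s' + d) = s' + (q + 1) * d + q * s' := by ring
    omega
  have hrE : Units.rank E = t - 1 := rfl
  have hrM : Units.rank M = Fintype.card (InfinitePlace M) - 1 := rfl
  have ha : finrank ℤ (Additive ((S : Set (HeightOneSpectrum (𝓞 E))).unit E)) = k + s' + d := by
    rw [hrkE, hrE]
    omega
  have hb : finrank ℤ (Additive U) = (k + s' + d) + (p - 1) * (k + 1 + d) := by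
    rw [hrkM, hrM, hcard]
    have h3 : t * p = q * k + k + q + 1 := by rw [hk, hq]; ring
    have h4 : (q + 1) * d = q * d + d := by ring
    have h5 : (p - 1) * (k + 1 + d) = q * k + q + q * d := by
      rw [hq, Nat.add_sub_cancel]; ring
    rw [h3, h5, hn', h4]
    omega
  have hsU : ∀ x ∈ U, galUnits σ x ∈ U := fun x hx => galUnits_mem_sUnit _ σ x hx
  have hsp : ∀ x ∈ U, ((galUnits σ)^[p]) x = x := by
    intro x _
    apply Units.ext
    rw [galUnits_iterate, sigma_pow_p hp hdeg σ]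
    rfl
  have hnM : ∀ x ∈ U, normUnits E M x = ∏ i ∈ Finset.range p, ((galUnits σ)^[i]) x := by
    intro x _
    apply Units.ext
    rw [coe_normUnits, Units.coe_prod, Algebra.norm_eq_prod_automorphisms,
      prod_aut_eq_prod_range hp hdeg σ hσ]
    exact Finset.prod_congr rfl fun i _ => (galUnits_iterate σ i x).symm
  obtain ⟨hmain, hne⟩ := herbrand_subgroup hp (galUnits σ) (normUnits E M) U hsU hsp hnM
    (sUnitIncl M (S : Set (HeightOneSpectrum (𝓞 E)))) (sUnitIncl_injective _)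
    (range_sUnitIncl hp hdeg σ hσ _) (k + s' + d) (k + 1 + d) ha hb
  refine ⟨?_, hne⟩
  have hpp : 0 < p ^ (k + d) := pow_pos hp.pos _
  have e1 : p ^ (k + s' + d) = p ^ s' * p ^ (k + d) := by
    rw [← pow_add]; congr 1; omega
  have e2 : p ^ (k + 1 + d) = p * p ^ (k + d) := by
    rw [← pow_succ']; congr 1; omega
  rw [e1, e2, ← mul_assoc, ← mul_assoc] at hmain
  have h6 := Nat.eq_of_mul_eq_mul_right hpp hmain
  rw [h6]
  ring

end Cyclic

end SUnits

end Fermat.Agent.CFT.HNT
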