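import Mathlib
import Fermat.Agent.CFT.HNT.HerbrandS
import Fermat.Agent.PT.G.SUnit

/-!
# Herbrand quotient of the `S`-units, unconditional form (G3-HERB)

`M / E` a cyclic extension of number fields of odd prime degree `p`, `σ` a generator of the Galois
group, `S` a finite set of primes of `E`, `S_M` the set of primes of `M` above `S`,
`U = S_M.unit M`.  Then

`#H¹(U) * p ^ s' = p * #Ĥ⁰(U)`, `#Ĥ⁰(U) ≠ 0`,

with `s'` the number of `v ∈ S` with exactly one prime of `M` above them
(`IsNonSplit M v`).  The ranks come from the `S`-unit theorem (`PT/G/SUnit.lean`).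
-/

set_option autoImplicit false

open NumberField Module

namespace Fermat.Agent.CFT.HNT

open IsDedekindDomain

open scoped Pointwise

variable {E M : Type*} [Field E] [NumberField E] [Field M] [NumberField M] [Algebra E M]
  [IsGalois E M]

variable (M) in
/-- A prime `v` of `E` is *non-split* in `M` if exactly one prime of `M` lies above it. -/
def IsNonSplit (v : HeightOneSpectrum (𝓞 E)) : Prop :=
  (v.asIdeal.primesOver (𝓞 M)).ncard = 1

omit [NumberField E] [NumberField M] [IsGalois E M] in
theorem isNonSplit_def (v : HeightOneSpectrum (𝓞 E)) :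
    IsNonSplit M v ↔ (v.asIdeal.primesOver (𝓞 M)).ncard = 1 := Iff.rfl

/-- `v` is non-split iff the set of primes of `M` above `v` has exactly one element. -/
theorem isNonSplit_iff_ncard_fiber (v : HeightOneSpectrum (𝓞 E)) :
    IsNonSplit M v ↔ {w : HeightOneSpectrum (𝓞 M) | w.under (𝓞 E) = v}.ncard = 1 := by
  rw [IsNonSplit, hs_fiber_ncard]

/-- `v` is non-split iff any two primes of `M` above `v` coincide. -/
theorem isNonSplit_iff_subsingleton (v : HeightOneSpectrum (𝓞 E)) :
    IsNonSplit M v ↔ ∀ w w' : HeightOneSpectrum (𝓞 M),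
      w.under (𝓞 E) = v → w'.under (𝓞 E) = v → w = w' := by
  rw [isNonSplit_iff_ncard_fiber]
  constructor
  · intro h w w' hw hw'
    obtain ⟨a, ha⟩ := Set.ncard_eq_one.mp h
    have h1 : w ∈ {w : HeightOneSpectrum (𝓞 M) | w.under (𝓞 E) = v} := hw
    have h2 : w' ∈ {w : HeightOneSpectrum (𝓞 M) | w.under (𝓞 E) = v} := hw'
    rw [ha, Set.mem_singleton_iff] at h1 h2
    rw [h1, h2]
  · intro h
    obtain ⟨w, hw⟩ := hs_exists_under (M := M) v
    rw [Set.ncard_eq_one]
    refine ⟨w, ?_⟩
    ext w'
    rw [Set.mem_singleton_iff]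
    constructor
    · intro hw'
      exact h w' w hw' hw
    · rintro rfl
      exact hw

section Cyclic

variable {p : ℕ} (hp : p.Prime) (hdeg : finrank E M = p) (σ : M ≃ₐ[E] M) (hσ : σ ≠ 1)

include hp hdeg hσ in
/-- `v` is non-split iff `σ` fixes every prime of `M` above `v`. -/
theorem isNonSplit_iff_forall_smul (v : HeightOneSpectrum (𝓞 E)) :
    IsNonSplit M v ↔ ∀ w : HeightOneSpectrum (𝓞 M), w.under (𝓞 E) = v →
      σ • w.asIdeal = w.asIdeal := by
  constructor
  · rintro h w rfl
    exact (ncard_primesOver_eq_one_iff hp hdeg σ hσ w).mp h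
  · intro h
    obtain ⟨w, rfl⟩ := hs_exists_under (M := M) v
    exact (ncard_primesOver_eq_one_iff hp hdeg σ hσ w).mpr (h w rfl)

include hp hdeg hσ in
/-- `v` is non-split iff `σ` fixes some prime of `M` above `v`. -/
theorem isNonSplit_iff_exists_smul (v : HeightOneSpectrum (𝓞 E)) :
    IsNonSplit M v ↔ ∃ w : HeightOneSpectrum (𝓞 M), w.under (𝓞 E) = v ∧
      σ • w.asIdeal = w.asIdeal := by
  constructor
  · intro h
    obtain ⟨w, hw⟩ := hs_exists_under (M := M) v
    exact ⟨w, hw, (isNonSplit_iff_forall_smul hp hdeg σ hσ v).mp h w hw⟩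
  · rintro ⟨w, rfl, hw⟩
    exact (ncard_primesOver_eq_one_iff hp hdeg σ hσ w).mpr hw

include hp hdeg hσ in
/-- `v` is non-split iff `σ` fixes every prime of `M` above `v` (in terms of `hsPrime`). -/
theorem isNonSplit_iff_forall_hsPrime (v : HeightOneSpectrum (𝓞 E)) :
    IsNonSplit M v ↔ ∀ w : HeightOneSpectrum (𝓞 M), w.under (𝓞 E) = v → hsPrime σ w = w := by
  rw [isNonSplit_iff_forall_smul hp hdeg σ hσ]
  refine forall_congr' fun w => imp_congr_right fun _ => ?_
  constructor
  · intro h
    exact HeightOneSpectrum.ext h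
  · intro h
    exact congrArg HeightOneSpectrum.asIdeal h

include hp hdeg in
/-- A prime that is not non-split has exactly `p` primes above it. -/
theorem ncard_primesOver_of_not_isNonSplit (v : HeightOneSpectrum (𝓞 E)) (hv : ¬ IsNonSplit M v) :
    (v.asIdeal.primesOver (𝓞 M)).ncard = p :=
  (hs_ncard_primesOver hp hdeg v).resolve_left hv

end Cyclic

omit [NumberField E] [NumberField M] [IsGalois E M] in
/-- `nonSplitCard` as the cardinality of a filter. -/
theorem nonSplitCard_eq_card_filter (S : Finset (HeightOneSpectrum (𝓞 E)))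
    [DecidablePred fun v : HeightOneSpectrum (𝓞 E) => IsNonSplit M v] :
    nonSplitCard M S = (S.filter fun v => IsNonSplit M v).card := by
  rw [nonSplitCard, ← Set.ncard_coe_finset]
  congr 1
  ext v
  simp [IsNonSplit]

/-- The set of primes of `M` above a finite set of primes of `E` is finite. -/
theorem hs_sAbove_finite (S : Finset (HeightOneSpectrum (𝓞 E))) :
    (sAbove M (S : Set (HeightOneSpectrum (𝓞 E)))).Finite := by
  have h : sAbove M (S : Set (HeightOneSpectrum (𝓞 E))) =
      ⋃ v ∈ (S : Set (HeightOneSpectrum (𝓞 E))),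
        {w : HeightOneSpectrum (𝓞 M) | w.under (𝓞 E) = v} := by
    ext w
    simp [mem_sAbove]
  rw [h]
  exact Set.Finite.biUnion S.finite_toSet fun v _ => hs_fiber_finite v

/-- The `S_M`-units of `M` are finitely generated. -/
theorem hs_finite_sAbove_unit (S : Finset (HeightOneSpectrum (𝓞 E))) :
    Module.Finite ℤ (Additive ((sAbove M (S : Set (HeightOneSpectrum (𝓞 E)))).unit M)) := by
  have : Finite ↥(sAbove M (S : Set (HeightOneSpectrum (𝓞 E)))) := (hs_sAbove_finite S).to_subtype
  exact PT.SUnit.finite_additive_unit M _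

section Main

variable {p : ℕ} (hp : p.Prime) (hdeg : finrank E M = p) (σ : M ≃ₐ[E] M) (hσ : σ ≠ 1)

include hp hdeg hσ in
/-- **Herbrand quotient of the `S`-units**, unconditional, with `nonSplitCard`. -/
theorem herbrand_sUnits' (hp2 : p ≠ 2) (S : Finset (HeightOneSpectrum (𝓞 E))) :
    (((sAbove M (S : Set (HeightOneSpectrum (𝓞 E)))).unit M).map (cobd (galUnits σ))).relIndex
        ((sAbove M (S : Set (HeightOneSpectrum (𝓞 E)))).unit M ⊓ (normUnits E M).ker) *
        p ^ nonSplitCard M S =
      p * (((sAbove M (S : Set (HeightOneSpectrum (𝓞 E)))).unit M).map (normUnits E M)).relIndex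
        ((sAbove M (S : Set (HeightOneSpectrum (𝓞 E)))).unit M ⊓ (cobd (galUnits σ)).ker) ∧
    (((sAbove M (S : Set (HeightOneSpectrum (𝓞 E)))).unit M).map (normUnits E M)).relIndex
        ((sAbove M (S : Set (HeightOneSpectrum (𝓞 E)))).unit M ⊓ (cobd (galUnits σ)).ker) ≠ 0 := by
  have : Finite ↥(sAbove M (S : Set (HeightOneSpectrum (𝓞 E)))) := (hs_sAbove_finite S).to_subtype
  refine herbrand_sUnits hp hdeg σ hσ hp2 S (hs_finite_sAbove_unit S) ?_ ?_
  · rw [PT.SUnit.finrank_additive_unit]
    congr 1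
    simp
  · rw [PT.SUnit.finrank_additive_unit]
    rfl

include hp hdeg hσ in
/-- **Herbrand quotient of the `S`-units** of a cyclic extension `M / E` of number fields of odd
prime degree `p` (unconditional): with `U` the group of `S_M`-units of `M`,
`#H¹(U) * p ^ s' = p * #Ĥ⁰(U)` and `#Ĥ⁰(U) ≠ 0`, where `s'` is the number of non-split primes
in `S`. -/
theorem herbrand_sUnits_main (hp2 : p ≠ 2) (S : Finset (HeightOneSpectrum (𝓞 E)))
    [DecidablePred fun v : HeightOneSpectrum (𝓞 E) => IsNonSplit M v] :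
    (((sAbove M (S : Set (HeightOneSpectrum (𝓞 E)))).unit M).map (cobd (galUnits σ))).relIndex
        ((sAbove M (S : Set (HeightOneSpectrum (𝓞 E)))).unit M ⊓ (normUnits E M).ker) *
        p ^ (S.filter fun v => IsNonSplit M v).card =
      p * (((sAbove M (S : Set (HeightOneSpectrum (𝓞 E)))).unit M).map (normUnits E M)).relIndex
        ((sAbove M (S : Set (HeightOneSpectrum (𝓞 E)))).unit M ⊓ (cobd (galUnits σ)).ker) ∧
    (((sAbove M (S : Set (HeightOneSpectrum (𝓞 E)))).unit M).map (normUnits E M)).relIndex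
        ((sAbove M (S : Set (HeightOneSpectrum (𝓞 E)))).unit M ⊓ (cobd (galUnits σ)).ker) ≠ 0 := by
  rw [← nonSplitCard_eq_card_filter]
  exact herbrand_sUnits' hp hdeg σ hσ hp2 S

end Main

end Fermat.Agent.CFT.HNT
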