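import Mathlib

/-!
# Weak approximation for Dedekind domains and the local count (G3-WA)

`R` a Dedekind domain with fraction field `K`, `S` a finite set of primes of `R`.

* `exists_approx'`, `exists_approx` : additive weak approximation
  (`y - x v` small at every `v ∈ S`);
* `exists_units_approx'`, `exists_units_approx` : multiplicative weak approximation
  (`y / x v ≡ 1` modulo a high power of `v`, for every `v ∈ S`);
* `exists_div_mem` : for subgroups `N v ≤ Kˣ` that are open at `v`, the map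
  `Kˣ → ∏_{v ∈ S} Kˣ / N v` is onto;
* `index_iInf_eq_prod` : `[Kˣ : ⋂_{v ∈ S} N v] = ∏_{v ∈ S} [Kˣ : N v]`;
* `pow_card_dvd_index_iInf` : if moreover every `N v` is a proper subgroup containing the
  `p`-th powers, then `p ^ #S ∣ [Kˣ : ⋂_{v ∈ S} N v]`.
-/

set_option autoImplicit false

namespace Fermat.Agent.CFT.WeakApprox

open IsDedekindDomain WithZero

variable {R : Type*} [CommRing R] [IsDedekindDomain R] {K : Type*} [Field K] [Algebra R K]
  [IsFractionRing R K]

/-- The valuation of a nonzero element of `R` is `exp (-m)` for a natural number `m`. -/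
theorem exists_intValuation_eq_exp (v : HeightOneSpectrum R) {d : R} (hd : d ≠ 0) :
    ∃ m : ℕ, v.intValuation d = exp (-(m : ℤ)) :=
  ⟨_, v.intValuation_if_neg hd⟩

/-- **Weak approximation** (additive form, with a precision depending on the prime). -/
theorem exists_approx' (S : Finset (HeightOneSpectrum R)) (x : HeightOneSpectrum R → K)
    (n : HeightOneSpectrum R → ℤ) :
    ∃ y : K, ∀ v ∈ S, v.valuation K (y - x v) ≤ exp (-(n v)) := by
  classical
  obtain ⟨d, hd⟩ := IsLocalization.exist_integer_multiples (nonZeroDivisors R) S x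
  have hd0 : (d : R) ≠ 0 := nonZeroDivisors.coe_ne_zero d
  have hdK : algebraMap R K (d : R) ≠ 0 := by
    rw [Ne, IsFractionRing.to_map_eq_zero_iff]
    exact hd0
  choose! a ha using hd
  have hm : ∀ v : HeightOneSpectrum R, ∃ m : ℕ, v.intValuation (d : R) = exp (-(m : ℤ)) :=
    fun v => exists_intValuation_eq_exp v hd0
  choose m hm using hm
  obtain ⟨b, hb⟩ := IsDedekindDomain.exists_forall_sub_mem_ideal
    (s := S) (fun v : HeightOneSpectrum R => v.asIdeal) (fun v => (n v + m v).toNat)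
    (fun v _ => v.prime) (fun v _ w _ hvw h => hvw (HeightOneSpectrum.ext h)) (fun v => a v)
  refine ⟨algebraMap R K b / algebraMap R K (d : R), fun v hv => ?_⟩
  have hav : algebraMap R K (a v) = algebraMap R K (d : R) * x v := by
    rw [ha v hv, Algebra.smul_def]
  have hxv : x v = algebraMap R K (a v) / algebraMap R K (d : R) := by
    rw [hav, mul_div_cancel_left₀ _ hdK]
  have h1 : algebraMap R K b / algebraMap R K (d : R) - x v =
      algebraMap R K (b - a v) / algebraMap R K (d : R) := by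
    rw [hxv, map_sub, sub_div]
  have h2 : v.intValuation (b - a v) ≤ exp (-(((n v + m v).toNat : ℕ) : ℤ)) :=
    (v.intValuation_le_pow_iff_mem _ _).mpr (hb v hv)
  rw [h1, map_div₀, HeightOneSpectrum.valuation_of_algebraMap,
    HeightOneSpectrum.valuation_of_algebraMap, hm v]
  have h3 : exp (-(((n v + m v).toNat : ℕ) : ℤ)) ≤ exp (-(n v)) * exp (-(m v : ℤ)) := by
    rw [← exp_add, exp_le_exp]
    have := Int.self_le_toNat (n v + m v)
    omega
  rw [div_le_iff₀ exp_pos]
  exact h2.trans h3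

/-- **Weak approximation** (additive form). -/
theorem exists_approx (S : Finset (HeightOneSpectrum R)) (x : HeightOneSpectrum R → K) (n : ℕ) :
    ∃ y : K, ∀ v ∈ S, v.valuation K (y - x v) ≤ exp (-(n : ℤ)) :=
  exists_approx' S x fun _ => n

/-- **Weak approximation** (multiplicative form, with a precision depending on the prime):
there is `y ∈ Kˣ` with `y ≡ x v mod^× v ^ (n v)` for all `v ∈ S`. -/
theorem exists_units_approx' (S : Finset (HeightOneSpectrum R)) (x : HeightOneSpectrum R → Kˣ)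
    (n : HeightOneSpectrum R → ℕ) :
    ∃ y : Kˣ, ∀ v ∈ S, v.valuation K ((y : K) / (x v : K) - 1) ≤ exp (-(n v : ℤ)) := by
  rcases S.eq_empty_or_nonempty with rfl | hne
  · exact ⟨1, fun v hv => absurd hv (Finset.notMem_empty v)⟩
  have hx0 : ∀ v : HeightOneSpectrum R, v.valuation K (x v : K) ≠ 0 := fun v =>
    (Valuation.ne_zero_iff _).mpr (x v).ne_zero
  obtain ⟨y, hy⟩ := exists_approx' S (fun v => (x v : K))
    (fun v => (n v : ℤ) + 1 - log (v.valuation K (x v : K)))
  have key : ∀ v ∈ S, v.valuation K (y - (x v : K)) ≤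
      exp (-((n v : ℤ) + 1)) * v.valuation K (x v : K) := by
    intro v hv
    have h1 := hy v hv
    have h2 : exp (-((n v : ℤ) + 1 - log (v.valuation K (x v : K)))) =
        exp (-((n v : ℤ) + 1)) * v.valuation K (x v : K) := by
      rw [neg_sub, sub_eq_add_neg, add_comm, exp_add, exp_log (hx0 v)]
    rw [h2] at h1
    exact h1
  have hlt : ∀ v ∈ S, v.valuation K (y - (x v : K)) < v.valuation K (x v : K) := by
    intro v hv
    refine lt_of_le_of_lt (key v hv) ?_
    have h3 : exp (-((n v : ℤ) + 1)) < (1 : ℤᵐ⁰) := by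
      rw [← exp_zero, exp_lt_exp]
      omega
    calc exp (-((n v : ℤ) + 1)) * v.valuation K (x v : K)
        < 1 * v.valuation K (x v : K) :=
          mul_lt_mul_of_pos_right h3 (zero_lt_iff.mpr (hx0 v))
      _ = v.valuation K (x v : K) := one_mul _
  have hy0 : y ≠ 0 := by
    obtain ⟨v, hv⟩ := hne
    rintro rfl
    have := hlt v hv
    rw [zero_sub, Valuation.map_neg] at this
    exact lt_irrefl _ this
  refine ⟨Units.mk0 y hy0, fun v hv => ?_⟩
  have hxv : (x v : K) ≠ 0 := (x v).ne_zero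
  have h4 : ((Units.mk0 y hy0 : Kˣ) : K) / (x v : K) - 1 = (y - (x v : K)) / (x v : K) := by
    rw [Units.val_mk0, sub_div, div_self hxv]
  rw [h4, map_div₀, div_le_iff₀ (zero_lt_iff.mpr (hx0 v))]
  refine (key v hv).trans ?_
  gcongr
  rw [exp_le_exp]
  omega

/-- **Weak approximation** (multiplicative form): there is `y ∈ Kˣ` with
`y ≡ x v mod^× v ^ n` for all `v ∈ S`. -/
theorem exists_units_approx (S : Finset (HeightOneSpectrum R)) (x : HeightOneSpectrum R → Kˣ)
    (n : ℕ) :
    ∃ y : Kˣ, ∀ v ∈ S, v.valuation K ((y : K) / (x v : K) - 1) ≤ exp (-(n : ℤ)) :=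
  exists_units_approx' S x fun _ => n

section Count

variable (S : Finset (HeightOneSpectrum R)) (N : HeightOneSpectrum R → Subgroup Kˣ)

/-- If each `N v` (`v ∈ S`) is open at `v`, then `Kˣ → ∏_{v ∈ S} Kˣ / N v` is onto. -/
theorem exists_div_mem
    (hopen : ∀ v ∈ S, ∃ n : ℕ, ∀ x : Kˣ,
      v.valuation K ((x : K) - 1) ≤ exp (-(n : ℤ)) → x ∈ N v)
    (x : HeightOneSpectrum R → Kˣ) : ∃ y : Kˣ, ∀ v ∈ S, y / x v ∈ N v := by
  classical
  have hopen' : ∀ v : HeightOneSpectrum R, ∃ n : ℕ, v ∈ S → ∀ x : Kˣ,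
      v.valuation K ((x : K) - 1) ≤ exp (-(n : ℤ)) → x ∈ N v := by
    intro v
    by_cases hv : v ∈ S
    · obtain ⟨n, hn⟩ := hopen v hv
      exact ⟨n, fun _ => hn⟩
    · exact ⟨0, fun h => absurd h hv⟩
  choose n hn using hopen'
  obtain ⟨y, hy⟩ := exists_units_approx' S x n
  refine ⟨y, fun v hv => hn v hv _ ?_⟩
  rw [Units.val_div_eq_div_val]
  exact hy v hv

/-- `[Kˣ : ⋂_{v ∈ S} N v] = ∏_{v ∈ S} [Kˣ : N v]` for subgroups `N v` open at `v`. -/
theorem index_iInf_eq_prod
    (hopen : ∀ v ∈ S, ∃ n : ℕ, ∀ x : Kˣ,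
      v.valuation K ((x : K) - 1) ≤ exp (-(n : ℤ)) → x ∈ N v) :
    (⨅ v ∈ S, N v).index = ∏ v ∈ S, (N v).index := by
  classical
  induction S using Finset.induction_on with
  | empty => simp
  | insert v T hvT ih =>
    have hT : ∀ u ∈ T, ∃ n : ℕ, ∀ x : Kˣ,
        u.valuation K ((x : K) - 1) ≤ exp (-(n : ℤ)) → x ∈ N u :=
      fun u hu => hopen u (Finset.mem_insert_of_mem hu)
    rw [Finset.iInf_insert, Finset.prod_insert hvT, ← ih hT]
    set H := ⨅ u ∈ T, N u with hH
    have hsup : N v ⊔ H = ⊤ := by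
      rw [eq_top_iff]
      intro g _
      obtain ⟨y, hy⟩ := exists_div_mem (insert v T) N hopen
        (fun u => if u = v then g else 1)
      have h1 : y / g ∈ N v := by
        have := hy v (Finset.mem_insert_self v T)
        rwa [if_pos rfl] at this
      have h2 : y ∈ H := by
        rw [hH, Subgroup.mem_iInf]
        intro u
        rw [Subgroup.mem_iInf]
        intro hu
        have := hy u (Finset.mem_insert_of_mem hu)
        rw [if_neg (fun h : u = v => hvT (h ▸ hu)), div_one] at this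
        exact this
      have h3 : g = (y / g)⁻¹ * y := by
        rw [inv_div, div_mul_cancel]
      rw [h3]
      exact Subgroup.mul_mem_sup ((N v).inv_mem h1) h2
    have e1 : (N v ⊓ H).index = (N v ⊓ H).relIndex H * H.index :=
      (Subgroup.relIndex_mul_index inf_le_right).symm
    have e2 : (N v ⊓ H).relIndex H = (N v).relIndex H := Subgroup.inf_relIndex_right _ _
    have e3 : (N v).relIndex H = (N v).relIndex (N v ⊔ H) :=
      (Subgroup.relIndex_sup_left H (N v)).symm
    rw [e1, e2, e3, hsup, Subgroup.relIndex_top_right]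

/-- The index of a proper subgroup containing all `p`-th powers is divisible by `p`
(or zero, i.e. infinite). -/
theorem dvd_index_of_pow_mem {G : Type*} [CommGroup G] {p : ℕ} (hp : p.Prime) (H : Subgroup G)
    (hpow : ∀ x : G, x ^ p ∈ H) (hne : H ≠ ⊤) : p ∣ H.index := by
  by_cases h0 : H.index = 0
  · rw [h0]
    exact dvd_zero p
  have : Fact p.Prime := ⟨hp⟩
  have : H.FiniteIndex := ⟨h0⟩
  have hP : IsPGroup p (G ⧸ H) := by
    intro g
    obtain ⟨x, rfl⟩ := QuotientGroup.mk_surjective g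
    refine ⟨1, ?_⟩
    rw [pow_one, ← QuotientGroup.mk_pow, QuotientGroup.eq_one_iff]
    exact hpow x
  rcases hP.card_eq_or_dvd with h | h
  · exfalso
    apply hne
    rw [← Subgroup.index_eq_one, Subgroup.index_eq_card]
    exact h
  · rw [Subgroup.index_eq_card]
    exact h

/-- **The local count**: if every `N v` (`v ∈ S`) is open at `v`, proper, and contains the `p`-th
powers, then `p ^ #S` divides `[Kˣ : ⋂_{v ∈ S} N v]` (which is `0` if the index is infinite). -/
theorem pow_card_dvd_index_iInf {p : ℕ} (hp : p.Prime)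
    (hopen : ∀ v ∈ S, ∃ n : ℕ, ∀ x : Kˣ,
      v.valuation K ((x : K) - 1) ≤ exp (-(n : ℤ)) → x ∈ N v)
    (hpow : ∀ v ∈ S, ∀ x : Kˣ, x ^ p ∈ N v) (hne : ∀ v ∈ S, N v ≠ ⊤) :
    p ^ S.card ∣ (⨅ v ∈ S, N v).index := by
  rw [index_iInf_eq_prod S N hopen, ← Finset.prod_const]
  exact Finset.prod_dvd_prod_of_dvd _ _ fun v hv =>
    dvd_index_of_pow_mem hp (N v) (hpow v hv) (hne v hv)

/-- **The local count**, inequality form. -/
theorem pow_card_le_index_iInf {p : ℕ} (hp : p.Prime)
    (hopen : ∀ v ∈ S, ∃ n : ℕ, ∀ x : Kˣ,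
      v.valuation K ((x : K) - 1) ≤ exp (-(n : ℤ)) → x ∈ N v)
    (hpow : ∀ v ∈ S, ∀ x : Kˣ, x ^ p ∈ N v) (hne : ∀ v ∈ S, N v ≠ ⊤)
    (hfin : (⨅ v ∈ S, N v).index ≠ 0) :
    p ^ S.card ≤ (⨅ v ∈ S, N v).index :=
  Nat.le_of_dvd (Nat.pos_of_ne_zero hfin) (pow_card_dvd_index_iInf S N hp hopen hpow hne)

end Count

end Fermat.Agent.CFT.WeakApprox
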