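import Mathlib
import Fermat.Agent.CFT.HNT.HerbrandSMain
import Fermat.Agent.CFT.HNT.WeakApprox

/-!
# Norms in congruence form: continuity of the norm and split primes (G3-WA, part 2)

`M / E` a Galois extension of number fields, `v` a prime of `E`.

* `valuation_norm_sub_one_le` : continuity of the norm: if `y ≡ 1` modulo `c` at all primes of
  `M` above `v` (with `c ∈ E`, `v c ≤ 1`), then `N y ≡ 1` modulo `c` at `v`;
* `exists_norm_approx_of_split` : if `v` splits completely in `M`, then every `x ∈ Eˣ` is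
  congruent to a norm modulo any power of `v`;
* `exists_norm_approx_of_not_isNonSplit` : the same for a cyclic extension of prime degree and a
  prime `v` that is not non-split.
-/

set_option autoImplicit false

open NumberField Module

namespace Fermat.Agent.CFT.HNT

open IsDedekindDomain WithZero

open scoped Pointwise

section General

/-- A product of elements congruent to `1` is congruent to `1`. -/
theorem val_prod_sub_one_le {A Γ : Type*} [CommRing A] [LinearOrderedCommGroupWithZero Γ]
    (w : Valuation A Γ) {γ : Γ} (hγ : γ ≤ 1) {ι : Type*} (s : Finset ι) (f : ι → A)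
    (h : ∀ i ∈ s, w (f i - 1) ≤ γ) : w (∏ i ∈ s, f i - 1) ≤ γ := by
  classical
  induction s using Finset.induction_on with
  | empty => simp
  | insert a s ha ih =>
    rw [Finset.prod_insert ha]
    have h1 : w (f a - 1) ≤ γ := h a (Finset.mem_insert_self a s)
    have h2 : w (∏ i ∈ s, f i - 1) ≤ γ := ih fun i hi => h i (Finset.mem_insert_of_mem hi)
    have e : f a * ∏ i ∈ s, f i - 1 =
        (f a - 1) * (∏ i ∈ s, f i - 1) + (f a - 1) + (∏ i ∈ s, f i - 1) := by ring
    rw [e]
    refine Valuation.map_add_le _ (Valuation.map_add_le _ ?_ h1) h2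
    rw [map_mul]
    calc w (f a - 1) * w (∏ i ∈ s, f i - 1) ≤ γ * 1 := mul_le_mul' h1 (h2.trans hγ)
      _ = γ := mul_one γ

/-- If `u ≡ 1` modulo `γ < 1` then `u⁻¹ ≡ 1` modulo `γ`. -/
theorem val_inv_sub_one_le {A Γ : Type*} [Field A] [LinearOrderedCommGroupWithZero Γ]
    (w : Valuation A Γ) {γ : Γ} (hγ : γ < 1) {u : A} (hu : w (u - 1) ≤ γ) :
    w (u⁻¹ - 1) ≤ γ := by
  have hu1 : w u = 1 := by
    have h1 : w (u - 1) < w (1 : A) := by
      rw [map_one]
      exact lt_of_le_of_lt hu hγ
    have h2 := Valuation.map_add_eq_of_lt_left w h1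
    rw [add_sub_cancel] at h2
    rw [h2, map_one]
  have hu0 : u ≠ 0 := by
    rintro rfl
    rw [map_zero] at hu1
    exact zero_ne_one hu1
  have e : u⁻¹ - 1 = -(u - 1) / u := by
    field_simp
    ring
  rw [e, map_div₀, Valuation.map_neg, hu1, div_one]
  exact hu

end General

section NumberField

variable {E M : Type*} [Field E] [NumberField E] [Field M] [NumberField M] [Algebra E M]
  [IsGalois E M]

/-- Galois transport of the valuation. -/
theorem hs_valuation_apply_aut (σ : M ≃ₐ[E] M) (w : HeightOneSpectrum (𝓞 M)) (z : M) :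
    w.valuation M (σ z) = (hsPrime σ⁻¹ w).valuation M z := by
  have h := hs_valuation_smul σ (hsPrime σ⁻¹ w) z
  rw [hsPrime_smul_inv] at h
  exact h

omit [IsGalois E M] in
/-- Comparison of valuations of elements of `E` at a prime of `M` and the prime below. -/
theorem hs_valuation_algebraMap_le (w : HeightOneSpectrum (𝓞 M)) (x c : E) :
    w.valuation M (algebraMap E M x) ≤ w.valuation M (algebraMap E M c) ↔
      (w.under (𝓞 E)).valuation E x ≤ (w.under (𝓞 E)).valuation E c := by
  have : w.asIdeal.LiesOver (w.under (𝓞 E)).asIdeal := ⟨rfl⟩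
  rw [← HeightOneSpectrum.valuation_liesOver M (w.under (𝓞 E)) w x,
    ← HeightOneSpectrum.valuation_liesOver M (w.under (𝓞 E)) w c]
  have he : (w.under (𝓞 E)).asIdeal.ramificationIdx' w.asIdeal ≠ 0 :=
    Ideal.IsDedekindDomain.ramificationIdx'_ne_zero_of_liesOver w.asIdeal (w.under (𝓞 E)).ne_bot
  exact pow_le_pow_iff_left₀ zero_le zero_le he

/-- **Continuity of the norm**: if `y ≡ 1` modulo `c` at all primes of `M` above `v`, where
`c ∈ E` with `v c ≤ 1`, then `N y ≡ 1` modulo `c` at `v`. -/
theorem valuation_norm_sub_one_le (v : HeightOneSpectrum (𝓞 E)) (c : E)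
    (hc : v.valuation E c ≤ 1) (y : M)
    (hy : ∀ w : HeightOneSpectrum (𝓞 M), w.under (𝓞 E) = v →
      w.valuation M (y - 1) ≤ w.valuation M (algebraMap E M c)) :
    v.valuation E (Algebra.norm E y - 1) ≤ v.valuation E c := by
  obtain ⟨w, rfl⟩ := hs_exists_under (M := M) v
  rw [← hs_valuation_algebraMap_le, map_sub, map_one, Algebra.norm_eq_prod_automorphisms]
  have hγ : w.valuation M (algebraMap E M c) ≤ 1 := by
    have h1 := (hs_valuation_algebraMap_le w c 1).mpr (by rw [map_one]; exact hc)
    rwa [map_one, map_one] at h1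
  refine val_prod_sub_one_le _ hγ _ _ fun σ _ => ?_
  have e1 : σ y - 1 = σ (y - 1) := by rw [map_sub, map_one]
  rw [e1, hs_valuation_apply_aut]
  refine (hy _ (hsPrime_under σ⁻¹ w)).trans (le_of_eq ?_)
  rw [← hs_valuation_apply_aut, AlgEquiv.commutes]

/-- **Split primes**: if no nontrivial element of the Galois group fixes a prime above `v`
(i.e. `v` splits completely in `M`), then every `x ∈ Eˣ` is congruent to a norm from `M`
modulo any power of `v`. -/
theorem exists_norm_approx_of_split (v : HeightOneSpectrum (𝓞 E))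
    (hsplit : ∀ (σ : M ≃ₐ[E] M) (w : HeightOneSpectrum (𝓞 M)), w.under (𝓞 E) = v →
      σ • w.asIdeal = w.asIdeal → σ = 1)
    (x : Eˣ) (n : ℕ) :
    ∃ y : Mˣ, v.valuation E ((x : E) / Algebra.norm E (y : M) - 1) ≤ exp (-(n : ℤ)) := by
  classical
  obtain ⟨w₁, hw₁⟩ := hs_exists_under (M := M) v
  obtain ⟨π, hπ⟩ := v.valuation_exists_uniformizer E
  set c : E := π ^ (n + 1) with hc
  have hvc : v.valuation E c = exp (-((n : ℤ) + 1)) := by
    rw [hc, map_pow, hπ, ← exp_nsmul]
    congr 1
    simp
  have hc0 : c ≠ 0 := by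
    intro h
    rw [h, map_zero] at hvc
    exact exp_ne_zero hvc.symm
  have hvc1 : v.valuation E c < 1 := by
    rw [hvc, ← exp_zero, exp_lt_exp]
    omega
  set c' : M := algebraMap E M c with hc'
  have hc'0 : c' ≠ 0 := by
    rw [hc', Ne, map_eq_zero]
    exact hc0
  set x' : M := algebraMap E M (x : E) with hx'
  have hx'0 : x' ≠ 0 := by
    rw [hx', Ne, map_eq_zero]
    exact x.ne_zero
  -- weak approximation in `M`
  obtain ⟨y, hy⟩ := WeakApprox.exists_approx' (K := M) (hs_fiber_finite (M := M) v).toFinset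
    (fun w => if w = w₁ then x' else 1)
    (fun w => -log (w.valuation M (c' * (if w = w₁ then x' else 1))))
  have hy' : ∀ w : HeightOneSpectrum (𝓞 M), w.under (𝓞 E) = v →
      w.valuation M (y - (if w = w₁ then x' else 1)) ≤
        w.valuation M c' * w.valuation M (if w = w₁ then x' else 1) := by
    intro w hw
    have h := hy w ((Set.Finite.mem_toFinset _).mpr hw)
    have hne : w.valuation M (c' * (if w = w₁ then x' else 1)) ≠ 0 := by
      rw [Valuation.ne_zero_iff]
      refine mul_ne_zero hc'0 ?_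
      split_ifs
      · exact hx'0
      · exact one_ne_zero
    rw [neg_neg, exp_log hne, map_mul] at h
    exact h
  have hy1 : w₁.valuation M (y - x') ≤ w₁.valuation M c' * w₁.valuation M x' := by
    have h := hy' w₁ hw₁
    rwa [if_pos rfl] at h
  have hy2 : ∀ w : HeightOneSpectrum (𝓞 M), w.under (𝓞 E) = v → w ≠ w₁ →
      w.valuation M (y - 1) ≤ w.valuation M c' := by
    intro w hw hne
    have h := hy' w hw
    rwa [if_neg hne, map_one, mul_one] at h
  have hγ : w₁.valuation M c' < 1 := by
    have h1 : ¬ (w₁.under (𝓞 E)).valuation E 1 ≤ (w₁.under (𝓞 E)).valuation E c := by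
      rw [hw₁, map_one, not_le]
      exact hvc1
    rw [← hs_valuation_algebraMap_le (M := M), map_one, map_one, not_le] at h1
    exact h1
  have hx'v : w₁.valuation M x' ≠ 0 := (Valuation.ne_zero_iff _).mpr hx'0
  have hy0 : y ≠ 0 := by
    rintro rfl
    rw [zero_sub, Valuation.map_neg] at hy1
    have : w₁.valuation M c' * w₁.valuation M x' < 1 * w₁.valuation M x' :=
      mul_lt_mul_of_pos_right hγ (zero_lt_iff.mpr hx'v)
    rw [one_mul] at this
    exact lt_irrefl _ (lt_of_le_of_lt hy1 this)
  refine ⟨Units.mk0 y hy0, ?_⟩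
  rw [Units.val_mk0]
  -- the main estimate at `w₁`
  have hmain : w₁.valuation M (algebraMap E M (Algebra.norm E y / (x : E)) - 1) ≤
      w₁.valuation M c' := by
    have e1 : algebraMap E M (Algebra.norm E y / (x : E)) =
        ∏ σ : M ≃ₐ[E] M, σ y * (if σ = 1 then x'⁻¹ else 1) := by
      rw [map_div₀, Algebra.norm_eq_prod_automorphisms, Finset.prod_mul_distrib,
        Finset.prod_ite_eq' Finset.univ (1 : M ≃ₐ[E] M) (fun _ => x'⁻¹), if_pos (Finset.mem_univ _),
        div_eq_mul_inv]
    rw [e1]
    refine val_prod_sub_one_le _ hγ.le _ _ fun σ _ => ?_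
    by_cases hσ : σ = 1
    · subst hσ
      rw [if_pos rfl, AlgEquiv.one_apply]
      have e2 : y * x'⁻¹ - 1 = (y - x') / x' := by
        field_simp
      rw [e2, map_div₀, div_le_iff₀ (zero_lt_iff.mpr hx'v)]
      exact hy1
    · rw [if_neg hσ, mul_one]
      have e1 : σ y - 1 = σ (y - 1) := by rw [map_sub, map_one]
      rw [e1, hs_valuation_apply_aut]
      have hne : hsPrime σ⁻¹ w₁ ≠ w₁ := by
        intro h
        have h1 : σ⁻¹ • w₁.asIdeal = w₁.asIdeal := congrArg HeightOneSpectrum.asIdeal h
        have h2 := hsplit σ⁻¹ w₁ hw₁ h1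
        exact hσ (inv_eq_one.mp h2)
      refine (hy2 _ ((hsPrime_under σ⁻¹ w₁).trans hw₁) hne).trans (le_of_eq ?_)
      rw [← hs_valuation_apply_aut, hc', AlgEquiv.commutes]
  have hmain2 : v.valuation E (Algebra.norm E y / (x : E) - 1) ≤ v.valuation E c := by
    rw [← hw₁, ← hs_valuation_algebraMap_le (M := M), map_sub, map_one]
    exact hmain
  have hinv := val_inv_sub_one_le (v.valuation E) hvc1 hmain2
  rw [inv_div] at hinv
  refine hinv.trans ?_
  rw [hvc, exp_le_exp]
  omega

section Cyclic

variable {p : ℕ} (hp : p.Prime) (hdeg : finrank E M = p) (σ : M ≃ₐ[E] M) (hσ : σ ≠ 1)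

include hp hdeg in
/-- In a cyclic extension of prime degree, a prime that is not non-split splits completely. -/
theorem eq_one_of_smul_eq_of_not_isNonSplit (v : HeightOneSpectrum (𝓞 E))
    (hv : ¬ IsNonSplit M v) (τ : M ≃ₐ[E] M) (w : HeightOneSpectrum (𝓞 M))
    (hw : w.under (𝓞 E) = v) (hτ : τ • w.asIdeal = w.asIdeal) : τ = 1 := by
  by_contra hτ1
  exact hv ((isNonSplit_iff_exists_smul hp hdeg τ hτ1 v).mpr ⟨w, hw, hτ⟩)

include hp hdeg in
/-- **Split primes** in a cyclic extension of prime degree: every `x ∈ Eˣ` is congruent to a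
norm from `M` modulo any power of a prime `v` that is not non-split. -/
theorem exists_norm_approx_of_not_isNonSplit (v : HeightOneSpectrum (𝓞 E))
    (hv : ¬ IsNonSplit M v) (x : Eˣ) (n : ℕ) :
    ∃ y : Mˣ, v.valuation E ((x : E) / Algebra.norm E (y : M) - 1) ≤ exp (-(n : ℤ)) :=
  exists_norm_approx_of_split v
    (fun τ w hw hτ => eq_one_of_smul_eq_of_not_isNonSplit hp hdeg v hv τ w hw hτ) x n

end Cyclic

end NumberField

end Fermat.Agent.CFT.HNT
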