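import Mathlib
import Fermat.Agent.CFT.HNT.SplitNormApprox

/-!
# Density of the base field in the decomposition field (K-HENS(b), number-field core)

`M / E` a Galois extension of number fields, `w` a prime of `M`.  If `x ∈ M` is fixed by the
decomposition group of `w` (all `σ` with `σ • w = w`), then `x` can be approximated `w`-adically
by elements of `E`, to any precision:

* `exists_approx_of_fixed_by_decomposition` : additive form, `w (x - y) ≤ exp (-n)`;
* `exists_units_approx_of_fixed_by_decomposition` : multiplicative form, `w (x / y - 1) ≤ exp (-n)`.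

The proof is a trace argument on top of weak approximation; the ramification index and residue
degree of the decomposition field are never computed.
-/

set_option autoImplicit false

open NumberField Module

namespace Fermat.Agent.CFT.HNT

open IsDedekindDomain WithZero

open scoped Pointwise

variable {E M : Type*} [Field E] [NumberField E] [Field M] [NumberField M] [Algebra E M]
  [IsGalois E M]

/-- The additive form of the density of `E` in the decomposition field of `w`. -/
theorem exists_approx_of_fixed_by_decomposition (w : HeightOneSpectrum (𝓞 M)) (x : M)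
    (hx : ∀ σ : M ≃ₐ[E] M, σ • w.asIdeal = w.asIdeal → σ x = x) (n : ℕ) :
    ∃ y : E, w.valuation M (x - algebraMap E M y) ≤ exp (-(n : ℤ)) := by
  classical
  set v := w.under (𝓞 E) with hv
  -- the decomposition group
  set D : Finset (M ≃ₐ[E] M) := Finset.univ.filter (fun σ => hsPrime σ⁻¹ w = w) with hD
  have hmemD : ∀ σ : M ≃ₐ[E] M, σ ∈ D ↔ hsPrime σ⁻¹ w = w := by
    intro σ
    rw [hD, Finset.mem_filter]
    exact ⟨fun h => h.2, fun h => ⟨Finset.mem_univ _, h⟩⟩
  have h1D : (1 : M ≃ₐ[E] M) ∈ D := by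
    rw [hmemD]
    ext1
    rw [hsPrime_asIdeal, inv_one, one_smul]
  have hxD : ∀ σ ∈ D, σ x = x := by
    intro σ hσ
    apply hx
    have h1 : σ⁻¹ • w.asIdeal = w.asIdeal :=
      congrArg HeightOneSpectrum.asIdeal ((hmemD σ).mp hσ)
    have h2 : σ • (σ⁻¹ • w.asIdeal) = σ • w.asIdeal := by rw [h1]
    rw [smul_inv_smul] at h2
    exact h2.symm
  set d : ℕ := D.card with hd
  have hd0 : d ≠ 0 := Finset.card_ne_zero.mpr ⟨1, h1D⟩
  have hdM : ((d : ℕ) : M) ≠ 0 := Nat.cast_ne_zero.mpr hd0
  have hwd : w.valuation M ((d : ℕ) : M) ≠ 0 := (Valuation.ne_zero_iff _).mpr hdM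
  -- bounds
  set B : ℤ := ∑ σ : M ≃ₐ[E] M, |log (w.valuation M (σ x))| with hB
  have hBx : ∀ σ : M ≃ₐ[E] M, w.valuation M (σ x) ≤ exp B := by
    intro σ
    by_cases h0 : w.valuation M (σ x) = 0
    · rw [h0]
      exact zero_le
    · rw [← exp_log h0, exp_le_exp]
      refine (le_abs_self _).trans ?_
      exact Finset.single_le_sum (f := fun τ : M ≃ₐ[E] M => |log (w.valuation M (τ x))|)
        (fun τ _ => abs_nonneg _) (Finset.mem_univ σ)
  set c : ℤ := log (w.valuation M ((d : ℕ) : M)) with hc
  have hcd : exp c = w.valuation M ((d : ℕ) : M) := exp_log hwd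
  -- weak approximation in `M`
  obtain ⟨θ, hθ⟩ := WeakApprox.exists_approx' (K := M) (hs_fiber_finite (M := M) v).toFinset
    (fun w' => if w' = w then 1 else 0) (fun _ => (n : ℤ) + B - c)
  have hθ1 : w.valuation M (θ - 1) ≤ exp (-((n : ℤ) + B - c)) := by
    have h := hθ w ((Set.Finite.mem_toFinset _).mpr rfl)
    rwa [if_pos rfl] at h
  have hθ2 : ∀ w' : HeightOneSpectrum (𝓞 M), w'.under (𝓞 E) = v → w' ≠ w →
      w'.valuation M θ ≤ exp (-((n : ℤ) + B - c)) := by
    intro w' hw' hne
    have h := hθ w' ((Set.Finite.mem_toFinset _).mpr hw')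
    rwa [if_neg hne, sub_zero] at h
  have hmul : exp (-((n : ℤ) + B - c)) * exp B = exp (-(n : ℤ)) * w.valuation M ((d : ℕ) : M) := by
    rw [← hcd, ← exp_add, ← exp_add]
    congr 1
    ring
  -- the approximating element
  refine ⟨Algebra.trace E M (θ * x) / (d : E), ?_⟩
  have e1 : algebraMap E M (Algebra.trace E M (θ * x) / (d : E)) =
      (∑ σ : M ≃ₐ[E] M, σ θ * σ x) / (d : M) := by
    rw [map_div₀, map_natCast, trace_eq_sum_automorphisms]
    simp only [map_mul]
  have e2 : x - (∑ σ : M ≃ₐ[E] M, σ θ * σ x) / (d : M) =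
      (∑ σ : M ≃ₐ[E] M, ((if σ ∈ D then x else 0) - σ θ * σ x)) / (d : M) := by
    rw [Finset.sum_sub_distrib, ← Finset.sum_filter, Finset.filter_mem_eq_inter,
      Finset.univ_inter, Finset.sum_const, ← hd, sub_div, nsmul_eq_mul,
      mul_div_cancel_left₀ _ hdM]
  rw [e1, e2, map_div₀, div_le_iff₀ (zero_lt_iff.mpr hwd)]
  refine Valuation.map_sum_le _ fun σ _ => ?_
  by_cases hσ : σ ∈ D
  · rw [if_pos hσ, hxD σ hσ]
    have e3 : x - σ θ * x = -(σ (θ - 1)) * x := by
      rw [map_sub, map_one]
      ring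
    rw [e3, map_mul, Valuation.map_neg, hs_valuation_apply_aut, (hmemD σ).mp hσ, ← hmul]
    have hx1 : w.valuation M x ≤ exp B := by
      have := hBx 1
      rwa [AlgEquiv.one_apply] at this
    exact mul_le_mul' hθ1 hx1
  · rw [if_neg hσ, zero_sub, Valuation.map_neg, map_mul, hs_valuation_apply_aut, ← hmul]
    have hne : hsPrime σ⁻¹ w ≠ w := fun h => hσ ((hmemD σ).mpr h)
    exact mul_le_mul' (hθ2 _ (hsPrime_under σ⁻¹ w) hne) (hBx σ)

/-- The multiplicative form of the density of `E` in the decomposition field of `w`. -/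
theorem exists_units_approx_of_fixed_by_decomposition (w : HeightOneSpectrum (𝓞 M)) (x : M)
    (hx0 : x ≠ 0) (hx : ∀ σ : M ≃ₐ[E] M, σ • w.asIdeal = w.asIdeal → σ x = x) (n : ℕ) :
    ∃ y : E, y ≠ 0 ∧ w.valuation M (x / algebraMap E M y - 1) ≤ exp (-(n : ℤ)) := by
  have hwx : w.valuation M x ≠ 0 := (Valuation.ne_zero_iff _).mpr hx0
  obtain ⟨y, hy⟩ := exists_approx_of_fixed_by_decomposition w x hx
    ((n : ℤ) + 1 - log (w.valuation M x)).toNat
  have key : w.valuation M (x - algebraMap E M y) ≤ exp (-((n : ℤ) + 1)) * w.valuation M x := by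
    refine hy.trans ?_
    have h2 : exp (-((n : ℤ) + 1 - log (w.valuation M x))) =
        exp (-((n : ℤ) + 1)) * w.valuation M x := by
      rw [neg_sub, sub_eq_add_neg, add_comm, exp_add, exp_log hwx]
    rw [← h2, exp_le_exp]
    have := Int.self_le_toNat ((n : ℤ) + 1 - log (w.valuation M x))
    omega
  have hlt : w.valuation M (x - algebraMap E M y) < w.valuation M x := by
    refine lt_of_le_of_lt key ?_
    have h3 : exp (-((n : ℤ) + 1)) < (1 : ℤᵐ⁰) := by
      rw [← exp_zero, exp_lt_exp]
      omega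
    calc exp (-((n : ℤ) + 1)) * w.valuation M x < 1 * w.valuation M x :=
          mul_lt_mul_of_pos_right h3 (zero_lt_iff.mpr hwx)
      _ = w.valuation M x := one_mul _
  have hy0 : y ≠ 0 := by
    rintro rfl
    rw [map_zero, sub_zero] at hlt
    exact lt_irrefl _ hlt
  have hyM : algebraMap E M y ≠ 0 := by
    rw [Ne, map_eq_zero]
    exact hy0
  -- `w y = w x`
  have hwy : w.valuation M (algebraMap E M y) = w.valuation M x := by
    have h4 : algebraMap E M y = x + -(x - algebraMap E M y) := by ring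
    rw [h4]
    apply Valuation.map_add_eq_of_lt_left
    rw [Valuation.map_neg]
    exact hlt
  refine ⟨y, hy0, ?_⟩
  have e : x / algebraMap E M y - 1 = (x - algebraMap E M y) / algebraMap E M y := by
    rw [sub_div, div_self hyM]
  rw [e, map_div₀, hwy, div_le_iff₀ (zero_lt_iff.mpr hwx)]
  refine key.trans ?_
  gcongr
  rw [exp_le_exp]
  omega

end Fermat.Agent.CFT.HNT
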