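import Mathlib

/-!
# HNT: ideal lemmas for a Galois extension of Dedekind domains

`A ⊆ B` Dedekind domains, `G` a finite group with `IsGaloisGroup G A B` (e.g. `A = 𝓞 E`,
`B = 𝓞 M`, `G = Gal(M/E)` for a Galois extension of number fields `M/E`); `G` acts on the ideals of
`B` (pointwise action, `σ • I = I.map σ`).

* `exists_mul_eq_mul_smul_of_relNorm_eq` (**I1**, `G = ⟨σ⟩` cyclic, no ramification hypothesis):
  two nonzero ideals `I`, `J` of `B` with the same relative norm differ by a "coboundary":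
  `I * C = J * σ • C` for a nonzero ideal `C` (so `I / J = σ(C) / C`).
  This is `Ĥ⁻¹(G, I_B) = 0`.
* `exists_map_eq_of_forall_smul_eq` (**I2**, unramified): a nonzero `G`-invariant ideal of `B` is
  extended from `A`.  This is `I_B^G = I_A`.
* number field forms `nf_exists_mul_eq_mul_smul_of_relNorm_eq`, `nf_exists_map_eq_of_smul_eq`.
-/

set_option autoImplicit false

open Ideal
open scoped Pointwise

namespace Fermat.Agent.CFT.HNT

section Abstract

variable {A B : Type*} [CommRing A] [CommRing B] [IsDedekindDomain A] [IsDedekindDomain B]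
  [Algebra A B] [Module.Finite A B] [Module.IsTorsionFree A B]
  {G : Type*} [Group G] [Finite G] [MulSemiringAction G B] [IsGaloisGroup G A B]
  [SMulCommClass G A B]

theorem idl_smul_eq_bot_iff (σ : G) (I : Ideal B) : σ • I = ⊥ ↔ I = ⊥ := by
  rw [← Ideal.zero_eq_bot]; exact smul_eq_zero_iff_eq σ

theorem idl_smul_ne_bot (σ : G) {I : Ideal B} (hI : I ≠ ⊥) : σ • I ≠ ⊥ :=
  fun h => hI ((idl_smul_eq_bot_iff σ I).mp h)

theorem idl_smul_top (σ : G) : σ • (⊤ : Ideal B) = ⊤ := by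
  rw [← Ideal.one_eq_top]; exact smul_one σ

theorem idl_mul_ne_bot {I J : Ideal B} (hI : I ≠ ⊥) (hJ : J ≠ ⊥) : I * J ≠ ⊥ := by
  rw [← Ideal.zero_eq_bot] at hI hJ ⊢; exact mul_ne_zero hI hJ

/-- `I / J = σ(Y) / Y` for the fractional ideal `Y = C / D`. -/
def idl_Rel (σ : G) (I J : Ideal B) : Prop :=
  ∃ C D : Ideal B, C ≠ ⊥ ∧ D ≠ ⊥ ∧ I * C * σ • D = J * σ • C * D

theorem idl_Rel_refl (σ : G) (I : Ideal B) : idl_Rel σ I I :=
  ⟨⊤, ⊤, top_ne_bot, top_ne_bot, by rw [idl_smul_top]⟩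

theorem idl_Rel_symm {σ : G} {I J : Ideal B} (h : idl_Rel σ I J) : idl_Rel σ J I := by
  obtain ⟨C, D, hC, hD, e⟩ := h
  refine ⟨D, C, hD, hC, ?_⟩
  calc J * D * σ • C = J * σ • C * D := by ring
    _ = I * C * σ • D := e.symm
    _ = I * σ • D * C := by ring

theorem idl_Rel_trans {σ : G} {I J K : Ideal B} (h1 : idl_Rel σ I J) (h2 : idl_Rel σ J K) :
    idl_Rel σ I K := by
  obtain ⟨C1, D1, hC1, hD1, e1⟩ := h1
  obtain ⟨C2, D2, hC2, hD2, e2⟩ := h2
  refine ⟨C1 * C2, D1 * D2, idl_mul_ne_bot hC1 hC2, idl_mul_ne_bot hD1 hD2, ?_⟩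
  rw [smul_mul', smul_mul']
  calc I * (C1 * C2) * (σ • D1 * σ • D2) = (I * C1 * σ • D1) * (C2 * σ • D2) := by ring
    _ = (J * σ • C1 * D1) * (C2 * σ • D2) := by rw [e1]
    _ = (J * C2 * σ • D2) * (σ • C1 * D1) := by ring
    _ = (K * σ • C2 * D2) * (σ • C1 * D1) := by rw [e2]
    _ = K * (σ • C1 * σ • C2) * (D1 * D2) := by ring

theorem idl_Rel_mul {σ : G} {I1 J1 I2 J2 : Ideal B} (h1 : idl_Rel σ I1 J1)
    (h2 : idl_Rel σ I2 J2) : idl_Rel σ (I1 * I2) (J1 * J2) := by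
  obtain ⟨C1, D1, hC1, hD1, e1⟩ := h1
  obtain ⟨C2, D2, hC2, hD2, e2⟩ := h2
  refine ⟨C1 * C2, D1 * D2, idl_mul_ne_bot hC1 hC2, idl_mul_ne_bot hD1 hD2, ?_⟩
  rw [smul_mul', smul_mul']
  calc I1 * I2 * (C1 * C2) * (σ • D1 * σ • D2) = (I1 * C1 * σ • D1) * (I2 * C2 * σ • D2) := by ring
    _ = (J1 * σ • C1 * D1) * (J2 * σ • C2 * D2) := by rw [e1, e2]
    _ = J1 * J2 * (σ • C1 * σ • C2) * (D1 * D2) := by ring

theorem idl_Rel_smul (σ : G) {Q : Ideal B} (hQ : Q ≠ ⊥) : idl_Rel σ (σ • Q) Q :=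
  ⟨Q, ⊤, hQ, top_ne_bot, by rw [idl_smul_top]; ring⟩

theorem idl_Rel_pow_smul (σ : G) {P : Ideal B} (hP : P ≠ ⊥) (j : ℕ) :
    idl_Rel σ (σ ^ j • P) P := by
  induction j with
  | zero => rw [pow_zero, one_smul]; exact idl_Rel_refl σ P
  | succ j ih =>
    rw [pow_succ', mul_smul]
    exact idl_Rel_trans (idl_Rel_smul σ (idl_smul_ne_bot _ hP)) ih

/-- From the two-sided relation to an integral one-sided witness. -/
theorem idl_Rel_exists {σ : G} {I J : Ideal B} (h : idl_Rel σ I J) :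
    ∃ X : Ideal B, X ≠ ⊥ ∧ I * X = J * σ • X := by
  classical
  obtain ⟨C, D, hC, hD, e⟩ := h
  obtain ⟨n, hn⟩ : ∃ n : ℕ, σ ^ (n + 1) = 1 := by
    refine ⟨orderOf σ - 1, ?_⟩
    rw [Nat.sub_add_cancel (orderOf_pos σ), pow_orderOf_eq_one]
  set T : Ideal B := ∏ j ∈ Finset.range n, σ ^ (j + 1) • D with hT
  have hT0 : T ≠ ⊥ := by
    rw [hT, ← Ideal.zero_eq_bot, Finset.prod_ne_zero_iff]
    intro j _
    rw [Ideal.zero_eq_bot]
    exact idl_smul_ne_bot _ hD
  -- `D * T` is the full "norm" of `D`, invariant under `σ`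
  have hDT : D * T = ∏ j ∈ Finset.range (n + 1), σ ^ j • D := by
    rw [Finset.prod_range_succ', pow_zero, one_smul, mul_comm]
  have hsDT : σ • D * σ • T = D * T := by
    rw [← smul_mul', hDT, Finset.smul_prod']
    have h1 : ∏ j ∈ Finset.range (n + 1), σ • σ ^ j • D =
        ∏ j ∈ Finset.range (n + 1), σ ^ (j + 1) • D := by
      refine Finset.prod_congr rfl fun j _ => ?_
      rw [← mul_smul, ← pow_succ']
    rw [h1, Finset.prod_range_succ, hn, one_smul, ← hT, mul_comm, ← hDT]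
  refine ⟨C * T, idl_mul_ne_bot hC hT0, ?_⟩
  have hDT0 : D * T ≠ ⊥ := idl_mul_ne_bot hD hT0
  rw [← Ideal.zero_eq_bot] at hDT0
  refine mul_right_cancel₀ hDT0 ?_
  rw [smul_mul']
  calc I * (C * T) * (D * T) = I * (C * T) * (σ • D * σ • T) := by rw [hsDT]
    _ = (I * C * σ • D) * (T * σ • T) := by ring
    _ = (J * σ • C * D) * (T * σ • T) := by rw [e]
    _ = J * (σ • C * σ • T) * (D * T) := by ring

theorem idl_eq_top_of_relNorm_eq_top {J : Ideal B} (h : relNorm A J = ⊤) : J = ⊤ := by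
  have h1 := relNorm_le_comap A J
  rw [h, top_le_iff, Ideal.comap_eq_top_iff] at h1
  exact h1

/-- If a maximal ideal `p` of `A` divides the relative norm of `J`, some prime factor of `J` lies
over `p`. -/
theorem idl_exists_prime_dvd_liesOver (p : Ideal A) [p.IsMaximal] (hp : p ≠ ⊥) :
    ∀ J : Ideal B, J ≠ ⊥ → p ∣ relNorm A J →
      ∃ Q : Ideal B, Q.IsPrime ∧ Q ≠ ⊥ ∧ Q ∣ J ∧ Q.LiesOver p := by
  intro J
  induction J using UniqueFactorizationMonoid.induction_on_prime with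
  | h₁ => intro h; exact absurd Ideal.zero_eq_bot h
  | h₂ x hx =>
    intro _ hdvd
    rw [Ideal.isUnit_iff] at hx
    rw [hx, relNorm_top, Ideal.dvd_iff_le, top_le_iff] at hdvd
    exact absurd hdvd (Ideal.IsMaximal.ne_top inferInstance)
  | h₃ a q ha hq ih =>
    intro _ hdvd
    rw [map_mul] at hdvd
    have hpp : Prime p := Ideal.prime_of_isPrime hp inferInstance
    rcases hpp.dvd_or_dvd hdvd with h1 | h1
    · have hq0 : q ≠ ⊥ := hq.ne_zero
      have hqp : q.IsPrime := Ideal.isPrime_of_prime hq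
      obtain ⟨s, hs⟩ := exists_relNorm_eq_pow_of_isPrime q (q.under A)
      rw [hs] at h1
      have h2 : q.under A ≤ p := Ideal.dvd_iff_le.mp (hpp.dvd_of_dvd_pow h1)
      have hq1 : q.under A ≠ ⊥ := IsIntegral.comap_ne_bot A hq0
      have hqm : (q.under A).IsMaximal := Ideal.IsPrime.isMaximal inferInstance hq1
      have h3 : q.under A = p := hqm.eq_of_le (Ideal.IsMaximal.ne_top inferInstance) h2
      exact ⟨q, hqp, hq0, Dvd.intro a rfl, ⟨h3.symm⟩⟩
    · obtain ⟨Q, hQ1, hQ2, hQ3, hQ4⟩ := ih (by rwa [← Ideal.zero_eq_bot]) h1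
      exact ⟨Q, hQ1, hQ2, hQ3.mul_left q, hQ4⟩

/-- Two nonzero ideals with the same relative norm are related. -/
theorem idl_Rel_of_relNorm_eq (σ : G) (hσ : ∀ τ : G, τ ∈ Subgroup.zpowers σ) :
    ∀ I : Ideal B, I ≠ ⊥ → ∀ J : Ideal B, J ≠ ⊥ → relNorm A I = relNorm A J →
      idl_Rel σ I J := by
  intro I
  induction I using UniqueFactorizationMonoid.induction_on_prime with
  | h₁ => intro h; exact absurd Ideal.zero_eq_bot h
  | h₂ x hx =>
    intro _ J _ h
    rw [Ideal.isUnit_iff] at hx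
    rw [hx, relNorm_top] at h
    rw [hx, idl_eq_top_of_relNorm_eq_top h.symm]
    exact idl_Rel_refl σ ⊤
  | h₃ I' P hI' hP ih =>
    intro _ J hJ h
    have hP0 : P ≠ ⊥ := hP.ne_zero
    have hPp : P.IsPrime := Ideal.isPrime_of_prime hP
    have hp0 : P.under A ≠ ⊥ := IsIntegral.comap_ne_bot A hP0
    have hpm : (P.under A).IsMaximal := Ideal.IsPrime.isMaximal inferInstance hp0
    obtain ⟨s, hs⟩ := exists_relNorm_eq_pow_of_isPrime P (P.under A)
    have hs0 : s ≠ 0 := by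
      rintro rfl
      rw [pow_zero, Ideal.one_eq_top] at hs
      exact hPp.ne_top (idl_eq_top_of_relNorm_eq_top hs)
    have hdvd : P.under A ∣ relNorm A J := by
      rw [← h, map_mul, hs]
      exact (dvd_pow_self _ hs0).mul_right _
    obtain ⟨Q, hQp, hQ0, ⟨J', rfl⟩, hQl⟩ := idl_exists_prime_dvd_liesOver (P.under A) hp0 J hJ hdvd
    have hJ'0 : J' ≠ ⊥ := by
      rintro rfl
      exact hJ (by rw [← Ideal.zero_eq_bot, mul_zero])
    obtain ⟨τ, hτ⟩ := Ideal.exists_smul_eq_of_isGaloisGroup (P.under A) P Q G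
    have hnorm : relNorm A Q = relNorm A P := by rw [← hτ, relNorm_smul]
    have hI'J' : relNorm A I' = relNorm A J' := by
      rw [map_mul, map_mul, hnorm] at h
      have hne : relNorm A P ≠ 0 := by
        rw [Ideal.zero_eq_bot, Ne, relNorm_eq_bot_iff]; exact hP0
      exact mul_left_cancel₀ hne h
    have hR1 : idl_Rel σ I' J' := ih (by rwa [← Ideal.zero_eq_bot]) J' hJ'0 hI'J'
    obtain ⟨j, hj⟩ : ∃ j : ℕ, σ ^ j = τ := by
      have := (isOfFinOrder_of_finite σ).mem_powers_iff_mem_zpowers.mpr (hσ τ)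
      exact (Submonoid.mem_powers_iff _ _).mp this
    have hR2 : idl_Rel σ P Q := by
      rw [← hτ, ← hj]
      exact idl_Rel_symm (idl_Rel_pow_smul σ hP0 j)
    exact idl_Rel_mul hR2 hR1

/-- **(I1)** `Ĥ⁻¹(G, I_B) = 0` for cyclic `G = ⟨σ⟩`: two nonzero ideals of `B` with the same relative
norm differ by `σ(C) / C` for a nonzero integral ideal `C`. -/
theorem exists_mul_eq_mul_smul_of_relNorm_eq (σ : G) (hσ : ∀ τ : G, τ ∈ Subgroup.zpowers σ)
    {I J : Ideal B} (hI : I ≠ ⊥) (hJ : J ≠ ⊥) (h : relNorm A I = relNorm A J) :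
    ∃ C : Ideal B, C ≠ ⊥ ∧ I * C = J * σ • C :=
  idl_Rel_exists (idl_Rel_of_relNorm_eq σ hσ I hI J hJ h)

theorem idl_smul_map_algebraMap (τ : G) (a : Ideal A) :
    τ • a.map (algebraMap A B) = a.map (algebraMap A B) := by
  rw [Ideal.pointwise_smul_def, Ideal.map_map]
  congr 1
  ext x
  simp [smul_algebraMap]

/-- **(I2)** `I_B^G = I_A` for an unramified extension: a nonzero `G`-invariant ideal of `B` is
extended from `A`. -/
theorem exists_map_eq_of_forall_smul_eq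
    (hunr : ∀ P : Ideal B, P.IsPrime → P ≠ ⊥ → P.ramificationIdx A = 1) :
    ∀ I : Ideal B, I ≠ ⊥ → (∀ τ : G, τ • I = I) → ∃ a : Ideal A, I = a.map (algebraMap A B) := by
  intro I
  refine IsNoetherian.induction (P := fun I : Ideal B => I ≠ ⊥ → (∀ τ : G, τ • I = I) →
    ∃ a : Ideal A, I = a.map (algebraMap A B)) ?_ I
  intro I IH hI hinv
  by_cases hT : I = ⊤
  · exact ⟨⊤, by rw [hT, Ideal.map_top]⟩
  obtain ⟨P, hPmax, hIP⟩ := Ideal.exists_le_maximal I hT
  have hP0 : P ≠ ⊥ := fun h => hI (le_bot_iff.mp (h ▸ hIP))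
  have := hPmax
  have hp0 : P.under A ≠ ⊥ := IsIntegral.comap_ne_bot A hP0
  have hpm : (P.under A).IsMaximal := inferInstance
  have hmap := Ideal.map_algebraMap_eq_finsetProd_pow (R := B) (p := P.under A)
    (by rwa [Ideal.zero_eq_bot])
  have hmem : ∀ Q ∈ ((P.under A).primesOver B).toFinset, Q.IsPrime ∧ Q.LiesOver (P.under A) := by
    intro Q hQ
    rw [Set.mem_toFinset] at hQ
    exact hQ
  have hmap' : (P.under A).map (algebraMap A B) = ∏ Q ∈ ((P.under A).primesOver B).toFinset, Q := by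
    rw [hmap]
    refine Finset.prod_congr rfl fun Q hQ => ?_
    obtain ⟨hQp, hQl⟩ := hmem Q hQ
    rw [hunr Q hQp (Ideal.ne_bot_of_liesOver_of_ne_bot hp0 Q), pow_one]
  have hdvd : (P.under A).map (algebraMap A B) ∣ I := by
    rw [hmap']
    refine Finset.prod_primes_dvd I (fun Q hQ => ?_) (fun Q hQ => ?_)
    · obtain ⟨hQp, hQl⟩ := hmem Q hQ
      exact (Ideal.prime_iff_isPrime (Ideal.ne_bot_of_liesOver_of_ne_bot hp0 Q)).mpr hQp
    · obtain ⟨hQp, hQl⟩ := hmem Q hQ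
      obtain ⟨τ, hτ⟩ := Ideal.exists_smul_eq_of_isGaloisGroup (P.under A) P Q G
      rw [Ideal.dvd_iff_le, ← hτ, ← hinv τ]
      exact Ideal.pointwise_smul_le_pointwise_smul_iff.mpr hIP
  obtain ⟨I', hI'⟩ := hdvd
  have hpB0 : (P.under A).map (algebraMap A B) ≠ ⊥ := by
    rw [Ne, Ideal.map_eq_bot_iff_of_injective (FaithfulSMul.algebraMap_injective A B)]
    exact hp0
  have hI'0 : I' ≠ ⊥ := by
    rintro rfl
    exact hI (by rw [hI', ← Ideal.zero_eq_bot, mul_zero])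
  have hpBtop : (P.under A).map (algebraMap A B) ≠ ⊤ := by
    intro h
    have : (P.under A).map (algebraMap A B) ≤ P := Ideal.map_comap_le
    rw [h, top_le_iff] at this
    exact hPmax.ne_top this
  have hlt : I < I' := by
    refine lt_of_le_of_ne (hI' ▸ Ideal.mul_le_right) ?_
    intro h
    rw [h] at hI'
    have h2 : (1 : Ideal B) * I' = (P.under A).map (algebraMap A B) * I' := by
      rw [one_mul]; exact hI'
    have hI'0' : I' ≠ 0 := by rwa [Ideal.zero_eq_bot]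
    have h3 := mul_right_cancel₀ hI'0' h2
    exact hpBtop (by rw [← h3, Ideal.one_eq_top])
  have hinv' : ∀ τ : G, τ • I' = I' := by
    intro τ
    have h1 := hinv τ
    rw [hI', smul_mul', idl_smul_map_algebraMap] at h1
    have hpB0' : (P.under A).map (algebraMap A B) ≠ 0 := by rwa [Ideal.zero_eq_bot]
    exact mul_left_cancel₀ hpB0' h1
  obtain ⟨a', ha'⟩ := IH I' hlt hI'0 hinv'
  exact ⟨P.under A * a', by rw [hI', Ideal.map_mul, ← ha']⟩

/-- **(I2)**, generator form: an ideal fixed by a generator `σ` of `G` is extended from `A`. -/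
theorem exists_map_eq_of_smul_eq (σ : G) (hσ : ∀ τ : G, τ ∈ Subgroup.zpowers σ)
    (hunr : ∀ P : Ideal B, P.IsPrime → P ≠ ⊥ → P.ramificationIdx A = 1)
    {I : Ideal B} (hI : I ≠ ⊥) (hinv : σ • I = I) : ∃ a : Ideal A, I = a.map (algebraMap A B) := by
  refine exists_map_eq_of_forall_smul_eq (G := G) hunr I hI fun τ => ?_
  have hτ : τ ∈ MulAction.stabilizer G I := by
    have hle : Subgroup.zpowers σ ≤ MulAction.stabilizer G I :=
      (Subgroup.zpowers_le).mpr (MulAction.mem_stabilizer_iff.mpr hinv)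
    exact hle (hσ τ)
  exact MulAction.mem_stabilizer_iff.mp hτ

/-- **(I5)** an ideal of `A` all of whose prime factors are relative norms is a relative norm. -/
theorem exists_relNorm_eq_of_forall_prime :
    ∀ a : Ideal A, a ≠ ⊥ →
      (∀ p : Ideal A, p.IsPrime → p ≠ ⊥ → p ∣ a → ∃ P : Ideal B, relNorm A P = p) →
      ∃ I : Ideal B, I ≠ ⊥ ∧ relNorm A I = a := by
  intro a
  induction a using UniqueFactorizationMonoid.induction_on_prime with
  | h₁ => intro h; exact absurd Ideal.zero_eq_bot h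
  | h₂ x hx =>
    intro _ _
    rw [Ideal.isUnit_iff] at hx
    exact ⟨⊤, top_ne_bot, by rw [hx, relNorm_top]⟩
  | h₃ a p ha hp ih =>
    intro hpa h
    obtain ⟨P, hP⟩ := h p (Ideal.isPrime_of_prime hp) hp.ne_zero (Dvd.intro a rfl)
    obtain ⟨I, hI0, hI⟩ := ih (by rwa [← Ideal.zero_eq_bot])
      (fun q hq hq0 hqa => h q hq hq0 (hqa.mul_left p))
    refine ⟨P * I, ?_, by rw [map_mul, hP, hI]⟩
    intro h0
    have : relNorm A (P * I) = ⊥ := by rw [h0, relNorm_bot]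
    rw [map_mul, hP, hI] at this
    exact hpa this

end Abstract

/-- **(I1)**, `G`-norm form: if the "norms" `∏_{j < ord σ} σ^j • I` and `∏_{j < ord σ} σ^j • J`
agree, then `I * C = J * σ • C` for a nonzero ideal `C`. (`A` explicit: it does not occur in the
statement.) -/
theorem exists_mul_eq_mul_smul_of_prod_smul_eq (A : Type*) {B : Type*} [CommRing A] [CommRing B]
    [IsDedekindDomain A] [IsDedekindDomain B] [Algebra A B] [Module.Finite A B]
    [Module.IsTorsionFree A B] {G : Type*} [Group G] [Finite G] [MulSemiringAction G B]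
    [IsGaloisGroup G A B] [SMulCommClass G A B] (σ : G) (hσ : ∀ τ : G, τ ∈ Subgroup.zpowers σ)
    {I J : Ideal B} (hI : I ≠ ⊥) (hJ : J ≠ ⊥)
    (h : ∏ j ∈ Finset.range (orderOf σ), σ ^ j • I = ∏ j ∈ Finset.range (orderOf σ), σ ^ j • J) :
    ∃ C : Ideal B, C ≠ ⊥ ∧ I * C = J * σ • C := by
  refine exists_mul_eq_mul_smul_of_relNorm_eq (A := A) σ hσ hI hJ ?_
  have h1 := congrArg (relNorm A) h
  have h2 : ∀ (K : Ideal B) (j : ℕ), relNorm A (σ ^ j • K) = relNorm A K :=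
    fun K j => relNorm_smul A (σ ^ j) K
  simp only [map_prod, h2, Finset.prod_const, Finset.card_range] at h1
  exact (pow_left_inj (orderOf_pos σ).ne').mp h1

/-! ## Number fields -/

section NumberField

open NumberField

variable {E M : Type*} [Field E] [Field M] [NumberField E] [NumberField M] [Algebra E M]
  [IsGalois E M]

/-- **(I1)** for a cyclic extension `M/E` of number fields with `Gal(M/E) = ⟨σ⟩`: two nonzero ideals
of `𝓞 M` with the same relative norm to `𝓞 E` satisfy `I * C = J * σ • C`. -/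
theorem nf_exists_mul_eq_mul_smul_of_relNorm_eq (σ : M ≃ₐ[E] M)
    (hσ : ∀ τ : M ≃ₐ[E] M, τ ∈ Subgroup.zpowers σ) {I J : Ideal (𝓞 M)} (hI : I ≠ ⊥) (hJ : J ≠ ⊥)
    (h : relNorm (𝓞 E) I = relNorm (𝓞 E) J) :
    ∃ C : Ideal (𝓞 M), C ≠ ⊥ ∧ I * C = J * σ • C :=
  exists_mul_eq_mul_smul_of_relNorm_eq (A := 𝓞 E) σ hσ hI hJ h

/-- **(I2)** for an unramified cyclic extension `M/E` of number fields with `Gal(M/E) = ⟨σ⟩`: a
nonzero ideal of `𝓞 M` fixed by `σ` is extended from `𝓞 E`. -/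
theorem nf_exists_map_eq_of_smul_eq (σ : M ≃ₐ[E] M)
    (hσ : ∀ τ : M ≃ₐ[E] M, τ ∈ Subgroup.zpowers σ)
    (hunr : ∀ P : Ideal (𝓞 M), P.IsPrime → P ≠ ⊥ → P.ramificationIdx (𝓞 E) = 1)
    {I : Ideal (𝓞 M)} (hI : I ≠ ⊥) (hinv : σ • I = I) :
    ∃ a : Ideal (𝓞 E), I = a.map (algebraMap (𝓞 E) (𝓞 M)) :=
  exists_map_eq_of_smul_eq (A := 𝓞 E) σ hσ hunr hI hinv

/-- The pointwise action of `Gal(M/E)` on ideals of `𝓞 M` is `Ideal.map` along the restricted
automorphism. -/
theorem nf_smul_eq_map (σ : M ≃ₐ[E] M) (I : Ideal (𝓞 M)) :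
    σ • I = I.map (MulSemiringAction.toRingHom (M ≃ₐ[E] M) (𝓞 M) σ) :=
  Ideal.pointwise_smul_def I

/-- **(I3)** a prime of `𝓞 M` of residue degree one over `𝓞 E` has relative norm the prime below
it: "a prime of `E` that splits completely is a norm". -/
theorem nf_relNorm_eq_under_of_inertiaDeg_eq_one (P : Ideal (𝓞 M)) [P.IsPrime] (hP : P ≠ ⊥)
    (hf : P.inertiaDeg (𝓞 E) = 1) : relNorm (𝓞 E) P = P.under (𝓞 E) := by
  have hPm : P.IsMaximal := Ideal.IsPrime.isMaximal inferInstance hP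
  have hp0 : P.under (𝓞 E) ≠ ⊥ := IsIntegral.comap_ne_bot (𝓞 E) hP
  have hpm : (P.under (𝓞 E)).IsMaximal := Ideal.IsPrime.isMaximal inferInstance hp0
  rw [relNorm_eq_pow_of_isMaximal P (P.under (𝓞 E)), hf, pow_one]

end NumberField

end Fermat.Agent.CFT.HNT
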