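import Mathlib
import Fermat.Agent.CFT.HNT.Defs
import Fermat.Agent.CFT.HNT.Ideals

/-!
# `σ`-invariant fractional ideals are extended from the base field (unramified cyclic case)
-/

set_option autoImplicit false

namespace Fermat.Agent.CFT.HNT

open NumberField nonZeroDivisors IsDedekindDomain Pointwise

variable {E M : Type*} [Field E] [Field M] [NumberField E] [NumberField M] [Algebra E M]
  [IsGalois E M]

/-- The extension homomorphism `I_E → I_M` on groups of fractional ideals. -/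
noncomputable def extFrac (E M : Type*) [Field E] [Field M] [NumberField E] [NumberField M]
    [Algebra E M] : (FractionalIdeal (𝓞 E)⁰ E)ˣ →* (FractionalIdeal (𝓞 M)⁰ M)ˣ :=
  Units.map ((FractionalIdeal.extendedHom M (𝓞 M) :
    FractionalIdeal (𝓞 E)⁰ E →+* FractionalIdeal (𝓞 M)⁰ M) :
      FractionalIdeal (𝓞 E)⁰ E →* FractionalIdeal (𝓞 M)⁰ M)

omit [IsGalois E M] in
theorem coe_extFrac (b : (FractionalIdeal (𝓞 E)⁰ E)ˣ) :
    ((extFrac E M b : (FractionalIdeal (𝓞 M)⁰ M)ˣ) : FractionalIdeal (𝓞 M)⁰ M) =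
      FractionalIdeal.extendedHom M (𝓞 M) (b : FractionalIdeal (𝓞 E)⁰ E) := rfl

omit [IsGalois E M] in
/-- Extension of a principal fractional ideal. -/
theorem extendedHom_spanSingleton_algebraMap (x : E) :
    FractionalIdeal.extendedHom M (𝓞 M) (FractionalIdeal.spanSingleton (𝓞 E)⁰ x) =
      FractionalIdeal.spanSingleton (𝓞 M)⁰ (algebraMap E M x) := by
  rw [FractionalIdeal.extendedHom_spanSingleton]
  congr 1
  have h : (IsFractionRing.map (FaithfulSMul.algebraMap_injective (𝓞 E) (𝓞 M)) : E →+* M) =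
      algebraMap E M := by
    apply IsLocalization.ringHom_ext (𝓞 E)⁰
    ext y
    simp only [RingHom.comp_apply, IsFractionRing.map, IsLocalization.map_eq]
    rfl
  exact DFunLike.congr_fun h x

/-- **(HNT-P2)** A `σ`-invariant fractional ideal of `M` is extended from `E`. -/
theorem exists_extendedHom_eq_of_galFrac_eq
    (σ : M ≃ₐ[E] M) (hσ : ∀ g : M ≃ₐ[E] M, g ∈ Subgroup.zpowers σ)
    (hunr : ∀ P : Ideal (𝓞 M), P.IsPrime → P ≠ ⊥ → P.ramificationIdx (𝓞 E) = 1)
    (a : (FractionalIdeal (𝓞 M)⁰ M)ˣ) (ha : galFrac σ a = a) :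
    ∃ b : (FractionalIdeal (𝓞 E)⁰ E)ˣ,
      (a : FractionalIdeal (𝓞 M)⁰ M) =
        FractionalIdeal.extendedHom M (𝓞 M) (b : FractionalIdeal (𝓞 E)⁰ E) := by
  obtain ⟨x, I, hx, hI⟩ := FractionalIdeal.exists_eq_spanSingleton_mul (a : FractionalIdeal (𝓞 M)⁰ M)
  -- the norm of `x` is a multiple of `x`
  obtain ⟨y, hy⟩ := RingOfIntegers.dvd_norm E x
  set n : 𝓞 E := RingOfIntegers.norm E x with hn
  have hn0 : n ≠ 0 := by
    intro h
    have h1 : ((n : 𝓞 E) : E) = 0 := by rw [h]; simp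
    rw [hn, RingOfIntegers.coe_norm, Algebra.norm_eq_zero_iff] at h1
    exact hx (RingOfIntegers.ext (by simpa using h1))
  have hy0 : y ≠ 0 := by
    rintro rfl
    rw [mul_zero] at hy
    exact hn0 ((FaithfulSMul.algebraMap_injective (𝓞 E) (𝓞 M)) (by rw [hy, map_zero]))
  set m : M := algebraMap E M (algebraMap (𝓞 E) E n) with hm
  have hmM : m = algebraMap (𝓞 M) M x * algebraMap (𝓞 M) M y := by
    rw [← map_mul, ← hy]
    rfl
  have hm0 : m ≠ 0 := by
    rw [hm]
    simpa using hn0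
  have hxM : algebraMap (𝓞 M) M x ≠ 0 := by simpa using hx
  -- `I' = (y) * I` with `a = (m)⁻¹ * I'`
  set I' : Ideal (𝓞 M) := Ideal.span {y} * I with hI'
  have haI' : (I' : FractionalIdeal (𝓞 M)⁰ M) =
      FractionalIdeal.spanSingleton (𝓞 M)⁰ m * (a : FractionalIdeal (𝓞 M)⁰ M) := by
    rw [hI, hI', FractionalIdeal.coeIdeal_mul, FractionalIdeal.coeIdeal_span_singleton,
      ← mul_assoc, FractionalIdeal.spanSingleton_mul_spanSingleton, hmM]
    congr 2
    field_simp
  have hI'0 : I' ≠ ⊥ := by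
    intro h
    have h2 : (I' : FractionalIdeal (𝓞 M)⁰ M) = 0 := by rw [h]; simp
    rw [haI'] at h2
    rcases mul_eq_zero.mp h2 with h3 | h3
    · exact hm0 (FractionalIdeal.spanSingleton_eq_zero_iff.mp h3)
    · exact a.ne_zero h3
  -- `I'` is `σ`-invariant
  have hσm : σ m = m := by rw [hm, AlgEquiv.commutes]
  have hinv : σ • I' = I' := by
    apply FractionalIdeal.coeIdeal_injective (K := M)
    show ((σ • I' : Ideal (𝓞 M)) : FractionalIdeal (𝓞 M)⁰ M) = (I' : FractionalIdeal (𝓞 M)⁰ M)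
    rw [← galFracHom_coeIdeal, haI', map_mul, galFracHom_spanSingleton, hσm, ← coe_galFrac, ha]
  obtain ⟨a', ha'⟩ := nf_exists_map_eq_of_smul_eq σ hσ hunr hI'0 hinv
  have ha'0 : a' ≠ ⊥ := by
    rintro rfl
    rw [Ideal.map_bot] at ha'
    exact hI'0 ha'
  -- the fractional ideal of `E`
  set bE : FractionalIdeal (𝓞 E)⁰ E :=
    FractionalIdeal.spanSingleton (𝓞 E)⁰ (algebraMap (𝓞 E) E n)⁻¹ * (a' : FractionalIdeal (𝓞 E)⁰ E)
    with hbE
  have hbE0 : bE ≠ 0 := by
    rw [hbE]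
    refine mul_ne_zero ?_ ?_
    · rw [Ne, FractionalIdeal.spanSingleton_eq_zero_iff]
      simpa using hn0
    · simpa using ha'0
  refine ⟨Units.mk0 bE hbE0, ?_⟩
  rw [Units.val_mk0, hbE, map_mul, extendedHom_spanSingleton_algebraMap,
    FractionalIdeal.extendedHom_coeIdeal_eq_map, ← ha', haI', map_inv₀, ← hm, ← mul_assoc,
    FractionalIdeal.spanSingleton_mul_spanSingleton, inv_mul_cancel₀ hm0,
    FractionalIdeal.spanSingleton_one, one_mul]

end Fermat.Agent.CFT.HNT
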