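import Mathlib
import Fermat.Agent.CFT.HNT.Defs
import Fermat.Agent.CFT.HNT.Ideals

/-!
# HNT-P1: fractional ideals of norm one are `(σ - 1)`-images

For a cyclic extension `M/E` of number fields with `Gal(M/E) = ⟨σ⟩`: a fractional ideal `a` of `M`
with `∏_{j < ord σ} σ^j a = 1` is of the form `σ b / b`.
-/

set_option autoImplicit false

namespace Fermat.Agent.CFT.HNT

open NumberField nonZeroDivisors IsDedekindDomain Pointwise

variable {E M : Type*} [Field E] [Field M] [NumberField E] [NumberField M] [Algebra E M]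
  [IsGalois E M]

omit [IsGalois E M] in
/-- The product of the conjugates of an integral ideal, inside the fractional ideals. -/
theorem fno_prod_galFracHom_coeIdeal (σ : M ≃ₐ[E] M) (n : ℕ) (I : Ideal (𝓞 M)) :
    ∏ j ∈ Finset.range n, galFracHom (σ ^ j) (I : FractionalIdeal (𝓞 M)⁰ M)
      = ((∏ j ∈ Finset.range n, σ ^ j • I : Ideal (𝓞 M)) : FractionalIdeal (𝓞 M)⁰ M) := by
  have h : ((∏ j ∈ Finset.range n, σ ^ j • I : Ideal (𝓞 M)) : FractionalIdeal (𝓞 M)⁰ M)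
      = ∏ j ∈ Finset.range n, ((σ ^ j • I : Ideal (𝓞 M)) : FractionalIdeal (𝓞 M)⁰ M) :=
    map_prod (FractionalIdeal.coeIdealHom (𝓞 M)⁰ M) _ _
  rw [h]
  exact Finset.prod_congr rfl fun j _ => galFracHom_coeIdeal (σ ^ j) I

omit [IsGalois E M] in
/-- The value of `normFrac` on the unit attached to a nonzero integral ideal. -/
theorem fno_coe_normFrac_mk0 (σ : M ≃ₐ[E] M) (n : ℕ) (I : (Ideal (𝓞 M))⁰) :
    ((normFrac σ n (FractionalIdeal.mk0 M I) : (FractionalIdeal (𝓞 M)⁰ M)ˣ) :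
        FractionalIdeal (𝓞 M)⁰ M)
      = ((∏ j ∈ Finset.range n, σ ^ j • (I : Ideal (𝓞 M)) : Ideal (𝓞 M)) :
          FractionalIdeal (𝓞 M)⁰ M) := by
  rw [normFrac_apply, Units.coe_prod, ← fno_prod_galFracHom_coeIdeal]
  refine Finset.prod_congr rfl fun j _ => ?_
  rw [coe_galFrac, FractionalIdeal.coe_mk0]

theorem exists_eq_galFrac_div_of_normFrac_eq_one
    (σ : M ≃ₐ[E] M) (hσ : ∀ g : M ≃ₐ[E] M, g ∈ Subgroup.zpowers σ)
    (a : (FractionalIdeal (𝓞 M)⁰ M)ˣ) (ha : normFrac σ (orderOf σ) a = 1) :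
    ∃ b : (FractionalIdeal (𝓞 M)⁰ M)ˣ, a = galFrac σ b / b := by
  -- write `a = (x)⁻¹ * I`
  obtain ⟨x, I, hx, hxI⟩ := FractionalIdeal.exists_eq_spanSingleton_mul
    (a : FractionalIdeal (𝓞 M)⁰ M)
  set J : Ideal (𝓞 M) := Ideal.span {x} with hJdef
  have hJ0 : J ≠ ⊥ := by
    rw [hJdef, Ne, Ideal.span_singleton_eq_bot]
    exact hx
  have hxM : (algebraMap (𝓞 M) M x) ≠ 0 := by
    rw [Ne, map_eq_zero_iff _ (IsFractionRing.injective (𝓞 M) M)]
    exact hx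
  -- `a * J = I`
  have haJ : (a : FractionalIdeal (𝓞 M)⁰ M) * (J : FractionalIdeal (𝓞 M)⁰ M)
      = (I : FractionalIdeal (𝓞 M)⁰ M) := by
    rw [hxI, hJdef, FractionalIdeal.coeIdeal_span_singleton, mul_right_comm,
      FractionalIdeal.spanSingleton_mul_spanSingleton, inv_mul_cancel₀ hxM,
      FractionalIdeal.spanSingleton_one, one_mul]
  have hI0 : I ≠ ⊥ := by
    rintro rfl
    rw [FractionalIdeal.coeIdeal_bot] at haJ
    have h1 : (a : FractionalIdeal (𝓞 M)⁰ M) ≠ 0 := a.ne_zero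
    have h2 : (J : FractionalIdeal (𝓞 M)⁰ M) ≠ 0 := by
      rw [Ne, FractionalIdeal.coeIdeal_eq_zero]
      exact hJ0
    exact mul_ne_zero h1 h2 haJ
  let uI : (FractionalIdeal (𝓞 M)⁰ M)ˣ :=
    FractionalIdeal.mk0 M ⟨I, mem_nonZeroDivisors_of_ne_zero hI0⟩
  let uJ : (FractionalIdeal (𝓞 M)⁰ M)ˣ :=
    FractionalIdeal.mk0 M ⟨J, mem_nonZeroDivisors_of_ne_zero hJ0⟩
  have huI : (uI : FractionalIdeal (𝓞 M)⁰ M) = (I : FractionalIdeal (𝓞 M)⁰ M) :=
    FractionalIdeal.coe_mk0 M _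
  have huJ : (uJ : FractionalIdeal (𝓞 M)⁰ M) = (J : FractionalIdeal (𝓞 M)⁰ M) :=
    FractionalIdeal.coe_mk0 M _
  have hauJ : a * uJ = uI := by
    apply Units.ext
    rw [Units.val_mul, huI, huJ, haJ]
  -- the norms of `I` and `J` agree
  have hnorm : normFrac σ (orderOf σ) uI = normFrac σ (orderOf σ) uJ := by
    rw [← hauJ, map_mul, ha, one_mul]
  have hprod : ∏ j ∈ Finset.range (orderOf σ), σ ^ j • I
      = ∏ j ∈ Finset.range (orderOf σ), σ ^ j • J := by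
    have h1 := congrArg (fun u : (FractionalIdeal (𝓞 M)⁰ M)ˣ =>
      (u : FractionalIdeal (𝓞 M)⁰ M)) hnorm
    simp only [uI, uJ] at h1
    rw [fno_coe_normFrac_mk0, fno_coe_normFrac_mk0] at h1
    exact FractionalIdeal.coeIdeal_injective h1
  obtain ⟨C, hC0, hC⟩ := exists_mul_eq_mul_smul_of_prod_smul_eq (𝓞 E) σ hσ hI0 hJ0 hprod
  let uC : (FractionalIdeal (𝓞 M)⁰ M)ˣ :=
    FractionalIdeal.mk0 M ⟨C, mem_nonZeroDivisors_of_ne_zero hC0⟩
  have huC : (uC : FractionalIdeal (𝓞 M)⁰ M) = (C : FractionalIdeal (𝓞 M)⁰ M) :=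
    FractionalIdeal.coe_mk0 M _
  refine ⟨uC, ?_⟩
  rw [eq_div_iff_mul_eq']
  apply Units.ext
  rw [Units.val_mul, coe_galFrac, huC, galFracHom_coeIdeal]
  -- cancel `J`
  have hJne : (J : FractionalIdeal (𝓞 M)⁰ M) ≠ 0 := by
    rw [Ne, FractionalIdeal.coeIdeal_eq_zero]
    exact hJ0
  apply mul_right_cancel₀ hJne
  calc (a : FractionalIdeal (𝓞 M)⁰ M) * (C : FractionalIdeal (𝓞 M)⁰ M)
        * (J : FractionalIdeal (𝓞 M)⁰ M)
      = ((a : FractionalIdeal (𝓞 M)⁰ M) * (J : FractionalIdeal (𝓞 M)⁰ M))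
          * (C : FractionalIdeal (𝓞 M)⁰ M) := by ring
    _ = ((I * C : Ideal (𝓞 M)) : FractionalIdeal (𝓞 M)⁰ M) := by
        rw [haJ, FractionalIdeal.coeIdeal_mul]
    _ = ((J * σ • C : Ideal (𝓞 M)) : FractionalIdeal (𝓞 M)⁰ M) := by rw [hC]
    _ = ((σ • C : Ideal (𝓞 M)) : FractionalIdeal (𝓞 M)⁰ M)
          * (J : FractionalIdeal (𝓞 M)⁰ M) := by
        rw [FractionalIdeal.coeIdeal_mul, mul_comm]

end Fermat.Agent.CFT.HNT
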