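import Mathlib
import Fermat.Agent.CFT.HNT.Defs
import Fermat.Agent.CFT.HNT.Ideals

/-!
# HNT-P3: primes of residue degree one in an unramified cyclic extension

`M/E` a Galois extension of number fields with `Gal(M/E) = ⟨σ⟩`.

* `map_under_eq_prod_smul_of_inertiaDeg_eq_one`: if `M/E` is unramified and the prime `P` of `M`
  has residue degree one over `E`, then `(P ∩ 𝓞 E) 𝓞 M = ∏_{j < ord σ} σ^j • P`.
* `ramificationIdx_eq_one_of_inertia_eq_bot`: trivial inertia group implies `e = 1`.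
* `inertiaDeg_eq_one_of_stabilizer_trivial`: trivial decomposition group implies `f = 1`
  (and `ramificationIdx_eq_one_of_stabilizer_trivial`: `e = 1`).
-/

set_option autoImplicit false

open NumberField nonZeroDivisors IsDedekindDomain Pointwise Ideal

namespace Fermat.Agent.CFT.HNT

variable {E M : Type*} [Field E] [Field M] [NumberField E] [NumberField M] [Algebra E M]
  [IsGalois E M]

omit [IsGalois E M] in
/-- The `σ`-norm `∏_{j < ord σ} σ^j • P` of an ideal is `σ`-invariant. -/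
theorem smul_prod_range_orderOf_smul (σ : M ≃ₐ[E] M) (P : Ideal (𝓞 M)) :
    σ • ∏ j ∈ Finset.range (orderOf σ), σ ^ j • P = ∏ j ∈ Finset.range (orderOf σ), σ ^ j • P := by
  rw [Finset.smul_prod']
  have h1 : ∀ j : ℕ, σ • σ ^ j • P = σ ^ (j + 1) • P := by
    intro j
    rw [← mul_smul, ← pow_succ']
  simp only [h1]
  have hn := Finset.prod_range_succ' (fun j => σ ^ j • P) (orderOf σ)
  rw [Finset.prod_range_succ, pow_orderOf_eq_one, pow_zero] at hn
  by_cases hP : P = ⊥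
  · subst hP
    have hpos := orderOf_pos σ
    have h0 : ∀ j : ℕ, σ ^ j • (⊥ : Ideal (𝓞 M)) = ⊥ := fun j => Ideal.smul_bot _
    simp only [h0]
  · have hP' : (1 : M ≃ₐ[E] M) • P ≠ 0 := by
      rw [one_smul]
      exact hP
    exact (mul_right_cancel₀ hP' hn).symm

/-- **HNT-P3.** In an unramified cyclic extension `M/E` with `Gal(M/E) = ⟨σ⟩`, a prime `P` of `M`
of residue degree one satisfies `(P ∩ 𝓞 E) 𝓞 M = ∏_{j < ord σ} σ^j • P`. -/
theorem map_under_eq_prod_smul_of_inertiaDeg_eq_one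
    (σ : M ≃ₐ[E] M) (hσ : ∀ g : M ≃ₐ[E] M, g ∈ Subgroup.zpowers σ)
    (hunr : ∀ P : Ideal (𝓞 M), P.IsPrime → P ≠ ⊥ → P.ramificationIdx (𝓞 E) = 1)
    (P : Ideal (𝓞 M)) [P.IsPrime] (hP : P ≠ ⊥) (hf : P.inertiaDeg (𝓞 E) = 1) :
    (P.under (𝓞 E)).map (algebraMap (𝓞 E) (𝓞 M)) =
      ∏ j ∈ Finset.range (orderOf σ), σ ^ j • P := by
  have hQ0 : ∏ j ∈ Finset.range (orderOf σ), σ ^ j • P ≠ ⊥ := by
    rw [← Ideal.zero_eq_bot, Finset.prod_ne_zero_iff]
    intro j _
    exact idl_smul_ne_bot (σ ^ j) hP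
  obtain ⟨a, ha⟩ := nf_exists_map_eq_of_smul_eq σ hσ hunr hQ0 (smul_prod_range_orderOf_smul σ P)
  have hn : orderOf σ = Module.finrank (𝓞 E) (𝓞 M) := by
    rw [orderOf_eq_card_of_forall_mem_zpowers hσ, IsGalois.card_aut_eq_finrank,
      IsFractionRing.finrank_eq (𝓞 E) E (𝓞 M) M]
  have h1 : relNorm (𝓞 E) (∏ j ∈ Finset.range (orderOf σ), σ ^ j • P) =
      (P.under (𝓞 E)) ^ orderOf σ := by
    rw [map_prod]
    have h2 : ∀ j : ℕ, relNorm (𝓞 E) (σ ^ j • P) = P.under (𝓞 E) := by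
      intro j
      rw [relNorm_smul (𝓞 E) (σ ^ j) P, nf_relNorm_eq_under_of_inertiaDeg_eq_one P hP hf]
    simp only [h2, Finset.prod_const, Finset.card_range]
  rw [ha, relNorm_algebraMap, ← hn] at h1
  have h3 : a = P.under (𝓞 E) := (pow_left_inj (orderOf_pos σ).ne').mp h1
  rw [ha, h3]

/-- Trivial inertia group implies ramification index one. -/
theorem ramificationIdx_eq_one_of_inertia_eq_bot (P : Ideal (𝓞 M)) [P.IsPrime] (hP : P ≠ ⊥)
    (h : P.inertia Gal(M/E) = ⊥) : P.ramificationIdx (𝓞 E) = 1 := by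
  have hp0 : P.under (𝓞 E) ≠ ⊥ := IsIntegral.comap_ne_bot (𝓞 E) hP
  have hpm : (P.under (𝓞 E)).IsMaximal := Ideal.IsPrime.isMaximal inferInstance hp0
  have hlo : P.LiesOver (P.under (𝓞 E)) := ⟨rfl⟩
  have hcard : Nat.card (P.inertia Gal(M/E)) = 1 := by
    rw [h]
    exact Subgroup.card_bot
  rw [Ideal.card_inertia_eq_ramificationIdxIn (P.under (𝓞 E)) P,
    Ideal.ramificationIdxIn_eq_ramificationIdx (P.under (𝓞 E)) P Gal(M/E)] at hcard
  exact hcard

/-- Trivial decomposition group implies `e * f = 1`. -/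
theorem ramificationIdx_mul_inertiaDeg_eq_one_of_stabilizer_trivial (P : Ideal (𝓞 M)) [P.IsPrime]
    (hP : P ≠ ⊥) (h : ∀ g : Gal(M/E), g ≠ 1 → g • P ≠ P) :
    P.ramificationIdx (𝓞 E) * P.inertiaDeg (𝓞 E) = 1 := by
  have hp0 : P.under (𝓞 E) ≠ ⊥ := IsIntegral.comap_ne_bot (𝓞 E) hP
  have hpm : (P.under (𝓞 E)).IsMaximal := Ideal.IsPrime.isMaximal inferInstance hp0
  have hlo : P.LiesOver (P.under (𝓞 E)) := ⟨rfl⟩
  have hbot : MulAction.stabilizer Gal(M/E) P = ⊥ := by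
    rw [Subgroup.eq_bot_iff_forall]
    intro g hg
    by_contra hne
    exact h g hne (MulAction.mem_stabilizer_iff.mp hg)
  have hcard : Nat.card (MulAction.stabilizer Gal(M/E) P) = 1 := by
    rw [hbot]
    exact Subgroup.card_bot
  rw [Ideal.card_stabilizer_eq (P.under (𝓞 E)) P,
    Ideal.ramificationIdxIn_eq_ramificationIdx (P.under (𝓞 E)) P Gal(M/E),
    Ideal.inertiaDegIn_eq_inertiaDeg (P.under (𝓞 E)) P Gal(M/E)] at hcard
  exact hcard

/-- Trivial decomposition group implies residue degree one. -/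
theorem inertiaDeg_eq_one_of_stabilizer_trivial (P : Ideal (𝓞 M)) [P.IsPrime] (hP : P ≠ ⊥)
    (h : ∀ g : Gal(M/E), g ≠ 1 → g • P ≠ P) : P.inertiaDeg (𝓞 E) = 1 :=
  Nat.eq_one_of_mul_eq_one_left
    (ramificationIdx_mul_inertiaDeg_eq_one_of_stabilizer_trivial P hP h)

/-- Trivial decomposition group implies ramification index one. -/
theorem ramificationIdx_eq_one_of_stabilizer_trivial (P : Ideal (𝓞 M)) [P.IsPrime] (hP : P ≠ ⊥)
    (h : ∀ g : Gal(M/E), g ≠ 1 → g • P ≠ P) : P.ramificationIdx (𝓞 E) = 1 :=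
  Nat.eq_one_of_mul_eq_one_right
    (ramificationIdx_mul_inertiaDeg_eq_one_of_stabilizer_trivial P hP h)

end Fermat.Agent.CFT.HNT
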