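import Mathlib
import Fermat.Agent.CFT.HNT.Defs
import Fermat.Agent.CFT.HNT.Ideals
import Fermat.Agent.CFT.HNT.SplitNorm

/-!
# HNT-P4: an element of `E` supported on primes with trivial decomposition group in `M`
generates a norm ideal

`M / E` a cyclic unramified extension of number fields with `Gal(M/E) = ⟨σ⟩`.  If `x : E` is a unit
at every prime of `M` whose stabiliser in `Gal(M/E)` is nontrivial, then the principal fractional
ideal `(x) 𝓞_M` is of the form `∏_{j < ord σ} σ^j 𝔄` for a fractional ideal `𝔄` of `M`.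
-/

set_option autoImplicit false

namespace Fermat.Agent.CFT.HNT

open NumberField nonZeroDivisors IsDedekindDomain Pointwise

section Bridge

variable {R K : Type*} [CommRing R] [IsDedekindDomain R] [Field K] [Algebra R K]
  [IsFractionRing R K]

theorem ln_count_algebraMap (v : HeightOneSpectrum R) {r : R} (hr : r ≠ 0) :
    FractionalIdeal.count K v (FractionalIdeal.spanSingleton R⁰ (algebraMap R K r)) =
      -WithZero.log (v.valuation K (algebraMap R K r)) := by
  classical
  have hJ : (Ideal.span {r} : Ideal R) ≠ 0 := by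
    rw [Ne, Ideal.zero_eq_bot, Ideal.span_singleton_eq_bot]
    exact hr
  rw [← FractionalIdeal.coeIdeal_span_singleton, FractionalIdeal.count_coe K v hJ,
    v.valuation_of_algebraMap, v.intValuation_if_neg hr, WithZero.log_exp, neg_neg]

/-- The exponent of `v` in the fractional ideal `(x)` is `-log` of the `v`-adic valuation. -/
theorem ln_count_spanSingleton (v : HeightOneSpectrum R) {x : K} (hx : x ≠ 0) :
    FractionalIdeal.count K v (FractionalIdeal.spanSingleton R⁰ x) =
      -WithZero.log (v.valuation K x) := by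
  obtain ⟨r, s, hs, rfl⟩ := IsFractionRing.div_surjective (A := R) x
  have hs0 : s ≠ 0 := nonZeroDivisors.ne_zero hs
  have hs' : algebraMap R K s ≠ 0 := by
    simpa using (IsFractionRing.injective R K).ne hs0
  have hr0 : r ≠ 0 := by
    rintro rfl
    simp at hx
  have hr' : algebraMap R K r ≠ 0 := by
    simpa using (IsFractionRing.injective R K).ne hr0
  have h1 : FractionalIdeal.count K v
        (FractionalIdeal.spanSingleton R⁰ (algebraMap R K r / algebraMap R K s)) +
      FractionalIdeal.count K v (FractionalIdeal.spanSingleton R⁰ (algebraMap R K s)) =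
      FractionalIdeal.count K v (FractionalIdeal.spanSingleton R⁰ (algebraMap R K r)) := by
    rw [← FractionalIdeal.count_mul K v (FractionalIdeal.spanSingleton_ne_zero_iff.mpr hx)
      (FractionalIdeal.spanSingleton_ne_zero_iff.mpr hs'),
      FractionalIdeal.spanSingleton_mul_spanSingleton, div_mul_cancel₀ _ hs']
  have h2 : WithZero.log (v.valuation K (algebraMap R K r / algebraMap R K s)) +
      WithZero.log (v.valuation K (algebraMap R K s)) =
      WithZero.log (v.valuation K (algebraMap R K r)) := by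
    rw [← WithZero.log_mul ((Valuation.ne_zero_iff _).mpr hx) ((Valuation.ne_zero_iff _).mpr hs'),
      ← map_mul, div_mul_cancel₀ _ hs']
  rw [ln_count_algebraMap v hr0, ln_count_algebraMap v hs0] at h1
  linarith

theorem ln_count_eq_zero_of_valuation_eq_one (v : HeightOneSpectrum R) {x : K} (hx : x ≠ 0)
    (h : v.valuation K x = 1) :
    FractionalIdeal.count K v (FractionalIdeal.spanSingleton R⁰ x) = 0 := by
  rw [ln_count_spanSingleton v hx, h, WithZero.log_one, neg_zero]

end Bridge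

variable {E M : Type*} [Field E] [Field M] [NumberField E] [NumberField M] [Algebra E M]
  [IsGalois E M]

omit [IsGalois E M] in
theorem ln_map_eq_algebraMap (x : E) :
    IsFractionRing.map (FaithfulSMul.algebraMap_injective (𝓞 E) (𝓞 M)) (K := E) (L := M) x =
      algebraMap E M x := by
  have h : (IsFractionRing.map (FaithfulSMul.algebraMap_injective (𝓞 E) (𝓞 M)) (K := E) (L := M)
      : E →+* M) = algebraMap E M := by
    apply IsLocalization.ringHom_ext (𝓞 E)⁰
    ext y
    simp only [RingHom.comp_apply]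
    rw [IsFractionRing.map, IsLocalization.map_eq]
    rfl
  exact DFunLike.congr_fun h x

/-- A prime of `E` at which `x` has nonzero exponent, extended to `M`, is the `σ`-norm of a prime
of `M` above it. -/
theorem ln_exists_normFrac_eq
    (σ : M ≃ₐ[E] M) (hσ : ∀ g : M ≃ₐ[E] M, g ∈ Subgroup.zpowers σ)
    (hunr : ∀ P : Ideal (𝓞 M), P.IsPrime → P ≠ ⊥ → P.ramificationIdx (𝓞 E) = 1)
    (x : E) (hx : x ≠ 0)
    (hsplit : ∀ 𝔓 : HeightOneSpectrum (𝓞 M), 𝔓.valuation M (algebraMap E M x) ≠ 1 →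
      ∀ g : Gal(M/E), g ≠ 1 → g • 𝔓.asIdeal ≠ 𝔓.asIdeal)
    (v : HeightOneSpectrum (𝓞 E))
    (hv : FractionalIdeal.count E v (FractionalIdeal.spanSingleton (𝓞 E)⁰ x) ≠ 0) :
    ∃ b : (FractionalIdeal (𝓞 M)⁰ M)ˣ,
      ((normFrac σ (orderOf σ) b : (FractionalIdeal (𝓞 M)⁰ M)ˣ) : FractionalIdeal (𝓞 M)⁰ M) =
        ((v.asIdeal.map (algebraMap (𝓞 E) (𝓞 M)) : Ideal (𝓞 M)) : FractionalIdeal (𝓞 M)⁰ M) := by
  have hvmax : v.asIdeal.IsMaximal := v.isMaximal
  obtain ⟨P, hPmax, hPover⟩ :=
    Ideal.exists_maximal_ideal_liesOver_of_isIntegral (S := 𝓞 M) v.asIdeal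
  have hPprime : P.IsPrime := hPmax.isPrime
  have hP0 : P ≠ ⊥ := Ideal.ne_bot_of_liesOver_of_ne_bot v.ne_bot P
  let w : HeightOneSpectrum (𝓞 M) := ⟨P, hPprime, hP0⟩
  have hwover : w.asIdeal.LiesOver v.asIdeal := hPover
  have hval := HeightOneSpectrum.valuation_liesOver (K := E) M v w x
  have hvne : v.valuation E x ≠ 1 := fun h => hv (ln_count_eq_zero_of_valuation_eq_one v hx h)
  have hwne : w.valuation M (algebraMap E M x) ≠ 1 := by
    rw [← hval]
    intro h
    apply hvne
    have he : v.asIdeal.ramificationIdx' w.asIdeal ≠ 0 :=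
      Ideal.IsDedekindDomain.ramificationIdx'_ne_zero_of_liesOver w.asIdeal v.ne_bot
    exact (pow_eq_one_iff.mp h).resolve_right he
  have hstab := hsplit w hwne
  have hf : P.inertiaDeg (𝓞 E) = 1 := inertiaDeg_eq_one_of_stabilizer_trivial P hP0 hstab
  have hmap := map_under_eq_prod_smul_of_inertiaDeg_eq_one σ hσ hunr P hP0 hf
  have hunder : P.under (𝓞 E) = v.asIdeal := (Ideal.LiesOver.over (p := v.asIdeal) (P := P)).symm
  rw [hunder] at hmap
  refine ⟨Units.mk0 (P : FractionalIdeal (𝓞 M)⁰ M) (FractionalIdeal.coeIdeal_ne_zero.mpr hP0), ?_⟩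
  have hcoe : ((∏ j ∈ Finset.range (orderOf σ), σ ^ j • P : Ideal (𝓞 M)) :
      FractionalIdeal (𝓞 M)⁰ M) =
      ∏ j ∈ Finset.range (orderOf σ), ((σ ^ j • P : Ideal (𝓞 M)) : FractionalIdeal (𝓞 M)⁰ M) :=
    map_prod (FractionalIdeal.coeIdealHom (𝓞 M)⁰ M) _ _
  rw [normFrac_apply, Units.coe_prod, hmap, hcoe]
  refine Finset.prod_congr rfl fun j _ => ?_
  rw [coe_galFrac, Units.val_mk0, galFracHom_coeIdeal]

theorem toPrincipalIdeal_mem_range_normFrac
    (σ : M ≃ₐ[E] M) (hσ : ∀ g : M ≃ₐ[E] M, g ∈ Subgroup.zpowers σ)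
    (hunr : ∀ P : Ideal (𝓞 M), P.IsPrime → P ≠ ⊥ → P.ramificationIdx (𝓞 E) = 1)
    (x : E) (hx : x ≠ 0)
    (hsplit : ∀ 𝔓 : HeightOneSpectrum (𝓞 M), 𝔓.valuation M (algebraMap E M x) ≠ 1 →
      ∀ g : Gal(M/E), g ≠ 1 → g • 𝔓.asIdeal ≠ 𝔓.asIdeal) :
    toPrincipalIdeal (𝓞 M) M (Units.mk0 (algebraMap E M x) (by simpa using hx)) ∈
      (normFrac σ (orderOf σ)).range := by
  classical
  have hI0 : FractionalIdeal.spanSingleton (𝓞 E)⁰ x ≠ 0 :=
    FractionalIdeal.spanSingleton_ne_zero_iff.mpr hx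
  have hfac := FractionalIdeal.finprod_heightOneSpectrum_factorization' (K := E) hI0
  have hfin : {v : HeightOneSpectrum (𝓞 E) |
      FractionalIdeal.count E v (FractionalIdeal.spanSingleton (𝓞 E)⁰ x) ≠ 0}.Finite :=
    Filter.eventually_cofinite.mp
      (FractionalIdeal.finite_factors (FractionalIdeal.spanSingleton (𝓞 E)⁰ x))
  have hprod : ∏ v ∈ hfin.toFinset, (v.asIdeal : FractionalIdeal (𝓞 E)⁰ E) ^
      FractionalIdeal.count E v (FractionalIdeal.spanSingleton (𝓞 E)⁰ x) =
      FractionalIdeal.spanSingleton (𝓞 E)⁰ x := by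
    refine Eq.trans ?_ hfac
    symm
    apply finprod_eq_prod_of_mulSupport_subset
    intro v hv
    rw [Set.Finite.coe_toFinset, Set.mem_ofPred_eq]
    intro h0
    apply hv
    beta_reduce
    rw [h0, zpow_zero]
  have hext := congrArg (FractionalIdeal.extendedHom M (𝓞 M)) hprod
  rw [map_prod, FractionalIdeal.extendedHom_spanSingleton, ln_map_eq_algebraMap] at hext
  have key := fun (v : HeightOneSpectrum (𝓞 E))
    (hv : FractionalIdeal.count E v (FractionalIdeal.spanSingleton (𝓞 E)⁰ x) ≠ 0) =>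
    ln_exists_normFrac_eq σ hσ hunr x hx hsplit v hv
  choose b hb using key
  refine ⟨∏ v ∈ hfin.toFinset.attach, b v.1 (by
    have := v.2
    rw [Set.Finite.mem_toFinset] at this
    exact this) ^ FractionalIdeal.count E v.1 (FractionalIdeal.spanSingleton (𝓞 E)⁰ x), ?_⟩
  apply Units.ext
  rw [coe_toPrincipalIdeal, Units.val_mk0, ← hext, map_prod, Units.coe_prod,
    ← Finset.prod_attach hfin.toFinset]
  refine Finset.prod_congr rfl fun v _ => ?_
  rw [map_zpow, Units.val_zpow_eq_zpow_val, hb, map_zpow₀,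
    FractionalIdeal.extendedHom_coeIdeal_eq_map]

end Fermat.Agent.CFT.HNT
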