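import Mathlib
import Fermat.Agent.CFT.HNT.Defs
import Fermat.Agent.CFT.HNT.Ideals
import Fermat.Agent.CFT.HNT.FracInv
import Fermat.Agent.CFT.HNT.HerbrandBridge

/-!
# Hasse norm theorem (unramified cyclic, odd prime degree): the hypotheses of the abstract theorem

`M / E` Galois of prime degree `p` with `σ ≠ 1` in `Gal(M/E)`.  We verify, for
`𝕄 = Mˣ`, `𝕀 = (FractionalIdeal (𝓞 M)⁰ M)ˣ`, `s = galUnits σ`, `t = galFrac σ`,
`nM = normUnits E M`, `nI = normFrac σ p`, `d = toPrincipalIdeal (𝓞 M) M`, the "formal" hypotheses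
of `mem_range_norm_of_relIndex_le`: compatibilities, Hilbert 90, finiteness of the class group,
and the identification of `ker d` with the units of `𝓞 M`.
-/

set_option autoImplicit false
set_option linter.unusedSectionVars false

namespace Fermat.Agent.CFT.HNT

open NumberField nonZeroDivisors IsDedekindDomain Pointwise Module

variable {E M : Type*} [Field E] [Field M] [NumberField E] [NumberField M] [Algebra E M]
  [IsGalois E M]
variable {p : ℕ} (hp : p.Prime) (hdeg : finrank E M = p) (σ : M ≃ₐ[E] M) (hσ : σ ≠ 1)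

include hp hdeg hσ in
/-- every element of the Galois group is a power of `σ` -/
theorem mem_zpowers_sigma (g : M ≃ₐ[E] M) : g ∈ Subgroup.zpowers σ := by
  obtain ⟨i, rfl⟩ := forall_exists_pow hp hdeg σ hσ g
  exact Subgroup.pow_mem _ (Subgroup.mem_zpowers σ) i

/-- `galUnits σ` fixes norms. -/
theorem galUnits_normUnits (x : Mˣ) : galUnits σ (normUnits E M x) = normUnits E M x := by
  apply Units.ext
  rw [coe_galUnits, coe_normUnits, AlgEquiv.commutes]

/-- the norm is `σ`-invariant. -/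
theorem normUnits_galUnits (x : Mˣ) : normUnits E M (galUnits σ x) = normUnits E M x := by
  apply Units.ext
  rw [coe_normUnits, coe_normUnits, coe_galUnits, Algebra.norm_eq_of_algEquiv]

theorem galUnits_pow_prod (x : Mˣ) (n : ℕ) :
    ((∏ j ∈ Finset.range n, galUnits (σ ^ j) x : Mˣ) : M) =
      ∏ j ∈ Finset.range n, (σ ^ j) (x : M) := by
  rw [Units.coe_prod]
  rfl

include hp hdeg hσ in
/-- `d (N x) = N (d x)`. -/
theorem toPrincipalIdeal_normUnits (x : Mˣ) :
    toPrincipalIdeal (𝓞 M) M (normUnits E M x) = normFrac σ p (toPrincipalIdeal (𝓞 M) M x) := by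
  rw [normFrac_apply]
  have h1 : ∀ j ∈ Finset.range p, galFrac (σ ^ j) (toPrincipalIdeal (𝓞 M) M x) =
      toPrincipalIdeal (𝓞 M) M (galUnits (σ ^ j) x) := fun j _ =>
    (toPrincipalIdeal_galUnits (σ ^ j) x).symm
  rw [Finset.prod_congr rfl h1, ← map_prod]
  congr 1
  apply Units.ext
  rw [coe_normUnits, galUnits_pow_prod, Algebra.norm_eq_prod_automorphisms,
    prod_aut_eq_prod_range hp hdeg σ hσ]

include hp hdeg in
theorem prod_galFrac_shift (a : (FractionalIdeal (𝓞 M)⁰ M)ˣ) :
    ∏ j ∈ Finset.range p, galFrac (σ ^ (j + 1)) a = ∏ j ∈ Finset.range p, galFrac (σ ^ j) a := by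
  have h1 := Finset.prod_range_succ' (fun j => galFrac (σ ^ j) a) p
  have h2 := Finset.prod_range_succ (fun j => galFrac (σ ^ j) a) p
  rw [h1] at h2
  simp only [pow_zero] at h2
  rw [sigma_pow_p hp hdeg σ] at h2
  exact mul_right_cancel h2

include hp hdeg in
/-- `σ` fixes norms of fractional ideals. -/
theorem galFrac_normFrac (a : (FractionalIdeal (𝓞 M)⁰ M)ˣ) :
    galFrac σ (normFrac σ p a) = normFrac σ p a := by
  rw [normFrac_apply, map_prod]
  have h1 : ∀ j ∈ Finset.range p, galFrac σ (galFrac (σ ^ j) a) = galFrac (σ ^ (j + 1)) a :=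
    fun j _ => by rw [← galFrac_mul, ← pow_succ']
  rw [Finset.prod_congr rfl h1, prod_galFrac_shift hp hdeg σ]

include hp hdeg in
/-- the norm of fractional ideals is `σ`-invariant. -/
theorem normFrac_galFrac (a : (FractionalIdeal (𝓞 M)⁰ M)ˣ) :
    normFrac σ p (galFrac σ a) = normFrac σ p a := by
  rw [normFrac_apply, normFrac_apply]
  have h1 : ∀ j ∈ Finset.range p, galFrac (σ ^ j) (galFrac σ a) = galFrac (σ ^ (j + 1)) a :=
    fun j _ => by rw [← galFrac_mul, ← pow_succ]
  rw [Finset.prod_congr rfl h1, prod_galFrac_shift hp hdeg σ]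

/-- **Hilbert 90** in the shape of the abstract theorem (Mathlib's cyclic Hilbert 90 is stated
in universe `0`). -/
theorem hilbert90_units {E M : Type} [Field E] [Field M] [NumberField E] [NumberField M]
    [Algebra E M] [IsGalois E M] {p : ℕ} (hp : p.Prime) (hdeg : finrank E M = p)
    (σ : M ≃ₐ[E] M) (hσ : σ ≠ 1) (x : Mˣ) (hx : normUnits E M x = 1) :
    ∃ y : Mˣ, x = galUnits σ y / y := by
  have hgen : ∀ g : M ≃ₐ[E] M, g ∈ Subgroup.zpowers σ := mem_zpowers_sigma hp hdeg σ hσ
  have : IsCyclic (M ≃ₐ[E] M) := ⟨⟨σ, hgen⟩⟩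
  have hn : Algebra.norm E (x : M) = 1 := by
    have h1 : ((normUnits E M x : Mˣ) : M) = 1 := by rw [hx]; rfl
    rw [coe_normUnits] at h1
    exact (algebraMap E M).injective (by rw [h1, map_one])
  obtain ⟨y, hy⟩ := groupCohomology.exists_div_of_norm_eq_one hgen hn
  refine ⟨y⁻¹, ?_⟩
  apply Units.ext
  rw [Units.val_div_eq_div_val, coe_galUnits, Units.val_inv_eq_inv_val, map_inv₀, ← hy]
  field_simp

/-- the class group of `M` is finite: `[I_M : P_M] ≠ 0`. -/
theorem index_range_toPrincipalIdeal_ne_zero (M : Type*) [Field M] [NumberField M] :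
    (toPrincipalIdeal (𝓞 M) M).range.index ≠ 0 := by
  have e := ClassGroup.equiv (R := 𝓞 M) M
  have : Finite ((FractionalIdeal (𝓞 M)⁰ M)ˣ ⧸ (toPrincipalIdeal (𝓞 M) M).range) :=
    Finite.of_equiv _ e.toEquiv
  exact Subgroup.index_ne_zero_of_finite

/-- the kernel of `x ↦ (x)` is the group of units of `𝓞 M`. -/
theorem ker_toPrincipalIdeal (M : Type*) [Field M] [NumberField M] :
    (toPrincipalIdeal (𝓞 M) M).ker = (unitsIncl M).range := by
  ext x
  rw [MonoidHom.mem_ker, MonoidHom.mem_range]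
  constructor
  · intro hx
    have h1 : FractionalIdeal.spanSingleton (𝓞 M)⁰ (x : M) = 1 := by
      have := congrArg (fun u : (FractionalIdeal (𝓞 M)⁰ M)ˣ => (u : FractionalIdeal (𝓞 M)⁰ M)) hx
      simpa using this
    -- `x` is integral
    have hx1 : (x : M) ∈ (1 : FractionalIdeal (𝓞 M)⁰ M) := by
      rw [← h1]; exact FractionalIdeal.mem_spanSingleton_self _ _
    obtain ⟨u, hu⟩ := (FractionalIdeal.mem_one_iff _).mp hx1
    -- `x⁻¹` is integral
    have hx2 : (1 : M) ∈ FractionalIdeal.spanSingleton (𝓞 M)⁰ (x : M) := by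
      rw [h1]; exact FractionalIdeal.one_mem_one _
    obtain ⟨v, hv⟩ := (FractionalIdeal.mem_spanSingleton _).mp hx2
    have huv : v * u = 1 := by
      apply RingOfIntegers.ext
      show algebraMap (𝓞 M) M (v * u) = algebraMap (𝓞 M) M 1
      rw [map_mul, hu, map_one, ← hv, Algebra.smul_def]
    refine ⟨⟨u, v, by rw [mul_comm]; exact huv, huv⟩, ?_⟩
    apply Units.ext
    exact hu
  · rintro ⟨u, rfl⟩
    apply Units.ext
    rw [coe_toPrincipalIdeal, Units.val_one]
    apply le_antisymm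
    · rw [FractionalIdeal.spanSingleton_le_iff_mem]
      exact (FractionalIdeal.mem_one_iff _).mpr ⟨(u : 𝓞 M), rfl⟩
    · rw [FractionalIdeal.one_le]
      refine (FractionalIdeal.mem_spanSingleton _).mpr ⟨((u⁻¹ : (𝓞 M)ˣ) : 𝓞 M), ?_⟩
      rw [Algebra.smul_def, coe_unitsIncl]
      show algebraMap (𝓞 M) M ((u⁻¹ : (𝓞 M)ˣ) : 𝓞 M) * algebraMap (𝓞 M) M (u : 𝓞 M) = 1
      rw [← map_mul, Units.inv_mul, map_one]

end Fermat.Agent.CFT.HNT
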