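import Mathlib
import Fermat.Agent.CFT.HNT.MainAux
import Fermat.Agent.CFT.HNT.FracNormOne
import Fermat.Agent.CFT.HNT.SplitNorm
import Fermat.Agent.CFT.HNT.LocalNorm

/-!
# The Hasse norm theorem for unramified cyclic extensions of odd prime degree

`M / E` a Galois extension of number fields of odd prime degree `p`, unramified at all finite
primes.  Given the second inequality (as a hypothesis `hSI`), an element `x ∈ Eˣ` which is a unit
at every prime of `M` with non-trivial decomposition group is a norm from `M`.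
-/

set_option autoImplicit false
set_option linter.unusedSectionVars false

namespace Fermat.Agent.CFT.HNT

open NumberField nonZeroDivisors IsDedekindDomain Pointwise Module

section

variable {E M : Type*} [Field E] [Field M] [NumberField E] [NumberField M] [Algebra E M]
  [IsGalois E M]

/-- extended fractional ideals are Galois invariant -/
theorem galFrac_extFrac (σ : M ≃ₐ[E] M) (b : (FractionalIdeal (𝓞 E)⁰ E)ˣ) :
    galFrac σ (extFrac E M b) = extFrac E M b := by
  apply Units.ext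
  rw [coe_galFrac, coe_extFrac]
  obtain ⟨n, I, hn, hI⟩ := FractionalIdeal.exists_eq_spanSingleton_mul
    (b : FractionalIdeal (𝓞 E)⁰ E)
  rw [hI, map_mul, map_mul, extendedHom_spanSingleton_algebraMap,
    FractionalIdeal.extendedHom_coeIdeal_eq_map, galFracHom_spanSingleton, galFracHom_coeIdeal,
    AlgEquiv.commutes, idl_smul_map_algebraMap]

variable {p : ℕ} (hp : p.Prime) (hdeg : finrank E M = p) (σ : M ≃ₐ[E] M) (hσ : σ ≠ 1)

include hp hdeg hσ in
/-- the image of `I_E` in `I_M` is the group of `σ`-invariant fractional ideals (unramified) -/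
theorem range_extFrac
    (hunr : ∀ P : Ideal (𝓞 M), P.IsPrime → P ≠ ⊥ → P.ramificationIdx (𝓞 E) = 1) :
    (extFrac E M).range = (cobd (galFrac σ)).ker := by
  ext a
  rw [mem_ker_cobd]
  constructor
  · rintro ⟨b, rfl⟩
    exact galFrac_extFrac σ b
  · intro ha
    obtain ⟨b, hb⟩ := exists_extendedHom_eq_of_galFrac_eq σ (mem_zpowers_sigma hp hdeg σ hσ) hunr a ha
    exact ⟨b, Units.ext (by rw [coe_extFrac, hb])⟩

include hp hdeg hσ in
/-- **Class group comparison**: the second inequality for subgroups of `ClassGroup (𝓞 E)`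
containing the classes of the primes of residue degree one gives
`[I_M^σ : P_E · N(I_M)] ≤ p`. -/
theorem relIndex_le_of_second_inequality
    (hunr : ∀ P : Ideal (𝓞 M), P.IsPrime → P ≠ ⊥ → P.ramificationIdx (𝓞 E) = 1)
    (hSI : ∀ H : Subgroup (ClassGroup (𝓞 E)),
      (∀ (𝔓 : HeightOneSpectrum (𝓞 M)) (𝔭 : HeightOneSpectrum (𝓞 E)),
        𝔓.asIdeal.LiesOver 𝔭.asIdeal → 𝔓.asIdeal.inertiaDeg (𝓞 E) = 1 →
        ClassGroup.mk0 ⟨𝔭.asIdeal, mem_nonZeroDivisors_of_ne_zero 𝔭.ne_bot⟩ ∈ H) →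
      H.index ≤ finrank E M) :
    (((cobd (galUnits σ)).ker.map (toPrincipalIdeal (𝓞 M) M)) ⊔
      (normFrac σ p).range).relIndex (cobd (galFrac σ)).ker ≤ p := by
  set K : Subgroup (FractionalIdeal (𝓞 M)⁰ M)ˣ :=
    ((cobd (galUnits σ)).ker.map (toPrincipalIdeal (𝓞 M) M)) ⊔ (normFrac σ p).range with hK
  set G₀ : Subgroup (FractionalIdeal (𝓞 E)⁰ E)ˣ := K.comap (extFrac E M) with hG₀
  have hG₀idx : G₀.index = K.relIndex (cobd (galFrac σ)).ker := by
    rw [hG₀, Subgroup.index_comap, range_extFrac hp hdeg σ hσ hunr]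
  -- the class map
  set π : (FractionalIdeal (𝓞 E)⁰ E)ˣ →* ClassGroup (𝓞 E) := ClassGroup.mk E with hπ
  have hπsurj : Function.Surjective π := by
    intro c
    obtain ⟨I, rfl⟩ := ClassGroup.mk0_surjective c
    exact ⟨FractionalIdeal.mk0 E I, ClassGroup.mk_mk0 E I⟩
  have hker : π.ker ≤ G₀ := by
    intro b hb
    rw [MonoidHom.mem_ker, hπ, ClassGroup.mk_eq_one_iff] at hb
    obtain ⟨x, hx⟩ := hb.principal
    have hbx : (b : FractionalIdeal (𝓞 E)⁰ E) = FractionalIdeal.spanSingleton (𝓞 E)⁰ x := by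
      apply Subtype.coe_injective
      simp only [FractionalIdeal.val_eq_coe, hx, FractionalIdeal.coe_spanSingleton]
    have hx0 : x ≠ 0 := by
      rintro rfl
      rw [FractionalIdeal.spanSingleton_zero] at hbx
      exact b.ne_zero hbx
    have hxM : algebraMap E M x ≠ 0 := by simpa using hx0
    rw [hG₀, Subgroup.mem_comap, hK]
    refine Subgroup.mem_sup_left ⟨Units.mk0 (algebraMap E M x) hxM, ?_, ?_⟩
    · rw [SetLike.mem_coe, mem_ker_cobd]
      apply Units.ext
      rw [coe_galUnits, Units.val_mk0, AlgEquiv.commutes]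
    · apply Units.ext
      rw [coe_toPrincipalIdeal, Units.val_mk0, coe_extFrac, hbx,
        extendedHom_spanSingleton_algebraMap]
  have hHidx : (G₀.map π).index = G₀.index := Subgroup.index_map_eq G₀ hπsurj hker
  have hle := hSI (G₀.map π) ?_
  · rw [hHidx, hG₀idx, hdeg] at hle
    exact hle
  · intro 𝔓 𝔭 hlo hf
    refine ⟨FractionalIdeal.mk0 E ⟨𝔭.asIdeal, mem_nonZeroDivisors_of_ne_zero 𝔭.ne_bot⟩, ?_,
      ClassGroup.mk_mk0 E _⟩
    rw [SetLike.mem_coe, hG₀, Subgroup.mem_comap, hK]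
    refine Subgroup.mem_sup_right ⟨FractionalIdeal.mk0 M ⟨𝔓.asIdeal,
      mem_nonZeroDivisors_of_ne_zero 𝔓.ne_bot⟩, ?_⟩
    apply Units.ext
    rw [fno_coe_normFrac_mk0, coe_extFrac, FractionalIdeal.coe_mk0,
      FractionalIdeal.extendedHom_coeIdeal_eq_map]
    congr 1
    have hunder : 𝔭.asIdeal = 𝔓.asIdeal.under (𝓞 E) := hlo.over
    have := map_under_eq_prod_smul_of_inertiaDeg_eq_one σ (mem_zpowers_sigma hp hdeg σ hσ) hunr
      𝔓.asIdeal 𝔓.ne_bot hf
    rw [orderOf_sigma hp hdeg σ hσ] at this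
    change ∏ j ∈ Finset.range p, σ ^ j • 𝔓.asIdeal = Ideal.map (algebraMap (𝓞 E) (𝓞 M)) 𝔭.asIdeal
    rw [hunder, this]

end

/-- **Hasse norm theorem** for an unramified cyclic extension `M / E` of number fields of odd
prime degree `p` (interface (I2) of the CFT project), with the second inequality as hypothesis
`hSI`: if `x ∈ Eˣ` is a unit at every prime of `M` whose decomposition group is non-trivial, then
`x` is a norm from `M`. -/
theorem exists_norm_eq {E M : Type} [Field E] [Field M] [NumberField E] [NumberField M]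
    [Algebra E M] [IsGalois E M] {p : ℕ} (hp : p.Prime) (hp2 : p ≠ 2)
    (hdeg : Module.finrank E M = p)
    (hur : ∀ P : Ideal (𝓞 M), P.IsPrime → P ≠ ⊥ → P.inertia Gal(M/E) = ⊥)
    (hSI : ∀ H : Subgroup (ClassGroup (𝓞 E)),
      (∀ (𝔓 : HeightOneSpectrum (𝓞 M)) (𝔭 : HeightOneSpectrum (𝓞 E)),
        𝔓.asIdeal.LiesOver 𝔭.asIdeal → 𝔓.asIdeal.inertiaDeg (𝓞 E) = 1 →
        ClassGroup.mk0 ⟨𝔭.asIdeal, mem_nonZeroDivisors_of_ne_zero 𝔭.ne_bot⟩ ∈ H) →
      H.index ≤ Module.finrank E M)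
    (x : E) (hx : x ≠ 0)
    (hsplit : ∀ 𝔓 : HeightOneSpectrum (𝓞 M), 𝔓.valuation M (algebraMap E M x) ≠ 1 →
      ∀ g : Gal(M/E), g ≠ 1 → g • 𝔓.asIdeal ≠ 𝔓.asIdeal) :
    ∃ z : M, Algebra.norm E z = x := by
  -- a generator of the Galois group
  have hcard : Nat.card (M ≃ₐ[E] M) = p := by rw [IsGalois.card_aut_eq_finrank, hdeg]
  have hnt : Nontrivial (M ≃ₐ[E] M) := by
    rw [← Finite.one_lt_card_iff_nontrivial, hcard]
    exact hp.one_lt
  obtain ⟨σ, hσ⟩ := exists_ne (1 : M ≃ₐ[E] M)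
  have hgen := mem_zpowers_sigma hp hdeg σ hσ
  have hord := orderOf_sigma hp hdeg σ hσ
  have hunr : ∀ P : Ideal (𝓞 M), P.IsPrime → P ≠ ⊥ → P.ramificationIdx (𝓞 E) = 1 :=
    fun P hP hP0 => by
      have := hP
      exact ramificationIdx_eq_one_of_inertia_eq_bot P hP0 (hur P hP hP0)
  have hxM : algebraMap E M x ≠ 0 := by simpa using hx
  obtain ⟨hH1, hH2⟩ := herbrand_bridge' hp hdeg σ hσ hp2 (galUnits σ) (normUnits E M)
    (fun _ => rfl) (fun _ => rfl) (toPrincipalIdeal (𝓞 M) M).ker (ker_toPrincipalIdeal M)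
  obtain ⟨z, hz⟩ := mem_range_norm_of_relIndex_le (galUnits σ) (normUnits E M) (galFrac σ)
    (normFrac σ p) (toPrincipalIdeal (𝓞 M) M) p hp.ne_zero
    (fun y => toPrincipalIdeal_galUnits σ y)
    (toPrincipalIdeal_normUnits hp hdeg σ hσ)
    (galUnits_normUnits σ) (normUnits_galUnits σ)
    (galFrac_normFrac hp hdeg σ) (normFrac_galFrac hp hdeg σ)
    (hilbert90_units hp hdeg σ hσ)
    (fun a ha => exists_eq_galFrac_div_of_normFrac_eq_one σ hgen a (by rwa [hord]))
    (index_range_toPrincipalIdeal_ne_zero M) hH1 hH2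
    (relIndex_le_of_second_inequality hp hdeg σ hσ hunr hSI)
    (Units.mk0 (algebraMap E M x) hxM)
    (by apply Units.ext; rw [coe_galUnits, Units.val_mk0, AlgEquiv.commutes])
    (by
      have := toPrincipalIdeal_mem_range_normFrac σ hgen hunr x hx hsplit
      rwa [hord] at this)
  refine ⟨(z : M), ?_⟩
  have h1 : ((normUnits E M z : Mˣ) : M) = algebraMap E M x := by rw [hz, Units.val_mk0]
  rw [coe_normUnits] at h1
  exact (algebraMap E M).injective h1

end Fermat.Agent.CFT.HNT
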