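import Mathlib
import Fermat.Agent.CFT.HNT.SplitNormApprox

/-!
# Local norms in congruence form (G3-WA, part 3)

* `exists_pow_approx` : (C) for a Dedekind domain `R` with fraction field `K`, a prime `v` and
  `p` with `(p : K) ≠ 0`: elements of `Kˣ` sufficiently close to `1` at `v` are `p`-th powers
  modulo any power of `v` (Newton step in congruence form);
* `normCongr M v : Subgroup Eˣ` : for an extension `M / E` of number fields and a prime `v` of
  `E`, the group of elements of `Eˣ` that are congruent to a norm from `M` modulo every power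
  of `v` ("local norms at `v` in congruence form");
* `norm_mem_normCongr`, `pow_finrank_mem_normCongr` : norms are local norms;
* `normCongr_open` : `normCongr M v` is open at `v`;
* `normCongr_ne_top_of` : properness, from the local first inequality in congruence form;
* `normCongr_eq_top_of_split`, `normCongr_eq_top_of_not_isNonSplit` : split primes.
-/

set_option autoImplicit false

open NumberField Module

namespace Fermat.Agent.CFT.HNT

open IsDedekindDomain WithZero

open scoped Pointwise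

section PowApprox

variable {R : Type*} [CommRing R] [IsDedekindDomain R] {K : Type*} [Field K] [Algebra R K]
  [IsFractionRing R K]

/-- A product of two elements congruent to `1` is congruent to `1`. -/
theorem val_mul_sub_one_le {A Γ : Type*} [CommRing A] [LinearOrderedCommGroupWithZero Γ]
    (w : Valuation A Γ) {γ : Γ} (hγ : γ ≤ 1) {a b : A} (ha : w (a - 1) ≤ γ)
    (hb : w (b - 1) ≤ γ) : w (a * b - 1) ≤ γ := by
  have e : a * b - 1 = (a - 1) * (b - 1) + (a - 1) + (b - 1) := by ring
  rw [e]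
  refine Valuation.map_add_le _ (Valuation.map_add_le _ ?_ ha) hb
  rw [map_mul]
  calc w (a - 1) * w (b - 1) ≤ γ * 1 := mul_le_mul' ha (hb.trans hγ)
    _ = γ := mul_one γ

/-- `(1 + b) ^ k = 1 + k b + b² c` with `c` integral at `v`, for `b` integral at `v`. -/
theorem exists_one_add_pow_eq (v : HeightOneSpectrum R) (b : K) (hb : v.valuation K b ≤ 1)
    (k : ℕ) : ∃ c : K, v.valuation K c ≤ 1 ∧ (1 + b) ^ k = 1 + k * b + b ^ 2 * c := by
  induction k with
  | zero => exact ⟨0, by simp, by simp⟩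
  | succ k ih =>
    obtain ⟨c, hc, h⟩ := ih
    refine ⟨k + c + b * c, ?_, ?_⟩
    · have hk : v.valuation K (k : K) ≤ 1 := by
        have : (k : K) = algebraMap R K (k : R) := by simp
        rw [this]
        exact v.valuation_le_one _
      refine Valuation.map_add_le _ (Valuation.map_add_le _ hk hc) ?_
      rw [map_mul]
      calc v.valuation K b * v.valuation K c ≤ 1 * 1 := mul_le_mul' hb hc
        _ = 1 := mul_one 1
    · rw [pow_succ, h]
      push_cast
      ring

/-- One Newton step: if `u ≡ 1` modulo `v ^ (2e + 1 + k)`, where `e = ord_v p`, then `u` is a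
`p`-th power modulo `v ^ (2e + 1 + (k + 1))`. -/
theorem exists_pow_step (v : HeightOneSpectrum R) (p : ℕ) (e : ℕ)
    (he : v.valuation K (p : K) = exp (-(e : ℤ))) (u : K) (k : ℕ)
    (hu : v.valuation K (u - 1) ≤ exp (-((2 * e + 1 + k : ℕ) : ℤ))) :
    ∃ t : K, t ≠ 0 ∧ v.valuation K (u / t ^ p - 1) ≤ exp (-((2 * e + 1 + (k + 1) : ℕ) : ℤ)) := by
  have hp0 : (p : K) ≠ 0 := by
    intro h
    rw [h, map_zero] at he
    exact exp_ne_zero he.symm
  set b : K := (u - 1) / p with hb
  have hvb : v.valuation K b ≤ exp (-((e + 1 + k : ℕ) : ℤ)) := by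
    rw [hb, map_div₀, he, div_le_iff₀ exp_pos, ← exp_add]
    refine hu.trans ?_
    rw [exp_le_exp]
    push_cast
    omega
  have hvb1 : v.valuation K b < 1 := by
    refine lt_of_le_of_lt hvb ?_
    rw [← exp_zero, exp_lt_exp]
    push_cast
    omega
  obtain ⟨c, hc, hpow⟩ := exists_one_add_pow_eq v b hvb1.le p
  have hpb : (p : K) * b = u - 1 := by
    rw [hb, mul_div_cancel₀ _ hp0]
  have hvt : v.valuation K (1 + b) = 1 := Valuation.map_one_add_of_lt _ hvb1
  have ht0 : (1 + b : K) ≠ 0 := by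
    intro h
    rw [h, map_zero] at hvt
    exact zero_ne_one hvt
  refine ⟨1 + b, ht0, ?_⟩
  have e1 : u / (1 + b) ^ p - 1 = -(b ^ 2 * c) / (1 + b) ^ p := by
    have h2 : (1 + b) ^ p ≠ 0 := pow_ne_zero _ ht0
    rw [eq_div_iff h2, sub_mul, div_mul_cancel₀ _ h2, one_mul, hpow, hpb]
    ring
  rw [e1, map_div₀, map_pow, hvt, one_pow, div_one, Valuation.map_neg, map_mul, map_pow]
  calc v.valuation K b ^ 2 * v.valuation K c
      ≤ exp (-((e + 1 + k : ℕ) : ℤ)) ^ 2 * 1 := mul_le_mul' (pow_le_pow_left' hvb 2) hc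
    _ = exp (-((e + 1 + k : ℕ) : ℤ)) ^ 2 := mul_one _
    _ ≤ exp (-((2 * e + 1 + (k + 1) : ℕ) : ℤ)) := by
      rw [← exp_nsmul, exp_le_exp]
      push_cast
      simp only [nsmul_eq_mul]
      push_cast
      omega

/-- Iterating the Newton step. -/
theorem exists_pow_approx_aux (v : HeightOneSpectrum R) (p : ℕ) (e : ℕ)
    (he : v.valuation K (p : K) = exp (-(e : ℤ))) (u : K)
    (hu : v.valuation K (u - 1) ≤ exp (-((2 * e + 1 : ℕ) : ℤ))) (k : ℕ) :
    ∃ z : K, z ≠ 0 ∧ v.valuation K (u / z ^ p - 1) ≤ exp (-((2 * e + 1 + k : ℕ) : ℤ)) := by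
  induction k with
  | zero =>
    refine ⟨1, one_ne_zero, ?_⟩
    rw [one_pow, div_one]
    exact hu
  | succ k ih =>
    obtain ⟨z, hz0, hz⟩ := ih
    obtain ⟨t, ht0, ht⟩ := exists_pow_step v p e he (u / z ^ p) k hz
    refine ⟨z * t, mul_ne_zero hz0 ht0, ?_⟩
    have e1 : u / (z * t) ^ p = u / z ^ p / t ^ p := by
      rw [mul_pow, div_div]
    rw [e1]
    exact ht

/-- **(C) `p`-th power openness in congruence form**: there is `n₁` such that every `x ∈ Kˣ`
with `x ≡ 1 mod v ^ n₁` is a `p`-th power modulo `v ^ n`, for every `n`. -/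
theorem exists_pow_approx (v : HeightOneSpectrum R) (p : ℕ) (hp : (p : K) ≠ 0) :
    ∃ n₁ : ℕ, ∀ x : Kˣ, v.valuation K ((x : K) - 1) ≤ exp (-(n₁ : ℤ)) →
      ∀ n : ℕ, ∃ z : Kˣ, v.valuation K ((x : K) / (z : K) ^ p - 1) ≤ exp (-(n : ℤ)) := by
  have hpR : (p : R) ≠ 0 := by
    intro h
    apply hp
    have : (p : K) = algebraMap R K (p : R) := by simp
    rw [this, h, map_zero]
  obtain ⟨e, he⟩ := WeakApprox.exists_intValuation_eq_exp v hpR
  have he' : v.valuation K (p : K) = exp (-(e : ℤ)) := by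
    have : (p : K) = algebraMap R K (p : R) := by simp
    rw [this, HeightOneSpectrum.valuation_of_algebraMap, he]
  refine ⟨2 * e + 1, fun x hx n => ?_⟩
  obtain ⟨z, hz0, hz⟩ := exists_pow_approx_aux v p e he' (x : K) hx n
  refine ⟨Units.mk0 z hz0, ?_⟩
  rw [Units.val_mk0]
  refine hz.trans ?_
  rw [exp_le_exp]
  push_cast
  omega

end PowApprox

section NormCongr

variable {E M : Type*} [Field E] [NumberField E] [Field M] [NumberField M] [Algebra E M]

variable (M) in
/-- The group of elements of `Eˣ` that are congruent to a norm from `M` modulo every power of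
`v`: the local norms at `v`, in congruence form. -/
def normCongr (v : HeightOneSpectrum (𝓞 E)) : Subgroup Eˣ where
  carrier := {x | ∀ n : ℕ, ∃ y : M, y ≠ 0 ∧
    v.valuation E ((x : E) / Algebra.norm E y - 1) ≤ exp (-(n : ℤ))}
  one_mem' := fun n => ⟨1, one_ne_zero, by simp⟩
  mul_mem' := by
    intro a b ha hb n
    obtain ⟨y, hy0, hy⟩ := ha n
    obtain ⟨y', hy'0, hy'⟩ := hb n
    refine ⟨y * y', mul_ne_zero hy0 hy'0, ?_⟩
    have e1 : ((a * b : Eˣ) : E) / Algebra.norm E (y * y') =
        ((a : E) / Algebra.norm E y) * ((b : E) / Algebra.norm E y') := by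
      rw [Units.val_mul, map_mul, mul_div_mul_comm]
    rw [e1]
    refine val_mul_sub_one_le _ ?_ hy hy'
    rw [← exp_zero, exp_le_exp]
    omega
  inv_mem' := by
    intro a ha n
    obtain ⟨y, hy0, hy⟩ := ha (n + 1)
    refine ⟨y⁻¹, inv_ne_zero hy0, ?_⟩
    have hN : Algebra.norm E y⁻¹ = (Algebra.norm E y)⁻¹ := by
      apply eq_inv_of_mul_eq_one_left
      rw [← map_mul, inv_mul_cancel₀ hy0, map_one]
    have e1 : ((a⁻¹ : Eˣ) : E) / Algebra.norm E y⁻¹ = ((a : E) / Algebra.norm E y)⁻¹ := by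
      rw [Units.val_inv_eq_inv_val, hN, inv_div_inv, inv_div]
    rw [e1]
    have hlt : exp (-((n + 1 : ℕ) : ℤ)) < (1 : ℤᵐ⁰) := by
      rw [← exp_zero, exp_lt_exp]
      push_cast
      omega
    refine (val_inv_sub_one_le _ hlt hy).trans ?_
    rw [exp_le_exp]
    push_cast
    omega

theorem mem_normCongr (v : HeightOneSpectrum (𝓞 E)) (x : Eˣ) :
    x ∈ normCongr M v ↔ ∀ n : ℕ, ∃ y : M, y ≠ 0 ∧
      v.valuation E ((x : E) / Algebra.norm E y - 1) ≤ exp (-(n : ℤ)) := Iff.rfl

/-- (i) Norms are local norms. -/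
theorem norm_mem_normCongr (v : HeightOneSpectrum (𝓞 E)) (x : Eˣ) (y : M)
    (hxy : (x : E) = Algebra.norm E y) : x ∈ normCongr M v := by
  intro n
  have hy0 : y ≠ 0 := by
    rintro rfl
    rw [Algebra.norm_zero] at hxy
    exact x.ne_zero hxy
  refine ⟨y, hy0, ?_⟩
  rw [hxy, div_self (by rw [← hxy]; exact x.ne_zero), sub_self, map_zero]
  exact zero_le

/-- (i') `[M : E]`-th powers are local norms. -/
theorem pow_finrank_mem_normCongr (v : HeightOneSpectrum (𝓞 E)) (x : Eˣ) :
    x ^ finrank E M ∈ normCongr M v := by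
  refine norm_mem_normCongr v _ (algebraMap E M (x : E)) ?_
  rw [Algebra.norm_algebraMap, Units.val_pow_eq_pow_val]

/-- (ii) The group of local norms at `v` is open at `v`. -/
theorem normCongr_open (v : HeightOneSpectrum (𝓞 E)) :
    ∃ n : ℕ, ∀ x : Eˣ, v.valuation E ((x : E) - 1) ≤ exp (-(n : ℤ)) → x ∈ normCongr M v := by
  have hd : ((finrank E M : ℕ) : E) ≠ 0 := Nat.cast_ne_zero.mpr finrank_pos.ne'
  obtain ⟨n₁, h⟩ := exists_pow_approx (K := E) v (finrank E M) hd
  refine ⟨n₁, fun x hx n => ?_⟩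
  obtain ⟨z, hz⟩ := h x hx n
  refine ⟨algebraMap E M (z : E), ?_, ?_⟩
  · rw [Ne, map_eq_zero]
    exact z.ne_zero
  · rw [Algebra.norm_algebraMap]
    exact hz

/-- (iii) The group of local norms at `v` is proper as soon as some element of `Eˣ` is not a
norm modulo some power of `v` (the local first inequality in congruence form). -/
theorem normCongr_ne_top_of (v : HeightOneSpectrum (𝓞 E))
    (h : ∃ n : ℕ, ∃ x : E, x ≠ 0 ∧ ∀ y : M, y ≠ 0 →
      ¬ v.valuation E (x / Algebra.norm E y - 1) ≤ exp (-(n : ℤ))) :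
    normCongr M v ≠ ⊤ := by
  obtain ⟨n, x, hx0, hx⟩ := h
  intro htop
  have hmem : Units.mk0 x hx0 ∈ normCongr M v := by
    rw [htop]
    exact Subgroup.mem_top _
  obtain ⟨y, hy0, hy⟩ := hmem n
  rw [Units.val_mk0] at hy
  exact hx y hy0 hy

variable [IsGalois E M]

/-- Split primes: every element of `Eˣ` is a local norm at a prime that splits completely. -/
theorem normCongr_eq_top_of_split (v : HeightOneSpectrum (𝓞 E))
    (hsplit : ∀ (σ : M ≃ₐ[E] M) (w : HeightOneSpectrum (𝓞 M)), w.under (𝓞 E) = v →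
      σ • w.asIdeal = w.asIdeal → σ = 1) :
    normCongr M v = ⊤ := by
  rw [eq_top_iff]
  intro x _ n
  obtain ⟨y, hy⟩ := exists_norm_approx_of_split v hsplit x n
  exact ⟨(y : M), y.ne_zero, hy⟩

/-- Split primes in a cyclic extension of prime degree. -/
theorem normCongr_eq_top_of_not_isNonSplit {p : ℕ} (hp : p.Prime) (hdeg : finrank E M = p)
    (v : HeightOneSpectrum (𝓞 E)) (hv : ¬ IsNonSplit M v) : normCongr M v = ⊤ :=
  normCongr_eq_top_of_split v
    (fun τ w hw hτ => eq_one_of_smul_eq_of_not_isNonSplit hp hdeg v hv τ w hw hτ)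

end NormCongr

end Fermat.Agent.CFT.HNT
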