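import Mathlib
import Fermat.Agent.CFT.HNT.Abstract

/-!
# Abstract Hasse norm theorem with local conditions

Same abstract data as in `Fermat.Agent.CFT.HNT.Abstract` (`𝕄 = Mˣ`, `𝕀` = ideals of `M` modulo
the ideals supported in `S`, `d` = "principal ideal of").  In addition:

* a Herbrand quotient hypothesis `h¹ · p ^ s' = p · h⁰` for `U = ker d` (the `S`-units);
* a subgroup `R ≤ 𝕄^σ` ("the ray `E_{𝔪,1}`") with `[𝕀^σ : d(R) · N(𝕀)] ≤ p` (the second
  inequality with modulus);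
* a subgroup `L ≤ 𝕄^σ` ("the elements which are local norms at the places of `S`") containing
  `R` and the norms, with `[𝕄^σ : L] ≥ p ^ s'` (weak approximation + local norm indices).

Conclusion: an element of `𝕄^σ` whose ideal is a norm and which lies in `L` is a norm.
-/

namespace Fermat.Agent.CFT.HNT

open Subgroup

/-- **Abstract Hasse norm theorem with local conditions.** -/
theorem inf_le_range_of_local
    {𝕄 𝕀 : Type*} [CommGroup 𝕄] [CommGroup 𝕀]
    (s nM : 𝕄 →* 𝕄) (t nI : 𝕀 →* 𝕀) (d : 𝕄 →* 𝕀)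
    (hd : ∀ x, d (s x) = t (d x)) (hdn : ∀ x, d (nM x) = nI (d x))
    (hsn : ∀ x, s (nM x) = nM x) (hns : ∀ x, nM (s x) = nM x)
    (htn : ∀ a, t (nI a) = nI a) (hnt : ∀ a, nI (t a) = nI a)
    (h90 : ∀ x, nM x = 1 → ∃ y, x = s y / y)
    (hm1 : ∀ a, nI a = 1 → ∃ b, a = t b / b)
    (hfin : d.range.index ≠ 0)
    (p s' : ℕ) (hp : 0 < p)
    (hHerb : (d.ker.map (cobd s)).relIndex (d.ker ⊓ nM.ker) * p ^ s' =
      p * (d.ker.map nM).relIndex (d.ker ⊓ (cobd s).ker))
    (hH0 : (d.ker.map nM).relIndex (d.ker ⊓ (cobd s).ker) ≠ 0)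
    (R L : Subgroup 𝕄) (hRE : R ≤ (cobd s).ker) (hLE : L ≤ (cobd s).ker) (hRL : R ≤ L)
    (hNL : nM.range ≤ L)
    (hray0 : (R.map d ⊔ nI.range).relIndex (cobd t).ker ≠ 0)
    (hray : (R.map d ⊔ nI.range).relIndex (cobd t).ker ≤ p)
    (hloc : L.relIndex (cobd s).ker = 0 ∨ p ^ s' ≤ L.relIndex (cobd s).ker) :
    (cobd s).ker ⊓ nI.range.comap d ⊓ L ≤ nM.range := by
  obtain ⟨hcount, hc0⟩ := relIndex_mul_relIndex_eq s nM t nI d hd hdn hsn hns htn hnt h90 hm1 hfin
  set E := (cobd s).ker with hE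
  set Iσ := (cobd t).ker with hIσ
  set 𝒩 := nI.range with h𝒩
  set NM := nM.range with hNM
  set A := E ⊓ 𝒩.comap d with hA
  set h0 := (d.ker.map nM).relIndex (d.ker ⊓ E) with hh0
  set h1 := (d.ker.map (cobd s)).relIndex (d.ker ⊓ nM.ker) with hh1
  set c := (E.map d ⊔ 𝒩).relIndex Iσ with hc
  set X := R.map d ⊔ 𝒩 with hX
  have hppos : 0 < p ^ s' := pow_pos hp s'
  have hh1ne : h1 ≠ 0 := by
    intro h
    rw [h, zero_mul] at hHerb
    exact (mul_ne_zero hp.ne' hH0) hHerb.symm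
  have hcne : c ≠ 0 := hc0 hh1ne
  -- basic inclusions
  have NM_le_E : NM ≤ E := by
    rintro _ ⟨x, rfl⟩
    rw [hE, mem_ker_cobd]
    exact hsn x
  have NM_le_A : NM ≤ A := by
    refine le_inf NM_le_E ?_
    rintro _ ⟨x, rfl⟩
    exact ⟨d x, (hdn x).symm⟩
  have N_le_Iσ : 𝒩 ≤ Iσ := by
    rintro _ ⟨a, rfl⟩
    rw [hIσ, mem_ker_cobd]
    exact htn a
  have Ed_le_Iσ : E.map d ≤ Iσ := by
    rintro _ ⟨x, hx, rfl⟩
    rw [hIσ, mem_ker_cobd, ← hd, (mem_ker_cobd s x).mp hx]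
  have X_le : X ≤ E.map d ⊔ 𝒩 := sup_le_sup_right (map_mono hRE) _
  -- `c' = m * c`
  set m := X.relIndex (E.map d ⊔ 𝒩) with hm
  have hmc : m * c = X.relIndex Iσ :=
    relIndex_mul_relIndex X (E.map d ⊔ 𝒩) Iσ X_le (sup_le Ed_le_Iσ N_le_Iσ)
  have hmc_le : m * c ≤ p := hmc ▸ hray
  have hmne : m ≠ 0 := by
    intro h
    rw [h, zero_mul] at hmc
    exact hray0 hmc.symm
  -- `m = [E : R · A]`
  have hm' : m = (R ⊔ A).relIndex E := by
    have e1 : E.map d ⊔ 𝒩 = X ⊔ E.map d := by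
      rw [hX, sup_comm (R.map d) 𝒩, sup_assoc, sup_of_le_right (map_mono hRE), sup_comm]
    have e2 : X.comap d ⊓ E = R ⊔ A := by
      apply le_antisymm
      · rintro x ⟨hx1, hx2⟩
        have hx1' : d x ∈ R.map d ⊔ 𝒩 := hx1
        obtain ⟨y, ⟨r, hr, rfl⟩, n, hn, hyn⟩ := mem_sup.mp hx1'
        have hxr : x = r * (x / r) := by simp
        rw [hxr]
        refine mul_mem_sup hr ⟨E.div_mem hx2 (hRE hr), ?_⟩
        have hdn' : d (x / r) = n := by
          rw [map_div, ← hyn]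
          simp
        change d (x / r) ∈ 𝒩
        rw [hdn']
        exact hn
      · refine sup_le (le_inf ?_ hRE) (le_inf ?_ inf_le_left)
        · intro r hr
          exact mem_sup_left (mem_map_of_mem d hr)
        · rintro x ⟨_, hx⟩
          exact mem_sup_right hx
    rw [hm, e1, relIndex_sup_left, ← relIndex_comap, ← inf_relIndex_right, e2]
  -- `m' = [E : L · A]` divides `m`
  set m' := (L ⊔ A).relIndex E with hm'def
  have hm'dvd : m' ∣ m := by
    rw [hm']
    exact relIndex_dvd_of_le_left E (sup_le_sup_right hRL A)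
  have hm'ne : m' ≠ 0 := fun h => hmne (eq_zero_of_zero_dvd (h ▸ hm'dvd))
  have hm'le : m' ≤ m := Nat.le_of_dvd (Nat.pos_of_ne_zero hmne) hm'dvd
  -- `[E : L] = m' * a`
  set a := L.relIndex A with ha
  have hELa : L.relIndex E = a * m' := by
    rw [← relIndex_mul_relIndex L (L ⊔ A) E le_sup_left (sup_le hLE inf_le_left),
      relIndex_sup_left]
  -- `[A : NM] = b * a`
  set b := NM.relIndex (L ⊓ A) with hb
  have hba : b * a = NM.relIndex A := by
    rw [hb, ha, ← inf_relIndex_right L A]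
    exact relIndex_mul_relIndex NM (L ⊓ A) A (le_inf hNL NM_le_A) inf_le_right
  -- the count
  have key : c * p ^ s' = p * (b * a) := by
    have h2 : c * h0 * p ^ s' = h0 * (p * (b * a)) := by
      rw [hcount, hba, mul_right_comm, hHerb]
      ring
    have h3 : h0 * (c * p ^ s') = h0 * (p * (b * a)) := by
      rw [← h2]; ring
    exact Nat.eq_of_mul_eq_mul_left (Nat.pos_of_ne_zero hH0) h3
  have hba_ne : b * a ≠ 0 := by
    intro h
    rw [h, mul_zero] at key
    exact (mul_ne_zero hcne hppos.ne') key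
  have hane : a ≠ 0 := fun h => hba_ne (by rw [h, mul_zero])
  have hELne : L.relIndex E ≠ 0 := by
    rw [hELa]
    exact mul_ne_zero hane hm'ne
  have hps : p ^ s' ≤ a * m' := by
    rcases hloc with h | h
    · exact absurd h hELne
    · rwa [hELa] at h
  have hb1 : b ≤ 1 := by
    have h4 : p * (b * a) ≤ p * a := by
      calc p * (b * a) = c * p ^ s' := key.symm
        _ ≤ c * (a * m') := Nat.mul_le_mul_left c hps
        _ ≤ c * (a * m) := Nat.mul_le_mul_left c (Nat.mul_le_mul_left a hm'le)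
        _ = (m * c) * a := by ring
        _ ≤ p * a := Nat.mul_le_mul_right a hmc_le
    have h5 : b * a ≤ 1 * a := by
      rw [one_mul]
      exact Nat.le_of_mul_le_mul_left h4 hp
    exact Nat.le_of_mul_le_mul_right h5 (Nat.pos_of_ne_zero hane)
  have hbne : b ≠ 0 := fun h => hba_ne (by rw [h, zero_mul])
  have hb_eq : b = 1 := le_antisymm hb1 (Nat.one_le_iff_ne_zero.mpr hbne)
  have hfinal : L ⊓ A ≤ NM := relIndex_eq_one.mp hb_eq
  rw [inf_comm]
  exact hfinal

end Fermat.Agent.CFT.HNT
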