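import Mathlib

/-!
# Fractional ideals supported in a set of primes

For a Dedekind domain `R` with fraction field `K` and a set `T` of primes, `suppGrp K T` is the
subgroup of the group of invertible fractional ideals generated by the primes in `T`.  We show
`suppGrp K T ⊔ suppGrp K Tᶜ = ⊤`, `suppGrp K T ⊓ suppGrp K Tᶜ = ⊥` and characterise membership by
the vanishing of the exponents outside `T`.
-/

namespace Fermat.Agent.CFT.HNT

open nonZeroDivisors IsDedekindDomain

section Dedekind

variable {R : Type*} [CommRing R] [IsDedekindDomain R] (K : Type*) [Field K] [Algebra R K]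
  [IsFractionRing R K]

/-- The invertible fractional ideal attached to a prime. -/
noncomputable def primeUnit (v : HeightOneSpectrum R) : (FractionalIdeal R⁰ K)ˣ :=
  Units.mk0 (v.asIdeal : FractionalIdeal R⁰ K) (FractionalIdeal.coeIdeal_ne_zero.mpr v.ne_bot)

@[simp] theorem coe_primeUnit (v : HeightOneSpectrum R) :
    ((primeUnit K v : (FractionalIdeal R⁰ K)ˣ) : FractionalIdeal R⁰ K) = v.asIdeal := rfl

/-- The exponent of `v`, as a homomorphism on the group of invertible fractional ideals. -/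
noncomputable def countHom (v : HeightOneSpectrum R) :
    (FractionalIdeal R⁰ K)ˣ →* Multiplicative ℤ where
  toFun a := Multiplicative.ofAdd (FractionalIdeal.count K v (a : FractionalIdeal R⁰ K))
  map_one' := by
    rw [Units.val_one, FractionalIdeal.count_one]
    rfl
  map_mul' a b := by
    rw [Units.val_mul, FractionalIdeal.count_mul K v a.ne_zero b.ne_zero, ofAdd_add]

theorem countHom_apply (v : HeightOneSpectrum R) (a : (FractionalIdeal R⁰ K)ˣ) :
    countHom K v a = Multiplicative.ofAdd (FractionalIdeal.count K v (a : FractionalIdeal R⁰ K)) :=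
  rfl

theorem mem_ker_countHom (v : HeightOneSpectrum R) (a : (FractionalIdeal R⁰ K)ˣ) :
    a ∈ (countHom K v).ker ↔ FractionalIdeal.count K v (a : FractionalIdeal R⁰ K) = 0 := by
  rw [MonoidHom.mem_ker, countHom_apply]
  exact ofAdd_eq_one

/-- The subgroup of the invertible fractional ideals generated by the primes in `T`. -/
noncomputable def suppGrp (T : Set (HeightOneSpectrum R)) : Subgroup (FractionalIdeal R⁰ K)ˣ :=
  Subgroup.closure (primeUnit K '' T)

theorem primeUnit_mem_suppGrp {T : Set (HeightOneSpectrum R)} {v : HeightOneSpectrum R}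
    (hv : v ∈ T) : primeUnit K v ∈ suppGrp K T :=
  Subgroup.subset_closure ⟨v, hv, rfl⟩

theorem suppGrp_mono {T T' : Set (HeightOneSpectrum R)} (h : T ⊆ T') :
    suppGrp K T ≤ suppGrp K T' :=
  Subgroup.closure_mono (Set.image_mono h)

/-- An invertible fractional ideal all of whose exponents vanish is trivial. -/
theorem eq_one_of_forall_count_eq_zero (a : (FractionalIdeal R⁰ K)ˣ)
    (h : ∀ v : HeightOneSpectrum R, FractionalIdeal.count K v (a : FractionalIdeal R⁰ K) = 0) :
    a = 1 := by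
  have hfac := FractionalIdeal.finprod_heightOneSpectrum_factorization' (K := K) a.ne_zero
  apply Units.ext
  rw [← hfac, Units.val_one]
  apply finprod_eq_one_of_forall_eq_one
  intro v
  rw [h v, zpow_zero]

theorem count_eq_zero_of_mem_suppGrp {T : Set (HeightOneSpectrum R)}
    {a : (FractionalIdeal R⁰ K)ˣ} (ha : a ∈ suppGrp K T) {v : HeightOneSpectrum R} (hv : v ∉ T) :
    FractionalIdeal.count K v (a : FractionalIdeal R⁰ K) = 0 := by
  rw [← mem_ker_countHom]
  have hle : suppGrp K T ≤ (countHom K v).ker := by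
    rw [suppGrp, Subgroup.closure_le]
    rintro _ ⟨w, hw, rfl⟩
    rw [SetLike.mem_coe, mem_ker_countHom, coe_primeUnit]
    apply FractionalIdeal.count_maximal_coprime
    rintro rfl
    exact hv hw
  exact hle ha

theorem mk0_mem_suppGrp_univ (I : Ideal R) (hI : I ≠ ⊥) :
    Units.mk0 (I : FractionalIdeal R⁰ K) (FractionalIdeal.coeIdeal_ne_zero.mpr hI) ∈
      suppGrp K (Set.univ : Set (HeightOneSpectrum R)) := by
  revert hI
  refine UniqueFactorizationMonoid.induction_on_prime (P := fun I : Ideal R => ∀ hI : I ≠ ⊥,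
    Units.mk0 (I : FractionalIdeal R⁰ K) (FractionalIdeal.coeIdeal_ne_zero.mpr hI) ∈
      suppGrp K (Set.univ : Set (HeightOneSpectrum R))) I ?_ ?_ ?_
  · intro h
    exact absurd rfl h
  · intro x hx hx0
    have hx1 : x = 1 := by
      rw [Ideal.one_eq_top]
      exact Ideal.isUnit_iff.mp hx
    subst hx1
    have : Units.mk0 ((1 : Ideal R) : FractionalIdeal R⁰ K)
        (FractionalIdeal.coeIdeal_ne_zero.mpr hx0) = 1 := by
      apply Units.ext
      simp
    rw [this]
    exact one_mem _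
  · intro a p ha0 hp IH hpa
    have hp0 : p ≠ ⊥ := hp.ne_zero
    have ha0' : a ≠ ⊥ := ha0
    have hpp : p.IsPrime := Ideal.isPrime_of_prime hp
    let v : HeightOneSpectrum R := ⟨p, hpp, hp0⟩
    have : Units.mk0 ((p * a : Ideal R) : FractionalIdeal R⁰ K)
        (FractionalIdeal.coeIdeal_ne_zero.mpr hpa) = primeUnit K v *
          Units.mk0 (a : FractionalIdeal R⁰ K) (FractionalIdeal.coeIdeal_ne_zero.mpr ha0') := by
      apply Units.ext
      simp [v]
    rw [this]
    exact mul_mem (primeUnit_mem_suppGrp K (Set.mem_univ v)) (IH ha0')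

theorem suppGrp_univ : suppGrp K (Set.univ : Set (HeightOneSpectrum R)) = ⊤ := by
  rw [eq_top_iff]
  intro a _
  obtain ⟨x, I, hx, hxI⟩ := FractionalIdeal.exists_eq_spanSingleton_mul
    (a : FractionalIdeal R⁰ K)
  set J : Ideal R := Ideal.span {x} with hJdef
  have hJ0 : J ≠ ⊥ := by
    rw [hJdef, Ne, Ideal.span_singleton_eq_bot]
    exact hx
  have hxK : (algebraMap R K x) ≠ 0 := by
    rw [Ne, map_eq_zero_iff _ (IsFractionRing.injective R K)]
    exact hx
  have haJ : (a : FractionalIdeal R⁰ K) * (J : FractionalIdeal R⁰ K)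
      = (I : FractionalIdeal R⁰ K) := by
    rw [hxI, hJdef, FractionalIdeal.coeIdeal_span_singleton, mul_right_comm,
      FractionalIdeal.spanSingleton_mul_spanSingleton, inv_mul_cancel₀ hxK,
      FractionalIdeal.spanSingleton_one, one_mul]
  have hJ0' : (J : FractionalIdeal R⁰ K) ≠ 0 := FractionalIdeal.coeIdeal_ne_zero.mpr hJ0
  have hI0 : I ≠ ⊥ := by
    rintro rfl
    rw [FractionalIdeal.coeIdeal_bot] at haJ
    exact mul_ne_zero a.ne_zero hJ0' haJ
  have ha : a = Units.mk0 (I : FractionalIdeal R⁰ K) (FractionalIdeal.coeIdeal_ne_zero.mpr hI0) /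
      Units.mk0 (J : FractionalIdeal R⁰ K) hJ0' := by
    rw [eq_div_iff_mul_eq']
    apply Units.ext
    rw [Units.val_mul]
    exact haJ
  rw [ha]
  exact div_mem (mk0_mem_suppGrp_univ K I hI0) (mk0_mem_suppGrp_univ K J hJ0)

theorem suppGrp_sup_compl (T : Set (HeightOneSpectrum R)) :
    suppGrp K T ⊔ suppGrp K Tᶜ = ⊤ := by
  rw [suppGrp, suppGrp, ← Subgroup.closure_union, ← Set.image_union, Set.union_compl_self]
  exact suppGrp_univ K

theorem suppGrp_inf_compl (T : Set (HeightOneSpectrum R)) :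
    suppGrp K T ⊓ suppGrp K Tᶜ = ⊥ := by
  rw [eq_bot_iff]
  rintro a ⟨h1, h2⟩
  rw [Subgroup.mem_bot]
  apply eq_one_of_forall_count_eq_zero
  intro v
  by_cases hv : v ∈ T
  · exact count_eq_zero_of_mem_suppGrp K h2 (fun h => h hv)
  · exact count_eq_zero_of_mem_suppGrp K h1 hv

theorem exists_mul_of_suppGrp (T : Set (HeightOneSpectrum R)) (a : (FractionalIdeal R⁰ K)ˣ) :
    ∃ t ∈ suppGrp K T, ∃ q ∈ suppGrp K Tᶜ, a = t * q := by
  have h : a ∈ suppGrp K T ⊔ suppGrp K Tᶜ := by
    rw [suppGrp_sup_compl]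
    exact Subgroup.mem_top a
  obtain ⟨t, ht, q, hq, rfl⟩ := Subgroup.mem_sup.mp h
  exact ⟨t, ht, q, hq, rfl⟩

theorem mem_suppGrp_iff (T : Set (HeightOneSpectrum R)) (a : (FractionalIdeal R⁰ K)ˣ) :
    a ∈ suppGrp K T ↔
      ∀ v : HeightOneSpectrum R, v ∉ T →
        FractionalIdeal.count K v (a : FractionalIdeal R⁰ K) = 0 := by
  constructor
  · intro ha v hv
    exact count_eq_zero_of_mem_suppGrp K ha hv
  · intro h
    obtain ⟨t, ht, q, hq, rfl⟩ := exists_mul_of_suppGrp K T a
    have hq1 : q = 1 := by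
      apply eq_one_of_forall_count_eq_zero
      intro v
      by_cases hv : v ∈ T
      · exact count_eq_zero_of_mem_suppGrp K hq (fun h => h hv)
      · have h1 := h v hv
        rw [Units.val_mul, FractionalIdeal.count_mul K v t.ne_zero q.ne_zero,
          count_eq_zero_of_mem_suppGrp K ht hv, zero_add] at h1
        exact h1
    rw [hq1, mul_one]
    exact ht

/-- A nonzero integral ideal is prime to `T` if no prime of `T` contains it. -/
def PrimeTo (T : Set (HeightOneSpectrum R)) (I : Ideal R) : Prop :=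
  I ≠ ⊥ ∧ ∀ v ∈ T, ¬ I ≤ v.asIdeal

theorem PrimeTo.mul {T : Set (HeightOneSpectrum R)} {I J : Ideal R} (hI : PrimeTo T I)
    (hJ : PrimeTo T J) : PrimeTo T (I * J) := by
  refine ⟨?_, fun v hv hle => ?_⟩
  · have := mul_ne_zero (show I ≠ 0 from hI.1) (show J ≠ 0 from hJ.1)
    exact this
  · rcases (v.isPrime.mul_le).mp hle with h | h
    · exact hI.2 v hv h
    · exact hJ.2 v hv h

theorem PrimeTo.top (T : Set (HeightOneSpectrum R)) : PrimeTo T (⊤ : Ideal R) := by
  refine ⟨top_ne_bot, fun v _ hle => ?_⟩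
  exact v.isPrime.ne_top (top_le_iff.mp hle)

theorem count_coe_eq_zero_of_not_le (v : HeightOneSpectrum R) {I : Ideal R} (hI : I ≠ ⊥)
    (h : ¬ I ≤ v.asIdeal) : FractionalIdeal.count K v (I : FractionalIdeal R⁰ K) = 0 := by
  classical
  rw [FractionalIdeal.count_coe K v hI, Nat.cast_eq_zero]
  by_contra hne
  exact h (Ideal.dvd_iff_le.mp ((Associates.count_ne_zero_iff_dvd hI v.irreducible).mp hne))

theorem count_coe_pos_of_le (v : HeightOneSpectrum R) {I : Ideal R} (hI : I ≠ ⊥)
    (h : I ≤ v.asIdeal) : 0 < FractionalIdeal.count K v (I : FractionalIdeal R⁰ K) := by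
  classical
  rw [FractionalIdeal.count_coe K v hI, Nat.cast_pos]
  apply Nat.pos_of_ne_zero
  rw [Associates.count_ne_zero_iff_dvd hI v.irreducible]
  exact Ideal.dvd_iff_le.mpr h

/-- The unit attached to an integral ideal prime to `T` is supported outside `T`. -/
theorem mk0_mem_suppGrp_compl {T : Set (HeightOneSpectrum R)} {I : Ideal R}
    (hI : PrimeTo T I) :
    Units.mk0 (I : FractionalIdeal R⁰ K) (FractionalIdeal.coeIdeal_ne_zero.mpr hI.1) ∈
      suppGrp K Tᶜ := by
  rw [mem_suppGrp_iff]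
  intro v hv
  rw [Set.notMem_compl_iff] at hv
  exact count_coe_eq_zero_of_not_le K v hI.1 (hI.2 v hv)

/-- An invertible fractional ideal supported outside `T` is a quotient of two integral ideals
prime to `T`. -/
theorem exists_primeTo_of_mem_suppGrp_compl {T : Set (HeightOneSpectrum R)}
    {a : (FractionalIdeal R⁰ K)ˣ} (ha : a ∈ suppGrp K Tᶜ) :
    ∃ I J : Ideal R, PrimeTo T I ∧ PrimeTo T J ∧
      (a : FractionalIdeal R⁰ K) * (J : FractionalIdeal R⁰ K) = (I : FractionalIdeal R⁰ K) := by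
  rw [suppGrp] at ha
  induction ha using Subgroup.closure_induction with
  | mem x hx =>
    obtain ⟨v, hv, rfl⟩ := hx
    refine ⟨v.asIdeal, ⊤, ⟨v.ne_bot, fun w hw hle => ?_⟩, PrimeTo.top T, ?_⟩
    · have : v = w := HeightOneSpectrum.ext (v.isMaximal.eq_of_le w.isPrime.ne_top hle)
      exact hv (this ▸ hw)
    · rw [coe_primeUnit, FractionalIdeal.coeIdeal_top, mul_one]
  | one =>
    refine ⟨⊤, ⊤, PrimeTo.top T, PrimeTo.top T, ?_⟩
    rw [Units.val_one, one_mul]
  | mul x y _ _ hx hy =>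
    obtain ⟨I1, J1, hI1, hJ1, h1⟩ := hx
    obtain ⟨I2, J2, hI2, hJ2, h2⟩ := hy
    refine ⟨I1 * I2, J1 * J2, hI1.mul hI2, hJ1.mul hJ2, ?_⟩
    rw [Units.val_mul, FractionalIdeal.coeIdeal_mul, FractionalIdeal.coeIdeal_mul, ← h1, ← h2]
    ring
  | inv x _ hx =>
    obtain ⟨I1, J1, hI1, hJ1, h1⟩ := hx
    refine ⟨J1, I1, hJ1, hI1, ?_⟩
    rw [← h1, Units.val_inv_eq_inv_val, ← mul_assoc, inv_mul_cancel₀ x.ne_zero, one_mul]

end Dedekind

end Fermat.Agent.CFT.HNT
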