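import Mathlib
import Fermat.Agent.CFT.HNT.SCount
import Fermat.Agent.CFT.HNT.MainAux
import Fermat.Agent.CFT.HNT.FracNormOne
import Fermat.Agent.CFT.HNT.LocalNorm
import Fermat.Agent.CFT.HNT.HerbrandS

/-!
# Ideals of `M` modulo the ideals supported above `S`

For an extension `M/E` of number fields, a generator `σ` of its (cyclic, prime degree) Galois
group and a set `S` of primes of `E`, we consider the quotient `IS M S` of the group of fractional
ideals of `M` by the subgroup `suppGrp M (sAbove M S)` of the ideals supported above `S`,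
with the induced action `tS σ S` of `σ`, the induced norm `nIS σ n S` and the map
`dS M S : Mˣ → IS M S`.  We verify the hypotheses of the abstract counting theorem for them and
identify `ker (dS M S)` with the `S`-units of `M`.
-/

namespace Fermat.Agent.CFT.HNT

open NumberField nonZeroDivisors IsDedekindDomain Pointwise Module

set_option linter.unusedSectionVars false

variable {E M : Type*} [Field E] [Field M] [NumberField E] [NumberField M] [Algebra E M]
  [IsGalois E M]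

theorem sAbove_compl (S : Set (HeightOneSpectrum (𝓞 E))) :
    sAbove M Sᶜ = (sAbove M S)ᶜ := rfl

theorem galFrac_primeUnit (σ : M ≃ₐ[E] M) (w : HeightOneSpectrum (𝓞 M)) :
    galFrac σ (primeUnit M w) = primeUnit M (hsPrime σ w) := by
  apply Units.ext
  rw [coe_galFrac, coe_primeUnit, coe_primeUnit, galFracHom_coeIdeal, hsPrime_asIdeal]

/-- `σ` preserves the ideals supported above `S`. -/
theorem suppGrp_le_comap_galFrac (σ : M ≃ₐ[E] M) (S : Set (HeightOneSpectrum (𝓞 E))) :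
    suppGrp M (sAbove M S) ≤ (suppGrp M (sAbove M S)).comap (galFrac σ) := by
  rw [← Subgroup.map_le_iff_le_comap, suppGrp, MonoidHom.map_closure, Subgroup.closure_le]
  rintro _ ⟨_, ⟨w, hw, rfl⟩, rfl⟩
  rw [galFrac_primeUnit]
  refine primeUnit_mem_suppGrp M ?_
  rw [mem_sAbove, hsPrime_under]
  exact hw

theorem galFrac_mem_suppGrp (σ : M ≃ₐ[E] M) (S : Set (HeightOneSpectrum (𝓞 E)))
    {a : (FractionalIdeal (𝓞 M)⁰ M)ˣ} (ha : a ∈ suppGrp M (sAbove M S)) :
    galFrac σ a ∈ suppGrp M (sAbove M S) :=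
  suppGrp_le_comap_galFrac σ S ha

theorem normFrac_mem_suppGrp (σ : M ≃ₐ[E] M) (n : ℕ) (S : Set (HeightOneSpectrum (𝓞 E)))
    {a : (FractionalIdeal (𝓞 M)⁰ M)ˣ} (ha : a ∈ suppGrp M (sAbove M S)) :
    normFrac σ n a ∈ suppGrp M (sAbove M S) := by
  rw [normFrac_apply]
  exact Subgroup.prod_mem _ fun j _ => galFrac_mem_suppGrp (σ ^ j) S ha

theorem suppGrp_le_comap_normFrac (σ : M ≃ₐ[E] M) (n : ℕ) (S : Set (HeightOneSpectrum (𝓞 E))) :
    suppGrp M (sAbove M S) ≤ (suppGrp M (sAbove M S)).comap (normFrac σ n) :=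
  fun _ ha => normFrac_mem_suppGrp σ n S ha

variable (M) in
/-- The group of fractional ideals of `M` modulo the ideals supported above `S`. -/
def IS (S : Set (HeightOneSpectrum (𝓞 E))) : Type _ :=
  (FractionalIdeal (𝓞 M)⁰ M)ˣ ⧸ suppGrp M (sAbove M S)

noncomputable instance instCommGroupIS (S : Set (HeightOneSpectrum (𝓞 E))) : CommGroup (IS M S) :=
  inferInstanceAs (CommGroup ((FractionalIdeal (𝓞 M)⁰ M)ˣ ⧸ suppGrp M (sAbove M S)))

variable (M) in
/-- The projection to `IS M S`. -/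
noncomputable def mkS (S : Set (HeightOneSpectrum (𝓞 E))) :
    (FractionalIdeal (𝓞 M)⁰ M)ˣ →* IS M S :=
  QuotientGroup.mk' (suppGrp M (sAbove M S))

theorem mkS_surjective (S : Set (HeightOneSpectrum (𝓞 E))) : Function.Surjective (mkS M S) :=
  QuotientGroup.mk'_surjective _

theorem mkS_eq_one_iff (S : Set (HeightOneSpectrum (𝓞 E))) (a : (FractionalIdeal (𝓞 M)⁰ M)ˣ) :
    mkS M S a = 1 ↔ a ∈ suppGrp M (sAbove M S) :=
  QuotientGroup.eq_one_iff a

/-- The action of `σ` on `IS M S`. -/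
noncomputable def tS (σ : M ≃ₐ[E] M) (S : Set (HeightOneSpectrum (𝓞 E))) : IS M S →* IS M S :=
  QuotientGroup.map _ _ (galFrac σ) (suppGrp_le_comap_galFrac σ S)

/-- The norm on `IS M S`. -/
noncomputable def nIS (σ : M ≃ₐ[E] M) (n : ℕ) (S : Set (HeightOneSpectrum (𝓞 E))) :
    IS M S →* IS M S :=
  QuotientGroup.map _ _ (normFrac σ n) (suppGrp_le_comap_normFrac σ n S)

theorem tS_mkS (σ : M ≃ₐ[E] M) (S : Set (HeightOneSpectrum (𝓞 E)))
    (a : (FractionalIdeal (𝓞 M)⁰ M)ˣ) : tS σ S (mkS M S a) = mkS M S (galFrac σ a) := rfl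

theorem nIS_mkS (σ : M ≃ₐ[E] M) (n : ℕ) (S : Set (HeightOneSpectrum (𝓞 E)))
    (a : (FractionalIdeal (𝓞 M)⁰ M)ˣ) : nIS σ n S (mkS M S a) = mkS M S (normFrac σ n a) := rfl

variable (M) in
/-- The "`S`-ideal of" map `Mˣ → IS M S`. -/
noncomputable def dS (S : Set (HeightOneSpectrum (𝓞 E))) : Mˣ →* IS M S :=
  (mkS M S).comp (toPrincipalIdeal (𝓞 M) M)

theorem dS_apply (S : Set (HeightOneSpectrum (𝓞 E))) (x : Mˣ) :
    dS M S x = mkS M S (toPrincipalIdeal (𝓞 M) M x) := rfl

variable {p : ℕ} (hp : p.Prime) (hdeg : finrank E M = p) (σ : M ≃ₐ[E] M) (hσ : σ ≠ 1)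
  (S : Set (HeightOneSpectrum (𝓞 E)))

theorem dS_galUnits (x : Mˣ) : dS M S (galUnits σ x) = tS σ S (dS M S x) := by
  rw [dS_apply, toPrincipalIdeal_galUnits, dS_apply, tS_mkS]

include hp hdeg hσ in
theorem dS_normUnits (x : Mˣ) : dS M S (normUnits E M x) = nIS σ p S (dS M S x) := by
  rw [dS_apply, toPrincipalIdeal_normUnits hp hdeg σ hσ, dS_apply, nIS_mkS]

include hp hdeg in
theorem tS_nIS (a : IS M S) : tS σ S (nIS σ p S a) = nIS σ p S a := by
  obtain ⟨a, rfl⟩ := mkS_surjective S a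
  rw [nIS_mkS, tS_mkS, galFrac_normFrac hp hdeg σ]

include hp hdeg in
theorem nIS_tS (a : IS M S) : nIS σ p S (tS σ S a) = nIS σ p S a := by
  obtain ⟨a, rfl⟩ := mkS_surjective S a
  rw [tS_mkS, nIS_mkS, nIS_mkS, normFrac_galFrac hp hdeg σ]

include hp hdeg hσ in
/-- "Hilbert 90" for ideals modulo `S`. -/
theorem exists_eq_tS_div_of_nIS_eq_one (a : IS M S) (ha : nIS σ p S a = 1) :
    ∃ b : IS M S, a = tS σ S b / b := by
  obtain ⟨a, rfl⟩ := mkS_surjective S a
  obtain ⟨t, ht, q, hq, rfl⟩ := exists_mul_of_suppGrp M (sAbove M S) a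
  rw [nIS_mkS, mkS_eq_one_iff] at ha
  have hNq : normFrac σ p q ∈ suppGrp M (sAbove M S) := by
    have h1 : normFrac σ p q = normFrac σ p (t * q) / normFrac σ p t := by
      rw [map_mul, mul_div_cancel_left]
    rw [h1]
    exact div_mem ha (normFrac_mem_suppGrp σ p S ht)
  have hNq' : normFrac σ p q ∈ suppGrp M (sAbove M S)ᶜ := by
    rw [← sAbove_compl] at hq ⊢
    exact normFrac_mem_suppGrp σ p Sᶜ hq
  have hNq1 : normFrac σ p q = 1 := by
    have h2 : normFrac σ p q ∈ suppGrp M (sAbove M S) ⊓ suppGrp M (sAbove M S)ᶜ :=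
      ⟨hNq, hNq'⟩
    rw [suppGrp_inf_compl] at h2
    exact h2
  obtain ⟨b, hb⟩ := exists_eq_galFrac_div_of_normFrac_eq_one σ (mem_zpowers_sigma hp hdeg σ hσ) q
    (by rw [orderOf_sigma hp hdeg σ hσ]; exact hNq1)
  refine ⟨mkS M S b, ?_⟩
  have e1 : mkS M S (t * q) = mkS M S q := by
    have h3 := map_mul (mkS M S) t q
    rw [(mkS_eq_one_iff S t).mpr ht] at h3
    exact h3.trans (one_mul (mkS M S q))
  have e2 : mkS M S q = mkS M S (galFrac σ b) / mkS M S b :=
    (congrArg (mkS M S) hb).trans (map_div (mkS M S) _ _)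
  rw [tS_mkS, e1, e2]

/-- The class group modulo `S` is finite. -/
theorem index_range_dS_ne_zero : (dS M S).range.index ≠ 0 := by
  have h1 : (dS M S).range = (toPrincipalIdeal (𝓞 M) M).range.map (mkS M S) := by
    rw [dS, MonoidHom.range_comp]
  rw [h1, Subgroup.index_map, MonoidHom.range_eq_top.mpr (mkS_surjective S), Subgroup.index_top,
    mul_one]
  intro h0
  have hdvd := Subgroup.index_dvd_of_le
    (le_sup_left : (toPrincipalIdeal (𝓞 M) M).range ≤
      (toPrincipalIdeal (𝓞 M) M).range ⊔ (mkS M S).ker)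
  rw [h0] at hdvd
  exact index_range_toPrincipalIdeal_ne_zero M (eq_zero_of_zero_dvd hdvd)

theorem withZero_log_eq_zero_iff {x : WithZero (Multiplicative ℤ)} (hx : x ≠ 0) :
    WithZero.log x = 0 ↔ x = 1 := by
  constructor
  · intro h
    rw [← WithZero.exp_log hx, h, WithZero.exp_zero]
  · rintro rfl
    exact WithZero.log_one

/-- The kernel of `dS` is the group of `S`-units of `M`. -/
theorem ker_dS : (dS M S).ker = (sAbove M S).unit M := by
  ext x
  rw [MonoidHom.mem_ker, dS_apply, mkS_eq_one_iff, mem_suppGrp_iff]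
  change _ ↔ ∀ v ∉ sAbove M S, v.valuation M (x : M) = 1
  refine forall₂_congr fun v _ => ?_
  rw [coe_toPrincipalIdeal, ln_count_spanSingleton v x.ne_zero, neg_eq_zero,
    withZero_log_eq_zero_iff ((Valuation.ne_zero_iff _).mpr x.ne_zero)]

end Fermat.Agent.CFT.HNT
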