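import Mathlib
import Fermat.Agent.CFT.HNT.SQuot
import Fermat.Agent.CFT.HNT.HerbrandSMain
import Fermat.Agent.CFT.HNT.Main

/-!
# Exponents of conjugate, extended and norm ideals

Formulas for `FractionalIdeal.count` of `galFrac σ a`, `normFrac σ n a` and `extFrac E M b`, the
realisation of prescribed exponents by norms (`exists_count_normFrac_eq`), and the description of
the `σ`-invariant ideals prime to `S` as extended ideals.
-/

namespace Fermat.Agent.CFT.HNT

open NumberField nonZeroDivisors IsDedekindDomain Pointwise Module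

set_option linter.unusedSectionVars false

section Dedekind

variable {R : Type*} [CommRing R] [IsDedekindDomain R] (K : Type*) [Field K] [Algebra R K]
  [IsFractionRing R K]

theorem cnt_mul (v : HeightOneSpectrum R) (a b : (FractionalIdeal R⁰ K)ˣ) :
    FractionalIdeal.count K v ((a * b : (FractionalIdeal R⁰ K)ˣ) : FractionalIdeal R⁰ K) =
      FractionalIdeal.count K v (a : FractionalIdeal R⁰ K) +
        FractionalIdeal.count K v (b : FractionalIdeal R⁰ K) := by
  rw [Units.val_mul]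
  exact FractionalIdeal.count_mul K v a.ne_zero b.ne_zero

theorem cnt_one (v : HeightOneSpectrum R) :
    FractionalIdeal.count K v ((1 : (FractionalIdeal R⁰ K)ˣ) : FractionalIdeal R⁰ K) = 0 := by
  rw [Units.val_one]
  exact FractionalIdeal.count_one K v

theorem cnt_inv (v : HeightOneSpectrum R) (a : (FractionalIdeal R⁰ K)ˣ) :
    FractionalIdeal.count K v ((a⁻¹ : (FractionalIdeal R⁰ K)ˣ) : FractionalIdeal R⁰ K) =
      -FractionalIdeal.count K v (a : FractionalIdeal R⁰ K) := by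
  have h := cnt_mul K v a⁻¹ a
  rw [inv_mul_cancel, cnt_one] at h
  linarith

theorem cnt_div (v : HeightOneSpectrum R) (a b : (FractionalIdeal R⁰ K)ˣ) :
    FractionalIdeal.count K v ((a / b : (FractionalIdeal R⁰ K)ˣ) : FractionalIdeal R⁰ K) =
      FractionalIdeal.count K v (a : FractionalIdeal R⁰ K) -
        FractionalIdeal.count K v (b : FractionalIdeal R⁰ K) := by
  rw [div_eq_mul_inv, cnt_mul, cnt_inv]
  ring

theorem cnt_pow (v : HeightOneSpectrum R) (a : (FractionalIdeal R⁰ K)ˣ) (n : ℕ) :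
    FractionalIdeal.count K v ((a ^ n : (FractionalIdeal R⁰ K)ˣ) : FractionalIdeal R⁰ K) =
      n * FractionalIdeal.count K v (a : FractionalIdeal R⁰ K) := by
  rw [Units.val_pow_eq_pow_val]
  exact FractionalIdeal.count_pow K v n _

theorem cnt_prod (v : HeightOneSpectrum R) {ι : Type*} (s : Finset ι)
    (f : ι → (FractionalIdeal R⁰ K)ˣ) :
    FractionalIdeal.count K v ((∏ i ∈ s, f i : (FractionalIdeal R⁰ K)ˣ) : FractionalIdeal R⁰ K) =
      ∑ i ∈ s, FractionalIdeal.count K v (f i : FractionalIdeal R⁰ K) := by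
  rw [Units.coe_prod]
  exact FractionalIdeal.count_prod K v s _ (fun i _ => (f i).ne_zero)

/-- Two invertible fractional ideals with the same exponents are equal. -/
theorem eq_of_forall_count_eq (a b : (FractionalIdeal R⁰ K)ˣ)
    (h : ∀ v : HeightOneSpectrum R, FractionalIdeal.count K v (a : FractionalIdeal R⁰ K) =
      FractionalIdeal.count K v (b : FractionalIdeal R⁰ K)) : a = b := by
  have h1 : a / b = 1 := by
    apply eq_one_of_forall_count_eq_zero
    intro v
    rw [cnt_div, h v, sub_self]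
  exact div_eq_one.mp h1

/-- Invertible fractional ideals with prescribed (finitely supported) exponents exist. -/
theorem exists_count_eq (exps : HeightOneSpectrum R → ℤ) (h : {v | exps v ≠ 0}.Finite) :
    ∃ b : (FractionalIdeal R⁰ K)ˣ, ∀ v : HeightOneSpectrum R,
      FractionalIdeal.count K v (b : FractionalIdeal R⁰ K) = exps v := by
  have hne : (∏ᶠ v : HeightOneSpectrum R, (v.asIdeal : FractionalIdeal R⁰ K) ^ exps v) ≠ 0 := by
    apply finprod_induction (p := fun x : FractionalIdeal R⁰ K => x ≠ 0) one_ne_zero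
      (fun x y hx hy => mul_ne_zero hx hy)
    intro v
    exact zpow_ne_zero _ (FractionalIdeal.coeIdeal_ne_zero.mpr v.ne_bot)
  refine ⟨Units.mk0 _ hne, fun v => ?_⟩
  rw [Units.val_mk0]
  exact FractionalIdeal.count_finprod K v exps (Filter.eventually_cofinite.mpr h)

/-- Two ideals with the same exponents outside `T` have the same class modulo `suppGrp K T`. -/
theorem div_mem_suppGrp_of_forall_count_eq (T : Set (HeightOneSpectrum R))
    (a b : (FractionalIdeal R⁰ K)ˣ)
    (h : ∀ v : HeightOneSpectrum R, v ∉ T → FractionalIdeal.count K v (a : FractionalIdeal R⁰ K) =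
      FractionalIdeal.count K v (b : FractionalIdeal R⁰ K)) : a / b ∈ suppGrp K T := by
  rw [mem_suppGrp_iff]
  intro v hv
  rw [cnt_div, h v hv, sub_self]

end Dedekind

variable {E M : Type*} [Field E] [Field M] [NumberField E] [NumberField M] [Algebra E M]
  [IsGalois E M]

theorem hsPrime_injective (σ : M ≃ₐ[E] M) :
    Function.Injective (hsPrime σ : HeightOneSpectrum (𝓞 M) → HeightOneSpectrum (𝓞 M)) := by
  intro w w' h
  apply HeightOneSpectrum.ext
  have h1 := congrArg HeightOneSpectrum.asIdeal h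
  rw [hsPrime_asIdeal, hsPrime_asIdeal] at h1
  exact smul_left_cancel σ h1

/-- The exponent of `σ w` in `σ a` is the exponent of `w` in `a`. -/
theorem count_galFrac (σ : M ≃ₐ[E] M) (w : HeightOneSpectrum (𝓞 M))
    (a : (FractionalIdeal (𝓞 M)⁰ M)ˣ) :
    FractionalIdeal.count M (hsPrime σ w) (galFrac σ a : FractionalIdeal (𝓞 M)⁰ M) =
      FractionalIdeal.count M w (a : FractionalIdeal (𝓞 M)⁰ M) := by
  classical
  have key : (countHom M (hsPrime σ w)).comp (galFrac σ) = countHom M w := by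
    apply MonoidHom.eq_of_eqOn_dense
      (show Subgroup.closure (primeUnit M '' (Set.univ : Set (HeightOneSpectrum (𝓞 M)))) = ⊤ from
        suppGrp_univ M)
    rintro _ ⟨w', -, rfl⟩
    rw [MonoidHom.comp_apply, galFrac_primeUnit, countHom_apply, countHom_apply, coe_primeUnit,
      coe_primeUnit, FractionalIdeal.count_maximal, FractionalIdeal.count_maximal]
    by_cases h : w' = w
    · rw [if_pos h, if_pos (by rw [h])]
    · rw [if_neg h, if_neg (fun h' => h (hsPrime_injective σ h'))]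
  have h2 := DFunLike.congr_fun key a
  rw [MonoidHom.comp_apply, countHom_apply, countHom_apply] at h2
  exact Multiplicative.ofAdd.injective h2

theorem count_galFrac' (σ : M ≃ₐ[E] M) (w : HeightOneSpectrum (𝓞 M))
    (a : (FractionalIdeal (𝓞 M)⁰ M)ˣ) :
    FractionalIdeal.count M w (galFrac σ a : FractionalIdeal (𝓞 M)⁰ M) =
      FractionalIdeal.count M (hsPrime σ⁻¹ w) (a : FractionalIdeal (𝓞 M)⁰ M) := by
  have h := count_galFrac σ (hsPrime σ⁻¹ w) a
  rw [hsPrime_smul_inv] at h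
  exact h

theorem count_normFrac (σ : M ≃ₐ[E] M) (n : ℕ) (w : HeightOneSpectrum (𝓞 M))
    (a : (FractionalIdeal (𝓞 M)⁰ M)ˣ) :
    FractionalIdeal.count M w (normFrac σ n a : FractionalIdeal (𝓞 M)⁰ M) =
      ∑ j ∈ Finset.range n,
        FractionalIdeal.count M (hsPrime (σ ^ j)⁻¹ w) (a : FractionalIdeal (𝓞 M)⁰ M) := by
  rw [normFrac_apply, cnt_prod]
  exact Finset.sum_congr rfl fun j _ => count_galFrac' (σ ^ j) w a

/-- The exponent of `w` in an extended ideal. -/
theorem count_extFrac (w : HeightOneSpectrum (𝓞 M)) (b : (FractionalIdeal (𝓞 E)⁰ E)ˣ) :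
    FractionalIdeal.count M w (extFrac E M b : FractionalIdeal (𝓞 M)⁰ M) =
      ((w.under (𝓞 E)).asIdeal.ramificationIdx' w.asIdeal : ℤ) *
        FractionalIdeal.count E (w.under (𝓞 E)) (b : FractionalIdeal (𝓞 E)⁰ E) := by
  have hlo : w.asIdeal.LiesOver (w.under (𝓞 E)).asIdeal := ⟨rfl⟩
  generalize he : (w.under (𝓞 E)).asIdeal.ramificationIdx' w.asIdeal = e
  set h := (toPrincipalIdeal (𝓞 E) E).range.index with hh
  have hh0 : h ≠ 0 := index_range_toPrincipalIdeal_ne_zero E
  obtain ⟨x, hx⟩ : b ^ h ∈ (toPrincipalIdeal (𝓞 E) E).range := Subgroup.pow_index_mem _ b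
  have h1 : FractionalIdeal.count M w (extFrac E M (b ^ h) : FractionalIdeal (𝓞 M)⁰ M) =
      (e : ℤ) * FractionalIdeal.count E (w.under (𝓞 E)) ((b ^ h : (FractionalIdeal (𝓞 E)⁰ E)ˣ) :
        FractionalIdeal (𝓞 E)⁰ E) := by
    rw [← hx, coe_extFrac, coe_toPrincipalIdeal, extendedHom_spanSingleton_algebraMap,
      ln_count_spanSingleton w ((map_ne_zero (algebraMap E M)).mpr x.ne_zero),
      ln_count_spanSingleton (w.under (𝓞 E)) x.ne_zero,
      ← HeightOneSpectrum.valuation_liesOver M (w.under (𝓞 E)) w (x : E), WithZero.log_pow, he,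
      nsmul_eq_mul]
    ring
  rw [map_pow, cnt_pow, cnt_pow] at h1
  have h2 : (h : ℤ) * FractionalIdeal.count M w (extFrac E M b : FractionalIdeal (𝓞 M)⁰ M) =
      (h : ℤ) * ((e : ℤ) * FractionalIdeal.count E (w.under (𝓞 E))
        (b : FractionalIdeal (𝓞 E)⁰ E)) := by
    rw [h1]; ring
  exact mul_left_cancel₀ (Int.natCast_ne_zero.mpr hh0) h2

/-- The exponent of an unramified `w` in an extended ideal. -/
theorem count_extFrac_of_unramified (w : HeightOneSpectrum (𝓞 M))
    (hw : w.asIdeal.ramificationIdx (𝓞 E) = 1) (b : (FractionalIdeal (𝓞 E)⁰ E)ˣ) :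
    FractionalIdeal.count M w (extFrac E M b : FractionalIdeal (𝓞 M)⁰ M) =
      FractionalIdeal.count E (w.under (𝓞 E)) (b : FractionalIdeal (𝓞 E)⁰ E) := by
  have hlo : w.asIdeal.LiesOver (w.under (𝓞 E)).asIdeal := ⟨rfl⟩
  rw [count_extFrac, Ideal.ramificationIdx'_eq_ramificationIdx (w.under (𝓞 E)).asIdeal w.asIdeal
    (w.under (𝓞 E)).ne_bot, hw, Nat.cast_one, one_mul]

variable {p : ℕ} (hp : p.Prime) (hdeg : finrank E M = p) (σ : M ≃ₐ[E] M) (hσ : σ ≠ 1)

include hp hdeg hσ in
/-- The Galois group acts transitively on the primes above a given prime, in terms of powers of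
`σ` with exponent `< p`. -/
theorem exists_hsPrime_pow_inv_eq (w w' : HeightOneSpectrum (𝓞 M))
    (h : w'.under (𝓞 E) = w.under (𝓞 E)) :
    ∃ j ∈ Finset.range p, w' = hsPrime (σ ^ j)⁻¹ w := by
  have hlo : w.asIdeal.LiesOver (w.under (𝓞 E)).asIdeal := ⟨rfl⟩
  have hlo' : w'.asIdeal.LiesOver (w.under (𝓞 E)).asIdeal :=
    ⟨(congrArg HeightOneSpectrum.asIdeal h).symm⟩
  obtain ⟨τ, hτ⟩ := Ideal.exists_smul_eq_of_isGaloisGroup (w.under (𝓞 E)).asIdeal
    w.asIdeal w'.asIdeal (M ≃ₐ[E] M)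
  obtain ⟨i, hi⟩ := forall_exists_pow hp hdeg σ hσ τ⁻¹
  have ho := orderOf_sigma hp hdeg σ hσ
  refine ⟨i % p, Finset.mem_range.mpr (Nat.mod_lt _ hp.pos), ?_⟩
  have h1 : σ ^ (i % p) = τ⁻¹ := by
    rw [hi, ← ho, pow_mod_orderOf]
  rw [h1, inv_inv]
  apply HeightOneSpectrum.ext
  rw [hsPrime_asIdeal]
  exact hτ.symm

include hp hdeg hσ in
/-- For a prime that is not non-split, the conjugates `σ^{-j} w`, `j < p`, are distinct. -/
theorem eq_of_hsPrime_pow_inv_eq (w : HeightOneSpectrum (𝓞 M))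
    (hns : ¬ IsNonSplit M (w.under (𝓞 E))) {i j : ℕ} (hi : i ∈ Finset.range p)
    (hj : j ∈ Finset.range p) (h : hsPrime (σ ^ i)⁻¹ w = hsPrime (σ ^ j)⁻¹ w) : i = j := by
  by_contra hne
  apply hns
  have ho := orderOf_sigma hp hdeg σ hσ
  have h1 := congrArg HeightOneSpectrum.asIdeal h
  rw [hsPrime_asIdeal, hsPrime_asIdeal] at h1
  -- `g = σ^i * (σ^j)⁻¹` fixes `w`
  have h2 : (σ ^ i * (σ ^ j)⁻¹) • w.asIdeal = w.asIdeal := by
    rw [mul_smul, ← h1, smul_inv_smul]
  have hg : σ ^ i * (σ ^ j)⁻¹ ≠ 1 := by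
    intro hg
    have h3 : σ ^ i = σ ^ j := mul_inv_eq_one.mp hg
    apply hne
    apply pow_injOn_Iio_orderOf (x := σ)
    · rw [ho]; exact Finset.mem_range.mp hi
    · rw [ho]; exact Finset.mem_range.mp hj
    · exact h3
  have hcard : Nat.card (M ≃ₐ[E] M) = p := by
    rw [IsGalois.card_aut_eq_finrank, hdeg]
  have : Fact (Nat.card (M ≃ₐ[E] M)).Prime := ⟨hcard ▸ hp⟩
  have hstab := Subgroup.eq_bot_or_eq_top_of_prime_card
    (MulAction.stabilizer (M ≃ₐ[E] M) w.asIdeal)
  have hmem : σ ^ i * (σ ^ j)⁻¹ ∈ MulAction.stabilizer (M ≃ₐ[E] M) w.asIdeal :=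
    MulAction.mem_stabilizer_iff.mpr h2
  rcases hstab with hbot | htop
  · rw [hbot, Subgroup.mem_bot] at hmem
    exact absurd hmem hg
  · have hσmem : σ ∈ MulAction.stabilizer (M ≃ₐ[E] M) w.asIdeal := by
      rw [htop]; exact Subgroup.mem_top σ
    exact (isNonSplit_iff_exists_smul hp hdeg σ hσ (w.under (𝓞 E))).mpr
      ⟨w, rfl, MulAction.mem_stabilizer_iff.mp hσmem⟩

include hp hdeg hσ in
/-- **Norm realisation**: prescribed exponents `c v` (divisible by `p` at the non-split primes)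
are the exponents of a norm. -/
theorem exists_count_normFrac_eq (c : HeightOneSpectrum (𝓞 E) → ℤ) (hc : {v | c v ≠ 0}.Finite)
    (hdiv : ∀ v, IsNonSplit M v → (p : ℤ) ∣ c v) :
    ∃ b : (FractionalIdeal (𝓞 M)⁰ M)ˣ, ∀ w : HeightOneSpectrum (𝓞 M),
      FractionalIdeal.count M w (normFrac σ p b : FractionalIdeal (𝓞 M)⁰ M) =
        c (w.under (𝓞 E)) := by
  classical
  choose W hW using fun v : HeightOneSpectrum (𝓞 E) => hs_exists_under (M := M) v
  let d : HeightOneSpectrum (𝓞 E) → ℤ := fun v => if IsNonSplit M v then c v / p else c v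
  let exps : HeightOneSpectrum (𝓞 M) → ℤ :=
    fun w => if W (w.under (𝓞 E)) = w then d (w.under (𝓞 E)) else 0
  have hd0 : ∀ v, c v = 0 → d v = 0 := by
    intro v hv
    change (if IsNonSplit M v then c v / p else c v) = 0
    rw [hv]
    split_ifs
    · exact Int.zero_ediv _
    · rfl
  have hfin : {w | exps w ≠ 0}.Finite := by
    refine (hc.image W).subset ?_
    intro w hw
    have hw' : (if W (w.under (𝓞 E)) = w then d (w.under (𝓞 E)) else 0) ≠ 0 := hw
    by_cases h : W (w.under (𝓞 E)) = w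
    · rw [if_pos h] at hw'
      exact ⟨w.under (𝓞 E), fun hc0 => hw' (hd0 _ hc0), h⟩
    · rw [if_neg h] at hw'
      exact absurd rfl hw'
  obtain ⟨b, hb⟩ := exists_count_eq M exps hfin
  refine ⟨b, fun w => ?_⟩
  rw [count_normFrac]
  have hunder : ∀ j : ℕ, (hsPrime (σ ^ j)⁻¹ w).under (𝓞 E) = w.under (𝓞 E) :=
    fun j => hsPrime_under _ w
  have hterm : ∀ j ∈ Finset.range p,
      FractionalIdeal.count M (hsPrime (σ ^ j)⁻¹ w) (b : FractionalIdeal (𝓞 M)⁰ M) =
        if W (w.under (𝓞 E)) = hsPrime (σ ^ j)⁻¹ w then d (w.under (𝓞 E)) else 0 := by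
    intro j _
    rw [hb]
    change (if W ((hsPrime (σ ^ j)⁻¹ w).under (𝓞 E)) = hsPrime (σ ^ j)⁻¹ w then
      d ((hsPrime (σ ^ j)⁻¹ w).under (𝓞 E)) else 0) = _
    rw [hunder j]
  rw [Finset.sum_congr rfl hterm]
  by_cases hns : IsNonSplit M (w.under (𝓞 E))
  · have hall : ∀ j ∈ Finset.range p,
        (if W (w.under (𝓞 E)) = hsPrime (σ ^ j)⁻¹ w then d (w.under (𝓞 E)) else 0) =
          d (w.under (𝓞 E)) := by
      intro j _
      rw [if_pos ((isNonSplit_iff_subsingleton (w.under (𝓞 E))).mp hns _ _ (hW _) (hunder j))]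
    rw [Finset.sum_congr rfl hall, Finset.sum_const, Finset.card_range, nsmul_eq_mul]
    change (p : ℤ) * (if IsNonSplit M (w.under (𝓞 E)) then c (w.under (𝓞 E)) / p
      else c (w.under (𝓞 E))) = _
    rw [if_pos hns]
    exact Int.mul_ediv_cancel' (hdiv _ hns)
  · have hdv : d (w.under (𝓞 E)) = c (w.under (𝓞 E)) := by
      change (if IsNonSplit M (w.under (𝓞 E)) then c (w.under (𝓞 E)) / p
        else c (w.under (𝓞 E))) = _
      rw [if_neg hns]
    obtain ⟨j₀, hj₀, hWj⟩ := exists_hsPrime_pow_inv_eq hp hdeg σ hσ w (W (w.under (𝓞 E))) (hW _)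
    rw [Finset.sum_eq_single_of_mem j₀ hj₀, if_pos hWj, hdv]
    intro j hj hne
    rw [if_neg]
    intro hWj'
    exact hne (eq_of_hsPrime_pow_inv_eq hp hdeg σ hσ w hns hj hj₀ (hWj'.symm.trans hWj))

theorem mkS_eq_mkS_of_div_mem (S : Set (HeightOneSpectrum (𝓞 E)))
    {a b : (FractionalIdeal (𝓞 M)⁰ M)ˣ} (h : a / b ∈ suppGrp M (sAbove M S)) :
    mkS M S a = mkS M S b :=
  QuotientGroup.eq_iff_div_mem.mpr h

theorem galFrac_pow_eq_of_eq (q : (FractionalIdeal (𝓞 M)⁰ M)ˣ) (hinv : galFrac σ q = q) (j : ℕ) :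
    galFrac (σ ^ j) q = q := by
  induction j with
  | zero => rw [pow_zero, galFrac_one]
  | succ j ih => rw [pow_succ, galFrac_mul, hinv, ih]

theorem galFrac_pow_inv_eq_of_eq (q : (FractionalIdeal (𝓞 M)⁰ M)ˣ) (hinv : galFrac σ q = q)
    (j : ℕ) : galFrac (σ ^ j)⁻¹ q = q := by
  have h1 := galFrac_pow_eq_of_eq σ q hinv j
  have h2 : galFrac ((σ ^ j)⁻¹ * σ ^ j) q = q := by rw [inv_mul_cancel, galFrac_one]
  rw [galFrac_mul, h1] at h2
  exact h2

include hp hdeg hσ in
/-- An extended ideal whose exponents at the non-split primes outside `S` are divisible by `p`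
is a norm modulo the ideals supported above `S` (`S` contains the ramified primes). -/
theorem mkS_extFrac_mem_range_nIS (S : Set (HeightOneSpectrum (𝓞 E)))
    (hur : ∀ w : HeightOneSpectrum (𝓞 M), w.under (𝓞 E) ∉ S →
      w.asIdeal.ramificationIdx (𝓞 E) = 1)
    (b : (FractionalIdeal (𝓞 E)⁰ E)ˣ)
    (hb : ∀ v : HeightOneSpectrum (𝓞 E), v ∉ S → IsNonSplit M v →
      (p : ℤ) ∣ FractionalIdeal.count E v (b : FractionalIdeal (𝓞 E)⁰ E)) :
    mkS M S (extFrac E M b) ∈ (nIS σ p S).range := by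
  classical
  let c : HeightOneSpectrum (𝓞 E) → ℤ :=
    fun v => if v ∈ S then 0 else FractionalIdeal.count E v (b : FractionalIdeal (𝓞 E)⁰ E)
  have hc : {v | c v ≠ 0}.Finite := by
    refine (Filter.eventually_cofinite.mp
      (FractionalIdeal.finite_factors (b : FractionalIdeal (𝓞 E)⁰ E))).subset ?_
    intro v hv
    have hv' : (if v ∈ S then 0 else
      FractionalIdeal.count E v (b : FractionalIdeal (𝓞 E)⁰ E)) ≠ 0 := hv
    by_cases hS : v ∈ S
    · rw [if_pos hS] at hv'
      exact absurd rfl hv'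
    · rw [if_neg hS] at hv'
      exact hv'
  have hdiv : ∀ v, IsNonSplit M v → (p : ℤ) ∣ c v := by
    intro v hv
    change (p : ℤ) ∣ (if v ∈ S then 0 else
      FractionalIdeal.count E v (b : FractionalIdeal (𝓞 E)⁰ E))
    by_cases hS : v ∈ S
    · rw [if_pos hS]
      exact dvd_zero _
    · rw [if_neg hS]
      exact hb v hS hv
  obtain ⟨b', hb'⟩ := exists_count_normFrac_eq hp hdeg σ hσ c hc hdiv
  refine ⟨mkS M S b', ?_⟩
  rw [nIS_mkS]
  apply mkS_eq_mkS_of_div_mem
  apply div_mem_suppGrp_of_forall_count_eq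
  intro w hw
  have hw' : w.under (𝓞 E) ∉ S := hw
  rw [hb' w, count_extFrac_of_unramified w (hur w hw') b]
  change (if w.under (𝓞 E) ∈ S then 0 else
    FractionalIdeal.count E (w.under (𝓞 E)) (b : FractionalIdeal (𝓞 E)⁰ E)) = _
  rw [if_neg hw']

include hp hdeg hσ in
/-- A `σ`-invariant fractional ideal of `M` supported outside `S` is extended from a fractional
ideal of `E` supported outside `S` (`S` contains the ramified primes). -/
theorem exists_extFrac_eq_of_galFrac_eq_of_mem (S : Set (HeightOneSpectrum (𝓞 E)))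
    (hur : ∀ w : HeightOneSpectrum (𝓞 M), w.under (𝓞 E) ∉ S →
      w.asIdeal.ramificationIdx (𝓞 E) = 1)
    (q : (FractionalIdeal (𝓞 M)⁰ M)ˣ) (hq : q ∈ suppGrp M (sAbove M S)ᶜ)
    (hinv : galFrac σ q = q) :
    ∃ b ∈ suppGrp E Sᶜ, extFrac E M b = q := by
  classical
  choose W hW using fun v : HeightOneSpectrum (𝓞 E) => hs_exists_under (M := M) v
  let exps : HeightOneSpectrum (𝓞 E) → ℤ :=
    fun v => if v ∈ S then 0 else
      FractionalIdeal.count M (W v) (q : FractionalIdeal (𝓞 M)⁰ M)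
  have hfin : {v | exps v ≠ 0}.Finite := by
    have h1 := (Filter.eventually_cofinite.mp
      (FractionalIdeal.finite_factors (q : FractionalIdeal (𝓞 M)⁰ M))).image
        (fun w : HeightOneSpectrum (𝓞 M) => w.under (𝓞 E))
    refine h1.subset ?_
    intro v hv
    have hv' : (if v ∈ S then 0 else
      FractionalIdeal.count M (W v) (q : FractionalIdeal (𝓞 M)⁰ M)) ≠ 0 := hv
    by_cases hS : v ∈ S
    · rw [if_pos hS] at hv'
      exact absurd rfl hv'
    · rw [if_neg hS] at hv'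
      exact ⟨W v, hv', hW v⟩
  obtain ⟨b, hb⟩ := exists_count_eq E exps hfin
  have hbS : ∀ v, v ∈ S → FractionalIdeal.count E v (b : FractionalIdeal (𝓞 E)⁰ E) = 0 := by
    intro v hv
    rw [hb v]
    change (if v ∈ S then 0 else _) = 0
    rw [if_pos hv]
  refine ⟨b, ?_, ?_⟩
  · rw [mem_suppGrp_iff]
    intro v hv
    exact hbS v (Set.notMem_compl_iff.mp hv)
  · apply eq_of_forall_count_eq M
    intro w
    by_cases hS : w.under (𝓞 E) ∈ S
    · rw [count_extFrac, hbS _ hS, mul_zero]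
      symm
      apply count_eq_zero_of_mem_suppGrp M hq
      intro hw
      exact hw hS
    · rw [count_extFrac_of_unramified w (hur w hS) b, hb]
      change (if w.under (𝓞 E) ∈ S then 0 else
        FractionalIdeal.count M (W (w.under (𝓞 E))) (q : FractionalIdeal (𝓞 M)⁰ M)) = _
      rw [if_neg hS]
      obtain ⟨j, -, hj⟩ := exists_hsPrime_pow_inv_eq hp hdeg σ hσ w (W (w.under (𝓞 E))) (hW _)
      rw [hj]
      have h2 := count_galFrac (σ ^ j)⁻¹ w q
      rw [galFrac_pow_inv_eq_of_eq σ q hinv j] at h2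
      exact h2

end Fermat.Agent.CFT.HNT
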