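import Mathlib
import Fermat.Agent.CFT.HNT.SGal
import Fermat.Agent.CFT.Ray.RayGroup

/-!
# The second inequality with modulus, in the shape of the abstract Hasse norm theorem

`M/E` cyclic of prime degree `p` with generator `σ`, `S` a set of primes of `E` containing the
ramified ones, `m` an ideal of `𝓞 E` whose prime divisors are exactly the primes in `S`.
From the universal norm index inequality for the ray class group modulo `m` (hypothesis `hSI`, the
statement of `Ray.ray_index_le_finrank`) we deduce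
`[𝕀_S^σ : d_S(E_{m,1}) · N(𝕀_S)] ≤ p` (and `≠ 0`), where `𝕀_S = IS M S` and `E_{m,1}` is
`rayUnits M m`, the subgroup of `Mˣ` generated by the integers of `E` congruent to `1` mod `m`.
-/

namespace Fermat.Agent.CFT.HNT

open NumberField nonZeroDivisors IsDedekindDomain Pointwise Module
open Fermat.Agent.CFT.Ray

set_option linter.unusedSectionVars false

universe u v

/-- Abstract lemma: a monoid homomorphism `cl₀ : C → 𝕀` with values in `Iσ` whose image generates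
`Iσ` modulo `X` induces a surjection of `C` onto a group of order `[Iσ : X ∩ Iσ]` with kernel
`cl₀⁻¹ X`. -/
theorem exists_group_of_forall_div_mem {C : Type*} [CommMonoid C] {𝕀 : Type v} [CommGroup 𝕀]
    (Iσ X : Subgroup 𝕀) (cl₀ : C →* 𝕀) (h1 : ∀ c, cl₀ c ∈ Iσ)
    (h2 : ∀ y ∈ Iσ, ∃ c, cl₀ c / y ∈ X) :
    ∃ (G : Type v) (_ : CommGroup G) (cl : C →* G), Function.Surjective cl ∧
      (∀ c, cl c = 1 ↔ cl₀ c ∈ X) ∧ Nat.card G = X.relIndex Iσ := by
  refine ⟨↥(Iσ.map (QuotientGroup.mk' X)), inferInstance,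
    ((QuotientGroup.mk' X).comp cl₀).codRestrict (Iσ.map (QuotientGroup.mk' X))
      (fun c => Subgroup.mem_map_of_mem _ (h1 c)), ?_, ?_, ?_⟩
  · rintro ⟨g, y, hy, rfl⟩
    obtain ⟨c, hc⟩ := h2 y hy
    refine ⟨c, Subtype.ext ?_⟩
    exact QuotientGroup.eq_iff_div_mem.mpr hc
  · intro c
    rw [Subtype.ext_iff]
    exact QuotientGroup.eq_one_iff _
  · have h := Subgroup.relIndex_map_map (QuotientGroup.mk' X) ⊥ Iσ
    rw [Subgroup.map_bot, Subgroup.relIndex_bot_left, QuotientGroup.ker_mk', bot_sup_eq,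
      Subgroup.relIndex_sup_right] at h
    exact h

theorem commGroup_aux1 {G : Type*} [CommGroup G] (a b c d : G) :
    b / d = a * b / (c * d) * (c / a) := by
  have h1 : a * b * c = b * (a * c) := by ac_rfl
  have h2 : c * d * a = d * (a * c) := by ac_rfl
  rw [div_mul_div_comm, h1, h2, mul_div_mul_right_eq_div]

theorem commGroup_aux2 {G : Type*} [CommGroup G] (q x t : G) :
    q * x / (t * q) = t⁻¹ * x := by
  have h : t⁻¹ * x * (t * q) = q * x * (t⁻¹ * t) := by ac_rfl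
  rw [div_eq_iff_eq_mul, h, inv_mul_cancel, mul_one]

variable {E : Type u} {M : Type v} [Field E] [Field M] [NumberField E] [NumberField M]
  [Algebra E M] [IsGalois E M]

variable (M) in
/-- The subgroup of `Mˣ` generated by the nonzero integers of `E` congruent to `1` modulo `m`. -/
def rayUnits (m : Ideal (𝓞 E)) : Subgroup Mˣ :=
  Subgroup.closure {x : Mˣ | ∃ a : 𝓞 E, a - 1 ∈ m ∧ (x : M) = algebraMap E M (a : E)}

theorem coprimeIdeals_le_nonZeroDivisors (m : Ideal (𝓞 E)) :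
    coprimeIdeals E m ≤ (Ideal (𝓞 E))⁰ := by
  intro I hI
  exact mem_nonZeroDivisors_iff_ne_zero.mpr hI.1

variable (M) in
/-- The class in `IS M S` of the extension to `M` of an ideal coprime to `m`. -/
noncomputable def clS (S : Set (HeightOneSpectrum (𝓞 E))) (m : Ideal (𝓞 E)) :
    coprimeIdeals E m →* IS M S :=
  (mkS M S).comp ((extFrac E M).comp ((FractionalIdeal.mk0 E).comp
    (Submonoid.inclusion (coprimeIdeals_le_nonZeroDivisors m))))

theorem clS_apply (S : Set (HeightOneSpectrum (𝓞 E))) (m : Ideal (𝓞 E))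
    (I : coprimeIdeals E m) :
    clS M S m I = mkS M S (extFrac E M (FractionalIdeal.mk0 E
      ⟨I.1, coprimeIdeals_le_nonZeroDivisors m I.2⟩)) := rfl

theorem tS_clS (σ : M ≃ₐ[E] M) (S : Set (HeightOneSpectrum (𝓞 E))) (m : Ideal (𝓞 E))
    (I : coprimeIdeals E m) : tS σ S (clS M S m I) = clS M S m I := by
  rw [clS_apply, tS_mkS, galFrac_extFrac]

omit [IsGalois E M] in
theorem isCoprime_of_primeTo {S : Set (HeightOneSpectrum (𝓞 E))} {m : Ideal (𝓞 E)}
    (hm : ∀ v : HeightOneSpectrum (𝓞 E), m ≤ v.asIdeal → v ∈ S) {I : Ideal (𝓞 E)}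
    (hI : PrimeTo S I) : IsCoprime I m := by
  rw [Ideal.isCoprime_iff_sup_eq]
  by_contra h
  obtain ⟨P, hPmax, hle⟩ := Ideal.exists_le_maximal _ h
  have hP0 : P ≠ ⊥ := by
    rintro rfl
    exact hI.1 (le_bot_iff.mp (le_sup_left.trans hle))
  let v : HeightOneSpectrum (𝓞 E) := ⟨P, hPmax.isPrime, hP0⟩
  exact hI.2 v (hm v (le_sup_right.trans hle)) (le_sup_left.trans hle)

omit [IsGalois E M] in
theorem notMem_of_isCoprime {S : Set (HeightOneSpectrum (𝓞 E))} {m : Ideal (𝓞 E)}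
    (hm : ∀ v : HeightOneSpectrum (𝓞 E), v ∈ S → m ≤ v.asIdeal) (v : HeightOneSpectrum (𝓞 E))
    (hv : IsCoprime v.asIdeal m) : v ∉ S := by
  intro hS
  rw [Ideal.isCoprime_iff_sup_eq, sup_of_le_left (hm v hS)] at hv
  exact v.isPrime.ne_top hv

omit [IsGalois E M] in
theorem PrimeTo.pow {R : Type*} [CommRing R] [IsDedekindDomain R]
    {T : Set (HeightOneSpectrum R)} {I : Ideal R} (hI : PrimeTo T I) (n : ℕ) :
    PrimeTo T (I ^ n) := by
  induction n with
  | zero =>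
    rw [pow_zero, Ideal.one_eq_top]
    exact PrimeTo.top T
  | succ n ih =>
    rw [pow_succ]
    exact ih.mul hI

theorem normFrac_eq_pow_of_galFrac_eq (σ : M ≃ₐ[E] M) (x : (FractionalIdeal (𝓞 M)⁰ M)ˣ)
    (hx : galFrac σ x = x) (n : ℕ) : normFrac σ n x = x ^ n := by
  rw [normFrac_apply, Finset.prod_congr rfl fun j _ => galFrac_pow_eq_of_eq σ x hx j,
    Finset.prod_const, Finset.card_range]

variable {p : ℕ} (hp : p.Prime) (hdeg : finrank E M = p) (σ : M ≃ₐ[E] M) (hσ : σ ≠ 1)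

include hp hdeg hσ in
/-- Every `σ`-invariant class of `IS M S` is, modulo norms, the class of the extension of an
integral ideal of `E` coprime to `m`. -/
theorem exists_clS_div_mem_range_nIS (S : Set (HeightOneSpectrum (𝓞 E)))
    (hur : ∀ w : HeightOneSpectrum (𝓞 M), w.under (𝓞 E) ∉ S →
      w.asIdeal.ramificationIdx (𝓞 E) = 1)
    (m : Ideal (𝓞 E)) (hm : ∀ v : HeightOneSpectrum (𝓞 E), m ≤ v.asIdeal → v ∈ S)
    (y : IS M S) (hy : y ∈ (cobd (tS σ S)).ker) :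
    ∃ I : coprimeIdeals E m, clS M S m I / y ∈ (nIS σ p S).range := by
  rw [mem_ker_cobd] at hy
  obtain ⟨a, rfl⟩ := mkS_surjective S y
  obtain ⟨t, ht, q, hq, rfl⟩ := exists_mul_of_suppGrp M (sAbove M S) a
  rw [tS_mkS] at hy
  have hy' : galFrac σ (t * q) / (t * q) ∈ suppGrp M (sAbove M S) :=
    QuotientGroup.eq_iff_div_mem.mp hy
  -- `q` is `σ`-invariant
  have hq1 : galFrac σ q / q ∈ suppGrp M (sAbove M S) := by
    have e : galFrac σ q / q = (galFrac σ (t * q) / (t * q)) * (t / galFrac σ t) := by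
      rw [map_mul]
      exact commGroup_aux1 _ _ _ _
    rw [e]
    exact mul_mem hy' (div_mem ht (galFrac_mem_suppGrp σ S ht))
  have hq2 : galFrac σ q / q ∈ suppGrp M (sAbove M S)ᶜ := by
    have hq' : q ∈ suppGrp M (sAbove M Sᶜ) := hq
    have h3 : galFrac σ q / q ∈ suppGrp M (sAbove M Sᶜ) :=
      div_mem (galFrac_mem_suppGrp σ Sᶜ hq') hq'
    exact h3
  have hinv : galFrac σ q = q := by
    have h4 : galFrac σ q / q ∈ suppGrp M (sAbove M S) ⊓ suppGrp M (sAbove M S)ᶜ := ⟨hq1, hq2⟩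
    rw [suppGrp_inf_compl, Subgroup.mem_bot] at h4
    exact div_eq_one.mp h4
  obtain ⟨b, hbS, hbq⟩ := exists_extFrac_eq_of_galFrac_eq_of_mem hp hdeg σ hσ S hur q hq hinv
  obtain ⟨I₀, J, hI₀, hJ, hbJ⟩ := exists_primeTo_of_mem_suppGrp_compl E hbS
  have h𝔞 : PrimeTo S (I₀ * J ^ (p - 1)) := hI₀.mul (hJ.pow (p - 1))
  have h𝔞c : I₀ * J ^ (p - 1) ∈ coprimeIdeals E m := ⟨h𝔞.1, isCoprime_of_primeTo hm h𝔞⟩
  have hJ0 : J ∈ (Ideal (𝓞 E))⁰ := mem_nonZeroDivisors_iff_ne_zero.mpr hJ.1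
  refine ⟨⟨I₀ * J ^ (p - 1), h𝔞c⟩, ?_⟩
  -- in `I_E`: `mk0 (I₀ J^(p-1)) = b * (mk0 J)^p`
  have e1 : FractionalIdeal.mk0 E ⟨I₀ * J ^ (p - 1), coprimeIdeals_le_nonZeroDivisors m h𝔞c⟩ =
      b * (FractionalIdeal.mk0 E ⟨J, hJ0⟩) ^ p := by
    apply Units.ext
    rw [FractionalIdeal.coe_mk0, Units.val_mul, Units.val_pow_eq_pow_val, FractionalIdeal.coe_mk0]
    change ((I₀ * J ^ (p - 1) : Ideal (𝓞 E)) : FractionalIdeal (𝓞 E)⁰ E) =
      (b : FractionalIdeal (𝓞 E)⁰ E) * (J : FractionalIdeal (𝓞 E)⁰ E) ^ p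
    have hp1 : p = (p - 1) + 1 := (Nat.succ_pred_eq_of_pos hp.pos).symm
    conv_rhs => rw [hp1, pow_succ, ← mul_assoc, mul_right_comm, hbJ]
    rw [FractionalIdeal.coeIdeal_mul, FractionalIdeal.coeIdeal_pow]
  -- in `I_M`
  have e2 : extFrac E M (FractionalIdeal.mk0 E
      ⟨I₀ * J ^ (p - 1), coprimeIdeals_le_nonZeroDivisors m h𝔞c⟩) / (t * q) =
      t⁻¹ * normFrac σ p (extFrac E M (FractionalIdeal.mk0 E ⟨J, hJ0⟩)) := by
    rw [e1, map_mul, map_pow, hbq, normFrac_eq_pow_of_galFrac_eq σ _ (galFrac_extFrac σ _)]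
    exact commGroup_aux2 _ _ _
  have e3 : clS M S m ⟨I₀ * J ^ (p - 1), h𝔞c⟩ / mkS M S (t * q) =
      mkS M S (t⁻¹ * normFrac σ p (extFrac E M (FractionalIdeal.mk0 E ⟨J, hJ0⟩))) := by
    rw [← e2]
    exact (map_div (mkS M S) _ _).symm
  have e4 : mkS M S (t⁻¹ * normFrac σ p (extFrac E M (FractionalIdeal.mk0 E ⟨J, hJ0⟩))) =
      mkS M S (normFrac σ p (extFrac E M (FractionalIdeal.mk0 E ⟨J, hJ0⟩))) := by
    apply mkS_eq_mkS_of_div_mem
    have e5 : t⁻¹ * normFrac σ p (extFrac E M (FractionalIdeal.mk0 E ⟨J, hJ0⟩)) /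
        normFrac σ p (extFrac E M (FractionalIdeal.mk0 E ⟨J, hJ0⟩)) = t⁻¹ :=
      mul_div_cancel_right _ _
    rw [e5]
    exact inv_mem ht
  rw [e3, e4]
  exact ⟨mkS M S (extFrac E M (FractionalIdeal.mk0 E ⟨J, hJ0⟩)), nIS_mkS σ p S _⟩

/-- The class of a principal ideal generated by an integer congruent to `1` modulo `m`. -/
theorem clS_span_mem (S : Set (HeightOneSpectrum (𝓞 E))) (m : Ideal (𝓞 E)) (a : 𝓞 E)
    (ha : a - 1 ∈ m) (ha0 : a ≠ 0) (h : Ideal.span {a} ∈ coprimeIdeals E m) :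
    clS M S m ⟨Ideal.span {a}, h⟩ ∈ (rayUnits M m).map (dS M S) := by
  have hx0 : algebraMap E M (a : E) ≠ 0 := by
    rw [Ne, map_eq_zero]
    exact fun h0 => ha0 (RingOfIntegers.ext (by rw [h0]; rfl))
  refine ⟨Units.mk0 (algebraMap E M (a : E)) hx0, Subgroup.subset_closure ⟨a, ha, rfl⟩, ?_⟩
  rw [dS_apply, clS_apply]
  congr 1
  apply Units.ext
  rw [coe_toPrincipalIdeal, Units.val_mk0, coe_extFrac, FractionalIdeal.coe_mk0]
  change _ = FractionalIdeal.extendedHom M (𝓞 M)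
    ((Ideal.span {a} : Ideal (𝓞 E)) : FractionalIdeal (𝓞 E)⁰ E)
  rw [FractionalIdeal.coeIdeal_span_singleton, extendedHom_spanSingleton_algebraMap]

include hp hdeg in
/-- A prime with `e = f = 1` is not non-split. -/
theorem not_isNonSplit_of_inertiaDeg_eq_one (w : HeightOneSpectrum (𝓞 M))
    (he : w.asIdeal.ramificationIdx (𝓞 E) = 1) (hf : w.asIdeal.inertiaDeg (𝓞 E) = 1) :
    ¬ IsNonSplit M (w.under (𝓞 E)) := by
  intro hns
  have hpm : (w.under (𝓞 E)).asIdeal.IsMaximal := (w.under (𝓞 E)).isMaximal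
  have hlo : w.asIdeal.LiesOver (w.under (𝓞 E)).asIdeal := ⟨rfl⟩
  have h := Ideal.ncard_primesOver_mul_ramificationIdxIn_mul_inertiaDegIn
    (w.under (𝓞 E)).asIdeal (𝓞 M) (M ≃ₐ[E] M)
  rw [IsGalois.card_aut_eq_finrank, hdeg,
    Ideal.ramificationIdxIn_eq_ramificationIdx (w.under (𝓞 E)).asIdeal w.asIdeal (M ≃ₐ[E] M),
    Ideal.inertiaDegIn_eq_inertiaDeg (w.under (𝓞 E)).asIdeal w.asIdeal (M ≃ₐ[E] M), he, hf,
    (isNonSplit_def (w.under (𝓞 E))).mp hns] at h
  exact hp.one_lt.ne' h.symm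

include hp hdeg hσ in
/-- The class of a prime outside `S` lying under a prime of residue degree one is a norm. -/
theorem clS_prime_mem (S : Set (HeightOneSpectrum (𝓞 E)))
    (hur : ∀ w : HeightOneSpectrum (𝓞 M), w.under (𝓞 E) ∉ S →
      w.asIdeal.ramificationIdx (𝓞 E) = 1)
    (m : Ideal (𝓞 E)) (w : HeightOneSpectrum (𝓞 M)) (hwS : w.under (𝓞 E) ∉ S)
    (hf : w.asIdeal.inertiaDeg (𝓞 E) = 1)
    (h : (w.under (𝓞 E)).asIdeal ∈ coprimeIdeals E m) :
    clS M S m ⟨(w.under (𝓞 E)).asIdeal, h⟩ ∈ (nIS σ p S).range := by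
  classical
  have e1 : FractionalIdeal.mk0 E
      ⟨(w.under (𝓞 E)).asIdeal, coprimeIdeals_le_nonZeroDivisors m h⟩ =
      primeUnit E (w.under (𝓞 E)) := by
    apply Units.ext
    rw [FractionalIdeal.coe_mk0, coe_primeUnit]
  rw [clS_apply, e1]
  apply mkS_extFrac_mem_range_nIS hp hdeg σ hσ S hur
  intro v' hv'S hv'ns
  rw [coe_primeUnit, FractionalIdeal.count_maximal]
  have hne : w.under (𝓞 E) ≠ v' := by
    rintro rfl
    exact not_isNonSplit_of_inertiaDeg_eq_one hp hdeg w (hur w hwS) hf hv'ns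
  rw [if_neg hne]
  exact dvd_zero _

include hp hdeg hσ in
/-- **The second inequality with modulus, in the shape of the abstract Hasse norm theorem.** -/
theorem ray_relIndex_le (S : Set (HeightOneSpectrum (𝓞 E)))
    (hur : ∀ w : HeightOneSpectrum (𝓞 M), w.under (𝓞 E) ∉ S →
      w.asIdeal.ramificationIdx (𝓞 E) = 1)
    (m : Ideal (𝓞 E)) (hm : ∀ v : HeightOneSpectrum (𝓞 E), m ≤ v.asIdeal ↔ v ∈ S)
    (hSI : ∀ (G : Type v) [CommGroup G] (cl : coprimeIdeals E m →* G), Function.Surjective cl →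
      (∀ (a : 𝓞 E) (ha : a ∈ rayGen E m (∅ : Set {w : InfinitePlace E // w.IsReal}))
        (ha0 : a ≠ 0), cl ⟨Ideal.span {a}, span_mem_coprimeIdeals ha ha0⟩ = 1) →
      ∀ H : Subgroup G,
        (∀ (w : HeightOneSpectrum (𝓞 M)) (hv : (w.under (𝓞 E)).asIdeal ∈ coprimeIdeals E m),
          w.asIdeal.inertiaDeg (𝓞 E) = 1 → cl ⟨(w.under (𝓞 E)).asIdeal, hv⟩ ∈ H) →
        H.index ≠ 0 ∧ H.index ≤ Module.finrank E M) :
    ((rayUnits M m).map (dS M S) ⊔ (nIS σ p S).range).relIndex (cobd (tS σ S)).ker ≠ 0 ∧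
      ((rayUnits M m).map (dS M S) ⊔ (nIS σ p S).range).relIndex (cobd (tS σ S)).ker ≤ p := by
  obtain ⟨G, hG, cl, hsurj, hcl1, hcard⟩ := exists_group_of_forall_div_mem
    (cobd (tS σ S)).ker ((rayUnits M m).map (dS M S) ⊔ (nIS σ p S).range) (clS M S m)
    (fun I => (mem_ker_cobd _ _).mpr (tS_clS σ S m I))
    (fun y hy => by
      obtain ⟨I, hI⟩ := exists_clS_div_mem_range_nIS hp hdeg σ hσ S hur m
        (fun v hv => (hm v).mp hv) y hy
      exact ⟨I, Subgroup.mem_sup_right hI⟩)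
  have key := @hSI G hG cl hsurj
    (fun a ha ha0 => (hcl1 _).mpr (Subgroup.mem_sup_left
      (clS_span_mem S m a ha.1 ha0 (span_mem_coprimeIdeals ha ha0))))
    ⊥
    (fun w hv hf => by
      rw [Subgroup.mem_bot, hcl1]
      have hwS : w.under (𝓞 E) ∉ S :=
        notMem_of_isCoprime (fun v hv => (hm v).mpr hv) _ hv.2
      exact Subgroup.mem_sup_right (clS_prime_mem hp hdeg σ hσ S hur m w hwS hf hv))
  rw [Subgroup.index_bot, hcard, hdeg] at key
  exact key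

end Fermat.Agent.CFT.HNT
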