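import Mathlib
import Fermat.Agent.CFT.HNT.SAbstract
import Fermat.Agent.CFT.HNT.SRay
import Fermat.Agent.CFT.HNT.WeakApprox
import Fermat.Agent.CFT.HNT.NormCongr
import Fermat.Agent.CFT.LocNorm.NumberField
import Fermat.Agent.CFT.Ray.RaySecondIneq

/-!
# The Hasse norm theorem for cyclic extensions of odd prime degree

`M/E` a Galois extension of number fields of odd prime degree `p`, `S` a finite set of primes of
`E` containing the primes that ramify in `M`.  An element `a ∈ Eˣ` is a norm from `M` as soon as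

* `p ∣ ord_v a` at the non-split (inert) primes `v ∉ S`, and
* `a` is a local norm at the non-split primes `v ∈ S`: `a ∈ normCongr M v`, i.e. `a` is congruent
  to a norm modulo every power of `v`.

(`p` is odd, so the infinite places impose no condition.)  `exists_norm_eq_of_local` is the
version with abstract local norm groups `Nloc v`; `exists_norm_eq_of_normCongr` the version with
`normCongr M v`; `exists_norm_eq_of_forall_normCongr` the "everywhere locally a norm" form.
-/

namespace Fermat.Agent.CFT.HNT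

open NumberField nonZeroDivisors IsDedekindDomain Pointwise Module
open Fermat.Agent.CFT.Ray

set_option linter.unusedSectionVars false

section Modulus

variable {E : Type*} [Field E] [NumberField E]

theorem prod_pow_le_iff (S : Finset (HeightOneSpectrum (𝓞 E))) {n : ℕ} (hn : n ≠ 0)
    (v : HeightOneSpectrum (𝓞 E)) : (∏ u ∈ S, u.asIdeal ^ n) ≤ v.asIdeal ↔ v ∈ S := by
  constructor
  · intro h
    obtain ⟨u, hu, hle⟩ := (Ideal.IsPrime.prod_le v.isPrime).mp h
    have h1 : u.asIdeal ≤ v.asIdeal := Ideal.IsPrime.le_of_pow_le (hP := v.isPrime) hle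
    have h2 : u = v := HeightOneSpectrum.ext (u.isMaximal.eq_of_le v.isPrime.ne_top h1)
    exact h2 ▸ hu
  · intro hv
    have h1 : (∏ u ∈ S, u.asIdeal ^ n) ≤ v.asIdeal ^ n :=
      Ideal.le_of_dvd (Finset.dvd_prod_of_mem (fun u : HeightOneSpectrum (𝓞 E) => u.asIdeal ^ n) hv)
    exact h1.trans (Ideal.pow_le_self hn)

theorem prod_pow_ne_bot (S : Finset (HeightOneSpectrum (𝓞 E))) (n : ℕ) :
    (∏ u ∈ S, u.asIdeal ^ n) ≠ ⊥ := by
  rw [← Ideal.zero_eq_bot, Finset.prod_ne_zero_iff]
  intro u _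
  exact pow_ne_zero n u.ne_bot

theorem valuation_sub_one_le_of_mem_prod (S : Finset (HeightOneSpectrum (𝓞 E))) (n : ℕ)
    {v : HeightOneSpectrum (𝓞 E)} (hv : v ∈ S) {k : ℕ} (hk : k ≤ n) (a : 𝓞 E)
    (ha : a - 1 ∈ ∏ u ∈ S, u.asIdeal ^ n) :
    v.valuation E ((a : E) - 1) ≤ WithZero.exp (-(k : ℤ)) := by
  have h1 : (∏ u ∈ S, u.asIdeal ^ n) ≤ v.asIdeal ^ n :=
    Ideal.le_of_dvd (Finset.dvd_prod_of_mem (fun u : HeightOneSpectrum (𝓞 E) => u.asIdeal ^ n) hv)
  have h2 : a - 1 ∈ v.asIdeal ^ k := Ideal.pow_le_pow_right hk (h1 ha)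
  have h3 := (v.intValuation_le_pow_iff_mem (a - 1) k).mpr h2
  have h4 : ((a : E) - 1) = algebraMap (𝓞 E) E (a - 1) := by
    rw [map_sub, map_one]
  rw [h4, HeightOneSpectrum.valuation_of_algebraMap]
  exact h3

end Modulus

variable {E M : Type*} [Field E] [Field M] [NumberField E] [NumberField M] [Algebra E M]
  [IsGalois E M]

variable {p : ℕ} (hp : p.Prime) (hdeg : finrank E M = p) (σ : M ≃ₐ[E] M) (hσ : σ ≠ 1)

include hp hdeg hσ in
/-- The `σ`-fixed elements of `Mˣ` are the elements of `Eˣ`. -/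
theorem ker_cobd_galUnits :
    (cobd (galUnits σ)).ker = (Units.map (algebraMap E M : E →* M)).range := by
  ext x
  rw [mem_ker_cobd]
  constructor
  · intro hx
    have h1 : σ (x : M) = (x : M) := by
      have := congrArg Units.val hx
      rwa [coe_galUnits] at this
    obtain ⟨x₀, hx₀⟩ := LocNorm.exists_algebraMap_eq_of_fixed hp hdeg σ hσ h1
    have hx₀0 : x₀ ≠ 0 := by
      rintro rfl
      rw [map_zero] at hx₀
      exact x.ne_zero hx₀.symm
    exact ⟨Units.mk0 x₀ hx₀0, Units.ext hx₀⟩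
  · rintro ⟨y, rfl⟩
    apply Units.ext
    rw [coe_galUnits]
    exact AlgEquiv.commutes σ _

omit [IsGalois E M] in
theorem units_map_norm_apply (y : Mˣ) :
    ((Units.map (Algebra.norm E : M →* E) y : Eˣ) : E) = Algebra.norm E (y : M) := rfl

/-- The principal ideal of an element of `Eˣ`, extended to `M`. -/
theorem extFrac_toPrincipalIdeal (a : Eˣ) :
    extFrac E M (toPrincipalIdeal (𝓞 E) E a) =
      toPrincipalIdeal (𝓞 M) M (Units.map (algebraMap E M : E →* M) a) := by
  apply Units.ext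
  rw [coe_extFrac, coe_toPrincipalIdeal, coe_toPrincipalIdeal,
    extendedHom_spanSingleton_algebraMap]
  rfl

/-- **Hasse norm theorem** for a cyclic extension `M/E` of number fields of odd prime degree `p`,
with abstract local norm groups.  `S` is a finite set of primes of `E` containing the ramified
ones; for each non-split `v ∈ S`, `Nloc v` is a subgroup of `Eˣ` containing the norms (`hN1`),
open at `v` (`hN2`) and proper (`hN3`).  If `a ∈ Eˣ` has `p ∣ ord_v a` at the non-split primes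
outside `S` and `a ∈ Nloc v` at the non-split primes of `S`, then `a` is a norm from `M`. -/
theorem exists_norm_eq_of_local {E M : Type} [Field E] [Field M] [NumberField E] [NumberField M]
    [Algebra E M] [IsGalois E M] {p : ℕ} (hp : p.Prime) (hp2 : p ≠ 2) (hdeg : finrank E M = p)
    (S : Finset (HeightOneSpectrum (𝓞 E)))
    (hur : ∀ w : HeightOneSpectrum (𝓞 M), w.under (𝓞 E) ∉ S →
      w.asIdeal.ramificationIdx (𝓞 E) = 1)
    (Nloc : HeightOneSpectrum (𝓞 E) → Subgroup Eˣ)
    (hN1 : ∀ v ∈ S, IsNonSplit M v → ∀ y : Mˣ, Units.map (Algebra.norm E : M →* E) y ∈ Nloc v)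
    (hN2 : ∀ v ∈ S, IsNonSplit M v → ∃ n : ℕ, ∀ x : Eˣ,
      v.valuation E ((x : E) - 1) ≤ WithZero.exp (-(n : ℤ)) → x ∈ Nloc v)
    (hN3 : ∀ v ∈ S, IsNonSplit M v → Nloc v ≠ ⊤)
    (a : Eˣ)
    (ha1 : ∀ v : HeightOneSpectrum (𝓞 E), v ∉ S → IsNonSplit M v →
      (p : ℤ) ∣ WithZero.log (v.valuation E (a : E)))
    (ha2 : ∀ v ∈ S, IsNonSplit M v → a ∈ Nloc v) :
    ∃ z : M, Algebra.norm E z = a := by
  classical
  -- a generator of the Galois group
  have hcard : Nat.card (M ≃ₐ[E] M) = p := by rw [IsGalois.card_aut_eq_finrank, hdeg]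
  obtain ⟨σ, hσ⟩ : ∃ σ : M ≃ₐ[E] M, σ ≠ 1 := by
    have h1 : 1 < Nat.card (M ≃ₐ[E] M) := by rw [hcard]; exact hp.one_lt
    have : Finite (M ≃ₐ[E] M) := Nat.finite_of_card_ne_zero (by rw [hcard]; exact hp.ne_zero)
    have : Nontrivial (M ≃ₐ[E] M) := Finite.one_lt_card_iff_nontrivial.mp h1
    exact exists_ne 1
  set S' := S.filter (fun v => IsNonSplit M v) with hS'
  have hS'S : ∀ v ∈ S', v ∈ S ∧ IsNonSplit M v := fun v hv => Finset.mem_filter.mp hv
  -- the modulus
  have hopen' : ∀ v : HeightOneSpectrum (𝓞 E), ∃ n : ℕ, v ∈ S' → ∀ x : Eˣ,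
      v.valuation E ((x : E) - 1) ≤ WithZero.exp (-(n : ℤ)) → x ∈ Nloc v := by
    intro v
    by_cases hv : v ∈ S'
    · obtain ⟨n, hn⟩ := hN2 v (hS'S v hv).1 (hS'S v hv).2
      exact ⟨n, fun _ => hn⟩
    · exact ⟨0, fun h => absurd h hv⟩
  choose nv hnv using hopen'
  set n := S'.sup nv + 1 with hn
  have hn0 : n ≠ 0 := Nat.succ_ne_zero _
  set m : Ideal (𝓞 E) := ∏ u ∈ S, u.asIdeal ^ n with hm
  have hm0 : m ≠ ⊥ := prod_pow_ne_bot S n
  set Sset : Set (HeightOneSpectrum (𝓞 E)) := (S : Set (HeightOneSpectrum (𝓞 E))) with hSset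
  have hmS : ∀ v : HeightOneSpectrum (𝓞 E), m ≤ v.asIdeal ↔ v ∈ Sset := fun v =>
    (prod_pow_le_iff S hn0 v).trans Finset.mem_coe.symm
  have hur' : ∀ w : HeightOneSpectrum (𝓞 M), w.under (𝓞 E) ∉ Sset →
      w.asIdeal.ramificationIdx (𝓞 E) = 1 :=
    fun w hw => hur w (fun h => hw (Finset.mem_coe.mpr h))
  set ι : Eˣ →* Mˣ := Units.map (algebraMap E M : E →* M) with hι
  have hιinj : Function.Injective ι := Units.map_injective (algebraMap E M).injective
  set N0 : Subgroup Eˣ := ⨅ v ∈ S', Nloc v with hN0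
  have hN0mem : ∀ x : Eˣ, x ∈ N0 ↔ ∀ v ∈ S', x ∈ Nloc v := by
    intro x
    simp only [hN0, Subgroup.mem_iInf]
  -- the fixed points of `σ`
  have hfix : (cobd (galUnits σ)).ker = ι.range := ker_cobd_galUnits hp hdeg σ hσ
  -- Herbrand quotient of the `S`-units
  have hHerb := herbrand_sUnits_main hp hdeg σ hσ hp2 S
  rw [← ker_dS Sset] at hHerb
  -- the second inequality with modulus `m`
  have hray := ray_relIndex_le hp hdeg σ hσ Sset hur' m hmS
    (fun G _ cl hcl hker H hH => ray_index_le_finrank E M m hm0 ∅ cl hcl hker H hH)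
  -- the local count
  have hcnt : p ^ S'.card ∣ N0.index :=
    WeakApprox.pow_card_dvd_index_iInf S' Nloc hp
      (fun v hv => hN2 v (hS'S v hv).1 (hS'S v hv).2)
      (fun v hv x => by
        have h1 := hN1 v (hS'S v hv).1 (hS'S v hv).2 (ι x)
        have h2 : Units.map (Algebra.norm E : M →* E) (ι x) = x ^ p := by
          apply Units.ext
          rw [units_map_norm_apply, Units.val_pow_eq_pow_val, ← hdeg]
          exact Algebra.norm_algebraMap (x : E)
        rwa [h2] at h1)
      (fun v hv => hN3 v (hS'S v hv).1 (hS'S v hv).2)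
  -- the subgroups `R` and `L`
  have hRE : rayUnits M m ≤ (cobd (galUnits σ)).ker := by
    rw [rayUnits, Subgroup.closure_le]
    rintro x ⟨b, -, hb⟩
    rw [SetLike.mem_coe, mem_ker_cobd]
    apply Units.ext
    rw [coe_galUnits, hb]
    exact AlgEquiv.commutes σ _
  have hLE : N0.map ι ≤ (cobd (galUnits σ)).ker := by
    rw [hfix]
    exact Subgroup.map_le_range ι N0
  have hRL : rayUnits M m ≤ N0.map ι := by
    rw [rayUnits, Subgroup.closure_le]
    rintro x ⟨b, hb1, hb⟩
    have hb0 : (b : E) ≠ 0 := by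
      intro h0
      rw [h0, map_zero] at hb
      exact x.ne_zero hb
    refine ⟨Units.mk0 (b : E) hb0, ?_, Units.ext hb.symm⟩
    rw [SetLike.mem_coe, hN0mem]
    intro v hv
    refine hnv v hv _ ?_
    rw [Units.val_mk0]
    refine valuation_sub_one_le_of_mem_prod S n (hS'S v hv).1 ?_ b hb1
    exact (Finset.le_sup (f := nv) hv).trans (Nat.le_succ _)
  have hNL : (normUnits E M).range ≤ N0.map ι := by
    rintro _ ⟨y, rfl⟩
    refine ⟨Units.map (Algebra.norm E : M →* E) y, ?_, ?_⟩
    · rw [SetLike.mem_coe, hN0mem]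
      intro v hv
      exact hN1 v (hS'S v hv).1 (hS'S v hv).2 y
    · apply Units.ext
      rfl
  have hloc : (N0.map ι).relIndex (cobd (galUnits σ)).ker = 0 ∨
      p ^ S'.card ≤ (N0.map ι).relIndex (cobd (galUnits σ)).ker := by
    have h1 : (N0.map ι).relIndex (cobd (galUnits σ)).ker = N0.index := by
      rw [hfix, MonoidHom.range_eq_map, Subgroup.relIndex_map_map_of_injective _ _ hιinj,
        Subgroup.relIndex_top_right]
    rw [h1]
    by_cases h0 : N0.index = 0
    · exact Or.inl h0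
    · exact Or.inr (Nat.le_of_dvd (Nat.pos_of_ne_zero h0) hcnt)
  -- the abstract Hasse norm theorem
  have key := inf_le_range_of_local (galUnits σ) (normUnits E M) (tS σ Sset) (nIS σ p Sset)
    (dS M Sset) (dS_galUnits σ Sset) (dS_normUnits hp hdeg σ hσ Sset) (galUnits_normUnits σ)
    (normUnits_galUnits σ) (tS_nIS hp hdeg σ Sset) (nIS_tS hp hdeg σ Sset)
    (hilbert90_units hp hdeg σ hσ) (exists_eq_tS_div_of_nIS_eq_one hp hdeg σ hσ Sset)
    (index_range_dS_ne_zero Sset) p S'.card hp.pos hHerb.1 hHerb.2 (rayUnits M m) (N0.map ι)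
    hRE hLE hRL hNL hray.1 hray.2 hloc
  -- apply it to `a`
  have hax : ι a ∈ (cobd (galUnits σ)).ker ⊓ (nIS σ p Sset).range.comap (dS M Sset) ⊓
      N0.map ι := by
    refine ⟨⟨?_, ?_⟩, ?_⟩
    · rw [hfix]
      exact ⟨a, rfl⟩
    · change dS M Sset (ι a) ∈ (nIS σ p Sset).range
      rw [dS_apply, ← extFrac_toPrincipalIdeal]
      apply mkS_extFrac_mem_range_nIS hp hdeg σ hσ Sset hur'
      intro v hvS hvns
      rw [coe_toPrincipalIdeal, ln_count_spanSingleton v a.ne_zero, dvd_neg]
      exact ha1 v (fun h => hvS (Finset.mem_coe.mpr h)) hvns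
    · refine ⟨a, ?_, rfl⟩
      rw [SetLike.mem_coe, hN0mem]
      intro v hv
      exact ha2 v (hS'S v hv).1 (hS'S v hv).2
  obtain ⟨y, hy⟩ := key hax
  refine ⟨(y : M), ?_⟩
  have h2 : algebraMap E M (Algebra.norm E (y : M)) = algebraMap E M (a : E) := by
    have := congrArg Units.val hy
    rwa [coe_normUnits] at this
  exact (algebraMap E M).injective h2

/-- **Hasse norm theorem** for a cyclic extension `M/E` of number fields of odd prime degree `p`,
congruence form.  `S` is a finite set of primes of `E` containing the ramified ones.  If `a ∈ Eˣ`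
has `p ∣ ord_v a` at the non-split primes outside `S` and is congruent to a norm modulo every
power of `v` at the non-split primes `v ∈ S` (`a ∈ normCongr M v`), then `a` is a norm from `M`. -/
theorem exists_norm_eq_of_normCongr {E M : Type} [Field E] [Field M] [NumberField E]
    [NumberField M] [Algebra E M] [IsGalois E M] {p : ℕ} (hp : p.Prime) (hp2 : p ≠ 2)
    (hdeg : finrank E M = p) (S : Finset (HeightOneSpectrum (𝓞 E)))
    (hur : ∀ w : HeightOneSpectrum (𝓞 M), w.under (𝓞 E) ∉ S →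
      w.asIdeal.ramificationIdx (𝓞 E) = 1)
    (a : Eˣ)
    (ha1 : ∀ v : HeightOneSpectrum (𝓞 E), v ∉ S → IsNonSplit M v →
      (p : ℤ) ∣ WithZero.log (v.valuation E (a : E)))
    (ha2 : ∀ v ∈ S, IsNonSplit M v → a ∈ normCongr M v) :
    ∃ z : M, Algebra.norm E z = a :=
  exists_norm_eq_of_local hp hp2 hdeg S hur (normCongr M)
    (fun v _ _ y => norm_mem_normCongr v _ (y : M) rfl)
    (fun v _ _ => normCongr_open v)
    (fun v _ hv => LocNorm.normCongr_ne_top_of_isNonSplit hp hdeg v hv)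
    a ha1 ha2

include hp hdeg in
/-- At a non-split unramified prime, a local norm (in congruence form) has valuation divisible
by `p`. -/
theorem dvd_log_valuation_of_mem_normCongr (v : HeightOneSpectrum (𝓞 E)) (hv : IsNonSplit M v)
    (hur : ∀ w : HeightOneSpectrum (𝓞 M), w.under (𝓞 E) = v →
      w.asIdeal.ramificationIdx (𝓞 E) = 1)
    (a : Eˣ) (ha : a ∈ normCongr M v) :
    (p : ℤ) ∣ WithZero.log (v.valuation E (a : E)) := by
  have hcard : Nat.card (M ≃ₐ[E] M) = p := by rw [IsGalois.card_aut_eq_finrank, hdeg]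
  obtain ⟨σ, hσ⟩ : ∃ σ : M ≃ₐ[E] M, σ ≠ 1 := by
    have h1 : 1 < Nat.card (M ≃ₐ[E] M) := by rw [hcard]; exact hp.one_lt
    have : Finite (M ≃ₐ[E] M) := Nat.finite_of_card_ne_zero (by rw [hcard]; exact hp.ne_zero)
    have : Nontrivial (M ≃ₐ[E] M) := Finite.one_lt_card_iff_nontrivial.mp h1
    exact exists_ne 1
  obtain ⟨w, rfl⟩ := hs_exists_under (M := M) v
  have hlo : w.asIdeal.LiesOver (w.under (𝓞 E)).asIdeal := ⟨rfl⟩
  have hσw : hsPrime σ w = w :=
    (isNonSplit_iff_forall_hsPrime hp hdeg σ hσ _).mp hv w rfl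
  have hpow : ∀ j : ℕ, hsPrime (σ ^ j) w = w := by
    intro j
    apply HeightOneSpectrum.ext
    rw [hsPrime_asIdeal]
    have h1 : σ • w.asIdeal = w.asIdeal := congrArg HeightOneSpectrum.asIdeal hσw
    induction j with
    | zero => rw [pow_zero, one_smul]
    | succ j ih => rw [pow_succ, mul_smul, h1, ih]
  obtain ⟨y, hy0, hy⟩ := ha 1
  have hN0 : Algebra.norm E y ≠ 0 := by
    rw [Ne, Algebra.norm_eq_zero_iff]
    exact hy0
  -- `v(a) = v(N y)`
  have hlt : (w.under (𝓞 E)).valuation E ((a : E) / Algebra.norm E y - 1) < 1 := by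
    refine lt_of_le_of_lt hy ?_
    rw [← WithZero.exp_zero, WithZero.exp_lt_exp]
    norm_num
  have h1 : (w.under (𝓞 E)).valuation E ((a : E) / Algebra.norm E y) = 1 := by
    have h2 := Valuation.map_one_add_of_lt (v := (w.under (𝓞 E)).valuation E) hlt
    rwa [add_sub_cancel] at h2
  have h3 : (w.under (𝓞 E)).valuation E (a : E) =
      (w.under (𝓞 E)).valuation E (Algebra.norm E y) := by
    rw [map_div₀, div_eq_one_iff_eq ((Valuation.ne_zero_iff _).mpr hN0)] at h1
    exact h1
  -- `v(N y) = w(y)^p`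
  have h4 : (w.under (𝓞 E)).valuation E (Algebra.norm E y) = w.valuation M y ^ p := by
    have h5 := HeightOneSpectrum.valuation_liesOver M (w.under (𝓞 E)) w (Algebra.norm E y)
    rw [Ideal.ramificationIdx'_eq_ramificationIdx (w.under (𝓞 E)).asIdeal w.asIdeal
      (w.under (𝓞 E)).ne_bot, hur w rfl, pow_one] at h5
    rw [h5, LocNorm.algebraMap_norm_eq_nm hp hdeg σ hσ y]
    change w.valuation M (∏ j ∈ Finset.range p, (σ ^ j) y) = _
    rw [map_prod, Finset.prod_congr rfl (g := fun _ => w.valuation M y), Finset.prod_const,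
      Finset.card_range]
    intro j _
    have h6 := hs_valuation_smul (σ ^ j) w y
    rwa [hpow j] at h6
  rw [h3, h4, WithZero.log_pow, nsmul_eq_mul]
  exact dvd_mul_right _ _

/-- **Hasse norm theorem**, "everywhere locally a norm" form: an element of `Eˣ` that is a local
norm (in congruence form) at every non-split prime is a norm. -/
theorem exists_norm_eq_of_forall_normCongr {E M : Type} [Field E] [Field M] [NumberField E]
    [NumberField M] [Algebra E M] [IsGalois E M] {p : ℕ} (hp : p.Prime) (hp2 : p ≠ 2)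
    (hdeg : finrank E M = p) (S : Finset (HeightOneSpectrum (𝓞 E)))
    (hur : ∀ w : HeightOneSpectrum (𝓞 M), w.under (𝓞 E) ∉ S →
      w.asIdeal.ramificationIdx (𝓞 E) = 1)
    (a : Eˣ) (ha : ∀ v : HeightOneSpectrum (𝓞 E), IsNonSplit M v → a ∈ normCongr M v) :
    ∃ z : M, Algebra.norm E z = a :=
  exists_norm_eq_of_normCongr hp hp2 hdeg S hur a
    (fun v hvS hv => dvd_log_valuation_of_mem_normCongr hp hdeg v hv
      (fun w hw => hur w (hw ▸ hvS)) a (ha v hv))
    (fun v _ hv => ha v hv)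

end Fermat.Agent.CFT.HNT
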